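import Fermat.Agent.BAD.Engine.Ratio

/-!
# Additivity of the ratio, and changing the relative scale of the two components

`HasRatio D H ζ` says that the twisted reductions are glued with ratio `ζ` in every large degree;
it exists and is unique, and `hasRatio_mul` shows that it is multiplicative in `D`. By the
rescaling `exists_gauge`, a torsion class whose reductions are `n`-th powers up to scalars,
separately on each component, is represented by a witness (`exists_wit`): this is how the theorems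
at the end of the engine start. By `Kernel` the class of a witness is determined by its ratio.
-/

set_option autoImplicit false

attribute [local instance 10000] SubalgebraClass.toAlgebra HahnSeries.powerSeriesAlgebra

noncomputable section

open AlgebraicCurve

namespace Fermat.BAD

open Fermat.FF

variable {L : Type*} [Field L] {A : ValuationSubring L}
variable {k : Type*} [Field k] [IsAlgClosed L] [IsAlgClosed k]
variable {F : Type*} [Field F] [Algebra L F]
variable {π : A →+* k} {ι : Bool → F →+* LaurentSeries L}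
  {K : IntermediateField k (LaurentSeries k)}
variable [FF.IsFunctionField L F] [FF.IsFunctionField k K]

omit [IsAlgClosed L] [IsAlgClosed k] in
/-- A scalar with a power in the maximal ideal is in the maximal ideal. -/
theorem exists_mem_of_pow_eq {x : L} {n : ℕ} {c : A} (hn : n ≠ 0) (hx : x ^ n = c) (hc : π c = 0) :
    ∃ h : x ∈ A, π ⟨x, h⟩ = 0 := by
  have hxA : x ∈ A := by
    by_contra h
    have hinv := (A.mem_or_inv_mem x).resolve_left h
    have h1 : π (⟨x⁻¹, hinv⟩ ^ n * c) = 1 := by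
      rw [show (⟨x⁻¹, hinv⟩ ^ n * c : A) = 1 from Subtype.ext (by
        show x⁻¹ ^ n * (c : L) = 1
        rw [← hx, ← mul_pow, inv_mul_cancel₀ (fun h0 => h (by rw [h0]; exact zero_mem A)),
          one_pow]), map_one]
    rw [map_mul, hc, mul_zero] at h1
    exact zero_ne_one h1
  refine ⟨hxA, (pow_eq_zero_iff hn).mp ?_⟩
  rw [← map_pow, show (⟨x, hxA⟩ ^ n : A) = c from Subtype.ext hx, hc]

namespace Degen

variable (X : Degen π ι K)
include X

variable {n : ℕ} {D D' : Divisor L F} {y y' : F} {H H' : Bool → K}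

/-- The twisted reductions grow with `m`. -/
theorem sectRed_mono (D : Divisor L F) (H : Bool → K) {m m' : ℕ} (h : m ≤ m') :
    X.sectRed D H m ≤ X.sectRed D H m' :=
  fun _ ⟨g, hg, hgO, hP⟩ => ⟨g, X.sect_mono h hg, hgO, hP⟩

/-- The reductions of all large `L(D + m A₀)` are glued with ratio `ζ`. -/
def HasRatio (D : Divisor L F) (H : Bool → K) (ζ : Place k K → k) : Prop :=
  ∀ m, X.N0 ≤ m → X.sectRed D H m = X.glueSp ζ m

/-- Nested glued systems have the same ratio at the glued points. -/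
theorem eqOn_of_sectRed_le {ζ ζ' : Place k K → k} {m m' : ℕ} (hm : X.N0 ≤ m)
    (h : X.glueSp ζ m ≤ X.glueSp ζ' m') {s : Place k K} (hs : s ∈ X.S) : ζ s = ζ' s := by
  obtain ⟨P, hP, hv⟩ := X.exists_section ζ hm
  have := (h hP).2 s hs
  rwa [(hv s hs).1, (hv s hs).2, mul_one] at this

/-- A glued system depends only on the ratio at the glued points. -/
theorem glueSp_congr {ζ ζ' : Place k K → k} (h : ∀ s ∈ X.S, ζ s = ζ' s) (m : ℕ) :
    X.glueSp ζ m = X.glueSp ζ' m :=
  le_antisymm (fun _ hP => ⟨hP.1, fun s hs => by rw [← h s hs]; exact hP.2 s hs⟩)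
    (fun _ hP => ⟨hP.1, fun s hs => by rw [h s hs]; exact hP.2 s hs⟩)

/-- Every witness has a ratio, of `n`-th roots of unity. -/
theorem exists_hasRatio (hn : n ≠ 0) (h : X.Wit n D y H) :
    ∃ ζ : Place k K → k, (∀ s, ζ s ^ n = 1) ∧ X.HasRatio D H ζ := by
  obtain ⟨ζ, hζn, hζ⟩ := X.exists_ratio_at hn h le_rfl
  refine ⟨ζ, hζn, fun m hm => ?_⟩
  obtain ⟨ζ', -, hζ'⟩ := X.exists_ratio_at hn h hm
  rw [hζ']
  refine X.glueSp_congr (fun s hs => (X.eqOn_of_sectRed_le (m' := m) le_rfl ?_ hs).symm) m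
  rw [← hζ, ← hζ']
  exact X.sectRed_mono D H hm

/-- The ratio is unique at the glued points. -/
theorem hasRatio_unique {ζ ζ' : Place k K → k} (h : X.HasRatio D H ζ) (h' : X.HasRatio D H ζ')
    {s : Place k K} (hs : s ∈ X.S) : ζ s = ζ' s :=
  X.eqOn_of_sectRed_le le_rfl ((h _ le_rfl).symm.trans (h' _ le_rfl)).le hs

/-- Witnesses multiply. -/
theorem wit_mul (h : X.Wit n D y H) (h' : X.Wit n D' y' H') :
    X.Wit n (D + D') (y * y') (H * H') :=
  ⟨mul_ne_zero h.y_ne h'.y_ne, by rw [divOf_mul h.y_ne h'.y_ne, h.div_eq, h'.div_eq, nsmul_add],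
    mul_mem h.mem h'.mem, fun b => mul_ne_zero (h.H_ne b) (h'.H_ne b), fun b => by
    rw [X.red_mul (X.int_of_mem_O h.mem b) (X.int_of_mem_O h'.mem b), h.red_eq, h'.red_eq,
      Pi.mul_apply, mul_pow]⟩

/-- Witnesses invert. -/
theorem wit_inv (h : X.Wit n D y H) : X.Wit n (-D) y⁻¹ H⁻¹ :=
  ⟨inv_ne_zero h.y_ne, by rw [divOf_inv, h.div_eq, smul_neg],
    X.mem_O.mpr fun b => (X.prim_inv (X.wit_prim h b)).1.1, fun b => inv_ne_zero (h.H_ne b),
    fun b => by rw [(X.prim_inv (X.wit_prim h b)).2, h.red_eq, Pi.inv_apply, inv_pow]⟩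

/-- The trivial witness. -/
theorem wit_zero : X.Wit n 0 1 1 :=
  ⟨one_ne_zero, by ext v; simp, one_mem _, fun _ => one_ne_zero, fun b => by simp⟩

/-- The trivial witness has ratio one. -/
theorem hasRatio_one (hn : n ≠ 0) : X.HasRatio (0 : Divisor L F) 1 (fun _ => 1) := by
  obtain ⟨ζ, -, hζ⟩ := X.exists_hasRatio hn (X.wit_zero (n := n))
  intro m hm
  rw [hζ m hm]
  refine X.glueSp_congr (fun s hs => ?_) m
  have h1 : (1 : Bool → K) ∈ X.sectRed (0 : Divisor L F) 1 X.N0 := by
    refine ⟨1, mem_riemannRochSpace.mpr fun v => ?_, one_mem _, fun b => by simp⟩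
    refine (ordGE_one v).mono ?_
    have := Finsupp.le_def.mp (nsmul_nonneg X.A0_nonneg X.N0) v
    simpa using this
  rw [hζ _ le_rfl] at h1
  simpa using (h1.2 s hs).symm

/-- The converse inequality to the field `count`: the genus is at least that of the glued curves,
because reduction loses no dimensions and lands in the glued pairs. -/
theorem card_S_add_genus_le :
    X.S.card + 2 * genusFF k K ≤ genusFF L F + 1 := by
  obtain ⟨m, hm⟩ : ∃ m : ℕ, X.N0 + 2 * genusFF L F + 2 * genusFF k K ≤ m :=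
    ⟨_, le_rfl⟩
  have hm0 : X.N0 ≤ m := by omega
  set W := riemannRochSpace (m • X.A0)
  have : FiniteDimensional L W := FF.instFiniteRiemannRochSpace _
  have h3 : X.redImage W 1 = X.glueSp (fun _ => 1) m := by
    simpa [Degen.sectRed, Degen.sect] using X.hasRatio_one one_ne_zero _ hm0
  have := X.finiteDimensional_glueSp (fun _ => 1) m
  have : FiniteDimensional k (X.redImage W 1) := h3.symm ▸ inferInstance
  have h4 := X.finrank_le_redImage (W := W) (u := 1) fun _ => one_ne_zero
  rw [h3] at h4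
  have h5 := X.finrank_glueSp (fun _ => 1) hm0
  have hB := X.deg_B_pos
  have hd : Divisor.degree (m • X.A0) = 2 * ((m : ℤ) * Divisor.degree X.B) := by
    rw [map_nsmul, X.deg_A0, nsmul_eq_mul]; ring
  have hmB : (m : ℤ) ≤ (m : ℤ) * Divisor.degree X.B :=
    le_mul_of_one_le_right (Int.natCast_nonneg m) hB
  have h6 := FF.ell_of_degree_ge (D := m • X.A0) (by rw [hd]; omega)
  rw [hd, FF.ell] at h6
  change (Module.finrank L W : ℤ) = _ at h6
  change (Module.finrank k (X.glueSp (fun _ => 1) m) : ℤ) + X.S.card =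
    2 * ((m : ℤ) * Divisor.degree X.B + 1 - genusFF k K) at h5
  omega

/-- Every glued pair of ratio one is the reduction of an integral section of `m A0`. -/
theorem exists_lift {m : ℕ} (hm : X.N0 ≤ m) {P : Bool → K}
    (hP : P ∈ X.glueSp (fun _ => 1) m) :
    ∃ f ∈ riemannRochSpace (m • X.A0), f ∈ X.O ∧ ∀ b, X.red b f = P b := by
  rw [← X.hasRatio_one one_ne_zero m hm] at hP
  obtain ⟨g, hg, hgO, hPe⟩ := hP
  exact ⟨g, by simpa [sect] using hg, hgO, fun b => by simpa using (hPe b).symm⟩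

/-- The ratio of a product of witnesses is the product of the ratios. -/
theorem hasRatio_mul (hn : n ≠ 0) (h : X.Wit n D y H) (h' : X.Wit n D' y' H')
    {ζ ζ' : Place k K → k} (hζ : X.HasRatio D H ζ) (hζ' : X.HasRatio D' H' ζ') :
    X.HasRatio (D + D') (H * H') (fun s => ζ s * ζ' s) := by
  obtain ⟨η, -, hη⟩ := X.exists_hasRatio hn (X.wit_mul h h')
  intro m hm
  rw [hη m hm]
  refine X.glueSp_congr (fun s hs => ?_) m
  obtain ⟨P, hP, hv⟩ := X.exists_section ζ (le_refl X.N0)
  obtain ⟨P', hP', hv'⟩ := X.exists_section ζ' (le_refl X.N0)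
  rw [← hζ _ le_rfl] at hP
  rw [← hζ' _ le_rfl] at hP'
  have hr := X.sectRed_le_pi hn h _ hP
  have hr' := X.sectRed_le_pi hn h' _ hP'
  obtain ⟨g, hg, hgO, hPe⟩ := hP
  obtain ⟨g', hg', hgO', hPe'⟩ := hP'
  have hprod : P * P' ∈ X.sectRed (D + D') (H * H') (X.N0 + X.N0) := by
    refine ⟨g * g', mem_riemannRochSpace.mpr fun v => ?_, mul_mem hgO hgO', fun b => ?_⟩
    · refine ((mem_riemannRochSpace.mp hg v).mul (mem_riemannRochSpace.mp hg' v)).mono ?_
      simp only [Finsupp.add_apply, Finsupp.smul_apply, nsmul_eq_mul, Nat.cast_add]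
      exact le_of_eq (by ring)
    · rw [Pi.mul_apply, Pi.mul_apply, hPe, hPe',
        X.red_mul (X.int_of_mem_O hgO b) (X.int_of_mem_O hgO' b)]
      ring
  rw [hη _ (Nat.le_add_right _ _)] at hprod
  have := hprod.2 s hs
  rw [Pi.mul_apply, Pi.mul_apply,
    evalAt_mul (X.ordGE_S (hr true trivial) (X.S_B s hs))
      (X.ordGE_S (hr' true trivial) (X.S_B s hs)),
    evalAt_mul (X.ordGE_S (hr false trivial) (X.Qf_B s hs))
      (X.ordGE_S (hr' false trivial) (X.Qf_B s hs)), (hv s hs).1, (hv' s hs).1, (hv s hs).2,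
    (hv' s hs).2] at this
  simpa using this.symm

/-- A function on the first component vanishing at the glued points lifts to one vanishing on the
second component. -/
theorem exists_lift_of_vanishing {z : K}
    (hz : z ∈ riemannRochSpace (X.N0 • X.B - ∑ t ∈ X.S, Finsupp.single t (1 : ℤ))) :
    ∃ g ∈ riemannRochSpace (X.N0 • X.A0), g ∈ X.O ∧ X.red false g = 0 ∧ X.red true g = z := by
  classical
  have hzB : z ∈ riemannRochSpace (X.N0 • X.B) := riemannRochSpace_mono
    (sub_le_self _ (Finset.sum_nonneg fun s _ => Finsupp.le_def.mpr fun v => by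
      rw [Finsupp.coe_zero, Pi.zero_apply, Finsupp.single_apply]; split <;> norm_num)) hz
  have hP : (fun b => cond b z 0) ∈ X.glueSp (fun _ => 1) X.N0 := by
    refine ⟨fun b => by cases b; exacts [zero_mem _, hzB], fun s hs => ?_⟩
    change evalAt s z = 1 * evalAt (X.Qf s) (0 : K)
    rw [one_mul, show evalAt (X.Qf s) (0 : K) = 0 by simpa using evalAt_algebraMap (X.Qf s) (0 : k),
      evalAt_eq_zero_iff (X.ordGE_S hzB (X.S_B s hs))]
    refine (mem_riemannRochSpace.mp hz s).mono ?_
    rw [Finsupp.sub_apply, X.nsmul_B_eq_zero _ (X.S_B s hs), sum_single_apply, if_pos hs]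
    norm_num
  obtain ⟨g, hg, hgO, hred⟩ := X.exists_lift le_rfl hP
  exact ⟨g, hg, hgO, hred false, hred true⟩

/-- For every scalar `e` some `g` is primitive on the first component while `e g` is primitive on
the second: the relative scale of the components is arbitrary. -/
theorem exists_gauge (e : L) (he : e ≠ 0) :
    ∃ g : F, X.Prim true g ∧ X.Prim false (e • g) := by
  classical
  -- units are trivial and `e⁻¹` reduces to `e`, so assume `e ∉ A`
  suffices key : ∀ e : L, e ≠ 0 → e ∉ A → ∃ g : F, X.Prim true g ∧ X.Prim false (e • g) by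
    by_cases h : e ∈ A
    · by_cases h' : e⁻¹ ∈ A
      · refine ⟨1, X.prim_one true, X.int_smul h (X.prim_one false).1, fun h0 => ?_⟩
        have h2 := congrArg (fun z : K => π ⟨e⁻¹, h'⟩ • z) h0
        simp only [smul_zero] at h2
        rw [← X.red_smul _ (X.int_smul h (X.prim_one false).1),
          show ((⟨e⁻¹, h'⟩ : A) : L) • e • (1 : F) = 1 by
            rw [smul_smul, inv_mul_cancel₀ he, one_smul]] at h2
        exact (X.prim_one false).2 h2
      · obtain ⟨g, hg, hg'⟩ := key e⁻¹ (inv_ne_zero he) h'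
        refine ⟨g⁻¹, (X.prim_inv hg).1, ?_⟩
        have := (X.prim_inv hg').1
        rwa [show (e⁻¹ • g)⁻¹ = e • g⁻¹ by
          rw [Algebra.smul_def, Algebra.smul_def, mul_inv, map_inv₀, inv_inv]] at this
    · exact key e he h
  intro e he heA
  -- an element which is small on the second component
  have hd := X.le_degree_nsmul_B X.N0
  set E := X.N0 • X.B - ∑ t ∈ X.S, Finsupp.single t (1 : ℤ) with hE
  obtain ⟨z, hz, hz0, -⟩ := exists_exact_ord (D := E) ∅ (by
    rw [hE, map_sub, degree_single_sum]; unfold N0 at hd ⊢; omega)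
  obtain ⟨g1, -, hg1, hf, ht⟩ := X.exists_lift_of_vanishing hz
  have hg10 : g1 ≠ 0 := fun h0 => hz0 (by rw [← ht, h0, X.red_zero])
  obtain ⟨e1, he1, hp1⟩ := X.exists_smul_prim false hg10
  have he1A : e1 ∉ A := fun h => hp1.2 (by
    rw [show e1 • g1 = ((⟨e1, h⟩ : A) : L) • g1 from rfl, X.red_smul _ (X.int_of_mem_O hg1 false),
      hf, smul_zero])
  set a : A := ⟨e1⁻¹, (A.mem_or_inv_mem e1).resolve_left he1A⟩ with ha
  set c : A := ⟨e⁻¹, (A.mem_or_inv_mem e).resolve_left heA⟩ with hc
  have ha0 : π a = 0 := X.eq_zero_of_inv_notMem (by simpa [ha] using he1A)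
  have hc0 : π c = 0 := X.eq_zero_of_inv_notMem (by simpa [hc] using heA)
  -- a root `r` of `e⁻¹` of high enough order is less small than `a`
  obtain ⟨N, d, hd⟩ := X.arch a ha0 c (fun h => inv_ne_zero he (congrArg Subtype.val h))
  obtain ⟨r, hr⟩ := IsAlgClosed.exists_pow_nat_eq (c : L) (Nat.succ_pos N)
  obtain ⟨hrA, hπr⟩ := exists_mem_of_pow_eq (π := π) (Nat.succ_ne_zero N) hr hc0
  have hr0 : r ≠ 0 := fun h0 => by
    rw [h0, zero_pow (Nat.succ_ne_zero N)] at hr
    exact inv_ne_zero he hr.symm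
  -- `a / r` is in the maximal ideal
  have hpow : (e1⁻¹ / r) ^ (N + 1) = ((a * d : A) : L) := by
    have hd' : e1⁻¹ ^ N = (c : L) * (d : L) := congrArg Subtype.val hd
    rw [div_pow, hr, pow_succ, hd']
    have hc' : (c : L) ≠ 0 := inv_ne_zero he
    rw [MulMemClass.coe_mul, show (a : L) = e1⁻¹ from rfl]
    field_simp
  obtain ⟨hq, hq0⟩ := exists_mem_of_pow_eq (π := π) (Nat.succ_ne_zero N) hpow
    (by rw [map_mul, ha0, zero_mul])
  -- `(g1 + r) ^ (N + 1)` then works
  have halg : ∀ b, X.red b (algebraMap L F r) = 0 := fun b => by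
    rw [show algebraMap L F r = algebraMap L F ((⟨r, hrA⟩ : A) : L) from rfl, X.red_algebraMap,
      hπr, map_zero]
  have hpt : X.Prim true (g1 + algebraMap L F r) := by
    refine ⟨add_mem (X.int_of_mem_O hg1 true) (X.int_algebraMap hrA), ?_⟩
    rw [X.red_add (X.int_of_mem_O hg1 true) (X.int_algebraMap hrA), halg, add_zero, ht]
    exact hz0
  have hsplit : r⁻¹ • (g1 + algebraMap L F r)
      = ((⟨e1⁻¹ / r, hq⟩ : A) : L) • (e1 • g1) + 1 := by
    rw [smul_add, smul_smul, show e1⁻¹ / r * e1 = r⁻¹ by field_simp, Algebra.smul_def r⁻¹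
      (algebraMap L F r), ← map_mul, inv_mul_cancel₀ hr0, map_one]
  have hpf : X.Prim false (r⁻¹ • (g1 + algebraMap L F r)) := by
    rw [hsplit]
    refine ⟨add_mem (X.int_smul hq hp1.1) (X.prim_one false).1, ?_⟩
    rw [show ((⟨e1⁻¹ / r, hq⟩ : A) : L) • (e1 • g1) = ((⟨e1⁻¹ / r, hq⟩ : A) : L) •
      (e1 • g1) from rfl, X.red_add (X.int_smul (⟨e1⁻¹ / r, hq⟩ : A).2 hp1.1) (X.prim_one false).1,
      X.red_smul _ hp1.1, hq0, zero_smul,
      zero_add, X.red_one]
    exact one_ne_zero
  refine ⟨(g1 + algebraMap L F r) ^ (N + 1), hpt.pow _, ?_⟩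
  have := hpf.pow (N + 1)
  rwa [smul_pow, inv_pow, hr, show ((c : L))⁻¹ = e from inv_inv e] at this

/-- A divisor whose reductions are `n`-th powers up to scalars is equivalent to a witness. -/
theorem exists_wit (hn : n ≠ 0) {y : F} (hy : y ≠ 0) (hdiv : divOf L y = n • D)
    (hpow : ∀ b, ∃ (c : L) (z : K), X.Prim b (c • y) ∧ X.red b (c • y) = z ^ n) :
    ∃ g : F, g ≠ 0 ∧ ∃ y' H, X.Wit n (D + divOf L g) y' H := by
  -- scalings with `n`th power reductions on both components
  obtain ⟨ct, zt, hpt, hzt⟩ := hpow true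
  obtain ⟨cf, zf, hpf, hzf⟩ := hpow false
  have hct : ct ≠ 0 := fun h => hpt.ne_zero (by rw [h, zero_smul])
  have hcf : cf ≠ 0 := fun h => hpf.ne_zero (by rw [h, zero_smul])
  -- a gauge function balances the two scalars up to an `n`th power
  obtain ⟨e, he⟩ := IsAlgClosed.exists_pow_nat_eq (ct / cf) (Nat.pos_of_ne_zero hn)
  have he0 : e ≠ 0 := fun h => by
    rw [h, zero_pow hn] at he
    exact div_ne_zero hct hcf he.symm
  obtain ⟨g, hgt, hgf⟩ := X.exists_gauge e he0
  have h1 := hpt.mul (hgt.pow n)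
  have h2 := hpf.mul (hgf.pow n)
  have e2 : cf • y * (e • g) ^ n = ct • y * g ^ n := by
    rw [smul_pow, smul_mul_smul_comm, he, mul_div_cancel₀ _ hcf, smul_mul_assoc]
  rw [e2] at h2
  have hzt0 : zt ≠ 0 := fun h => hpt.2 (by rw [hzt, h, zero_pow hn])
  have hzf0 : zf ≠ 0 := fun h => hpf.2 (by rw [hzf, h, zero_pow hn])
  -- the product is a witness for the shifted divisor
  refine ⟨g, hgt.ne_zero, ct • y * g ^ n,
    fun b => cond b (zt * X.red true g) (zf * X.red false (e • g)), h1.ne_zero, ?_,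
    X.mem_O.mpr fun b => by cases b; exacts [h2.1, h1.1], fun b => ?_, fun b => ?_⟩
  · ext v
    have hy' : ct • y ≠ 0 := smul_ne_zero hct hy
    rw [divOf_apply, v.ord_mul hy' (pow_ne_zero n hgt.ne_zero), FF.ord_pow, Algebra.smul_def,
      v.ord_mul ((_root_.map_ne_zero _).mpr hct) hy, FF.ord_algebraMap, zero_add,
      show v.ord y = (n : ℤ) * D v by rw [← divOf_apply (K := L), hdiv]; simp]
    simp
  · cases b
    · exact mul_ne_zero hzf0 hgf.2
    · exact mul_ne_zero hzt0 hgt.2
  · cases b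
    · change X.red false (ct • y * g ^ n) = (zf * X.red false (e • g)) ^ n
      rw [← e2, X.red_mul hpf.1 (hgf.pow n).1, hzf, X.red_pow hgf.1, mul_pow]
    · change X.red true (ct • y * g ^ n) = (zt * X.red true g) ^ n
      rw [X.red_mul hpt.1 (hgt.pow n).1, hzt, X.red_pow hgt.1, mul_pow]

end Degen

end Fermat.BAD

end
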