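import Fermat.Agent.BAD.Engine.Sym

/-!
# Inertia and Frobenius on the torsion of a curve with two glued reductions

The output of the engine, used for modular curves in `BAD/X0/Torsion`, `BAD/XH/Torsion` and
`BAD/AtQ/Engine`. `inertia_sq`: if `Θ` is the identity on both reductions then `(Θ - 1) ^ 2` kills
all torsion prime to the residue characteristic. `frobenius_new`: on classes whose two reductions
are norm-trivial, `(φ + q w) (φ + w) = 0` for a Frobenius `φ` and the swap `w`. In both products the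
factor applied first (on the right) produces a witness, and the other one makes its ratio one.
-/

set_option autoImplicit false
set_option linter.unusedSectionVars false

noncomputable section

open AlgebraicCurve

namespace Fermat.BAD

open Fermat.FF

section Cls

variable {L F : Type*} [Field L] [IsAlgClosed L] [Field F] [Algebra L F] [FF.IsFunctionField L F]

/-- The divisor `D` of degree zero has class `x`. -/
def IsCls (D : Divisor L F) (x : Pic0 L F) : Prop :=
  ∃ h : D ∈ Divisor.degZero (K := L) (F := F), Pic0.mk ⟨D, h⟩ = x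

/-- Every class has a divisor. -/
theorem exists_isCls (x : Pic0 L F) : ∃ D, IsCls D x := by
  obtain ⟨⟨D, hD⟩, rfl⟩ := Pic0.mk_surjective x
  exact ⟨D, hD, rfl⟩

/-- Classes add. -/
theorem IsCls.add {D E : Divisor L F} {x z : Pic0 L F} (hD : IsCls D x) (hE : IsCls E z) :
    IsCls (D + E) (x + z) := by
  obtain ⟨hD, rfl⟩ := hD
  obtain ⟨hE, rfl⟩ := hE
  exact ⟨add_mem hD hE, rfl⟩

/-- Classes negate. -/
theorem IsCls.neg {D : Divisor L F} {x : Pic0 L F} (hD : IsCls D x) : IsCls (-D) (-x) := by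
  obtain ⟨hD, rfl⟩ := hD
  exact ⟨neg_mem hD, rfl⟩

/-- The zero divisor has class zero. -/
theorem IsCls.zero : IsCls (0 : Divisor L F) (0 : Pic0 L F) := ⟨zero_mem _, rfl⟩

/-- Multiples of divisors give multiples of classes. -/
theorem IsCls.nsmul {D : Divisor L F} {x : Pic0 L F} (hD : IsCls D x) (j : ℕ) :
    IsCls (j • D) (j • x) := by
  induction j with
  | zero => rw [zero_nsmul, zero_nsmul]; exact IsCls.zero
  | succ j ih => rw [succ_nsmul, succ_nsmul]; exact ih.add hD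

/-- Taking classes is equivariant for semilinear automorphisms. -/
theorem IsCls.smul {D : Divisor L F} {x : Pic0 L F} (hD : IsCls D x) (g : SemilinearAut L F) :
    IsCls (g • D) (g • x) := by
  obtain ⟨hD, rfl⟩ := hD
  exact ⟨SemilinearAut.smul_mem_degZero g hD, (SemilinearAut.pic0_smul_mk g ⟨D, hD⟩).symm⟩

/-- Adding a principal divisor does not change the class. -/
theorem IsCls.add_divOf {D : Divisor L F} {x : Pic0 L F} (hD : IsCls D x) {g : F} (hg : g ≠ 0) :
    IsCls (D + divOf L g) x := by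
  obtain ⟨hD, rfl⟩ := hD
  refine ⟨add_mem hD (Divisor.mem_degZero.mpr (degree_divOf g)), ?_⟩
  rw [Pic0.mk, Pic0.mk, QuotientAddGroup.eq]
  refine AddSubgroup.mem_addSubgroupOf.mpr ⟨g⁻¹, inv_ne_zero hg, fun v => ?_⟩
  simp [divOf_apply, v.ord_inv]

/-- A principal divisor has class zero. -/
theorem IsCls.eq_zero {D : Divisor L F} {x : Pic0 L F} (hD : IsCls D x)
    (h : ∃ g : F, g ≠ 0 ∧ D = divOf L g) : x = 0 := by
  obtain ⟨hD, rfl⟩ := hD
  obtain ⟨g, hg, rfl⟩ := h
  exact (QuotientAddGroup.eq_zero_iff _).mpr (AddSubgroup.mem_addSubgroupOf.mpr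
    ⟨g, hg, fun v => divOf_apply g v⟩)

/-- If `n` kills the class of `D` then `n D` is principal. -/
theorem IsCls.exists_div {D : Divisor L F} {x : Pic0 L F} (hD : IsCls D x) {n : ℕ}
    (hx : n • x = 0) : ∃ y : F, y ≠ 0 ∧ divOf L y = n • D := by
  obtain ⟨h, hn⟩ := hD.nsmul n
  rw [hx] at hn
  obtain ⟨y, hy, hyv⟩ := AddSubgroup.mem_addSubgroupOf.mp ((QuotientAddGroup.eq_zero_iff _).mp hn)
  exact ⟨y, hy, Finsupp.ext fun v => by rw [divOf_apply]; exact (hyv v).symm⟩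

end Cls

variable {L : Type*} [Field L] {A : ValuationSubring L}
variable {k : Type*} [Field k] [IsAlgClosed L] [IsAlgClosed k]
variable {F : Type*} [Field F] [Algebra L F]
variable {π : A →+* k} {ι : Bool → F →+* LaurentSeries L}
  {K : IntermediateField k (LaurentSeries k)}
variable [FF.IsFunctionField L F] [FF.IsFunctionField k K]
variable {X : Degen π ι K} {n : ℕ}

namespace Degen

/-- The ratio of the inverse witness is the inverse ratio. -/
theorem hasRatio_neg (hn : n ≠ 0) {D : Divisor L F} {y : F} {H : Bool → K}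
    (h : X.Wit n D y H) {ζ : Place k K → k} (hζ : X.HasRatio D H ζ) :
    ∃ ζ' : Place k K → k, X.HasRatio (-D) H⁻¹ ζ' ∧ ∀ s ∈ X.S, ζ' s = (ζ s)⁻¹ := by
  obtain ⟨ζ', -, hζ'⟩ := X.exists_hasRatio hn (X.wit_inv h)
  refine ⟨ζ', hζ', fun s hs => ?_⟩
  have h1 := X.hasRatio_mul hn h (X.wit_inv h) hζ hζ'
  rw [add_neg_cancel, show H * H⁻¹ = 1 from funext fun b => mul_inv_cancel₀ (h.H_ne b)] at h1
  exact eq_inv_of_mul_eq_one_right (X.hasRatio_unique h1 (X.hasRatio_one hn) hs)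

/-- Witnesses can be raised to powers. -/
theorem wit_nsmul {D : Divisor L F} {y : F} {H : Bool → K} (h : X.Wit n D y H) :
    ∀ j : ℕ, X.Wit n (j • D) (y ^ j) (H ^ j) := by
  intro j
  induction j with
  | zero => simpa using X.wit_zero
  | succ j ih => rw [succ_nsmul, pow_succ, pow_succ]; exact X.wit_mul ih h

/-- The ratio of a power is the power of the ratio. -/
theorem hasRatio_nsmul (hn : n ≠ 0) {D : Divisor L F} {y : F} {H : Bool → K}
    (h : X.Wit n D y H) {ζ : Place k K → k} (hζ : X.HasRatio D H ζ) :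
    ∀ j : ℕ, X.HasRatio (j • D) (H ^ j) (fun s => ζ s ^ j) := by
  intro j
  induction j with
  | zero => simpa using X.hasRatio_one hn
  | succ j ih =>
    rw [succ_nsmul, pow_succ]
    simp only [pow_succ]
    exact X.hasRatio_mul hn (wit_nsmul h j) h ih hζ

/-- A witness whose ratio is one at every glued point has trivial class. -/
theorem cls_eq_zero (hnk : (n : k) ≠ 0) {D : Divisor L F} {y : F} {H : Bool → K}
    (h : X.Wit n D y H) {ζ : Place k K → k} (hζ : X.HasRatio D H ζ)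
    (h1 : ∀ s ∈ X.S, ζ s = 1) {x : Pic0 L F} (hx : IsCls D x) : x = 0 :=
  hx.eq_zero (X.eq_divOf_of_hasRatio_one hnk h fun m hm => by
    rw [hζ m hm]; exact X.glueSp_congr h1 m)

/-- Inertia: if `Θ` is trivial on both reductions then `(Θ - 1) ^ 2` kills torsion prime to the
residue characteristic. -/
theorem inertia_sq (Θ : Sym X) (he : Θ.e = Equiv.refl Bool) (hτ : ∀ b, Θ.τ b = 1)
    (hnk : (n : k) ≠ 0) {x : Pic0 L F} (hx : n • x = 0) :
    Θ.s • (Θ.s • x - x) - (Θ.s • x - x) = 0 := by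
  have hn : n ≠ 0 := fun h => hnk (by rw [h, Nat.cast_zero])
  obtain ⟨D, hD⟩ := exists_isCls x
  obtain ⟨y, hy, hdiv⟩ := hD.exists_div hx
  have hsy : Θ.s • y ≠ 0 := (smul_ne_zero_iff_ne Θ.s).mpr hy
  -- `Θ y / y` has reductions `1`, so `Θ x - x` has a witness
  have hpow : ∀ b, ∃ (c : L) (z : K), X.Prim b (c • (Θ.s • y * y⁻¹)) ∧
      X.red b (c • (Θ.s • y * y⁻¹)) = z ^ n := by
    intro b
    obtain ⟨c, hc, hp⟩ := X.exists_smul_prim b hy
    have h1 := Θ.prim hp
    have h2 := Θ.red_eq b _ hp.1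
    rw [he, hτ, one_smul] at h2
    rw [he] at h1
    simp only [Equiv.refl_apply] at h1 h2
    obtain ⟨h3, h4⟩ := X.prim_inv hp
    have he' : (Θ.s • (c • y)) * (c • y)⁻¹ =
        (SemilinearAut.baseAut Θ.s c * c⁻¹) • (Θ.s • y * y⁻¹) := by
      rw [Θ.smul_smul_scalar, Algebra.smul_def, Algebra.smul_def, Algebra.smul_def, mul_inv,
        map_mul, map_inv₀]
      ring
    refine ⟨SemilinearAut.baseAut Θ.s c * c⁻¹, 1, he' ▸ h1.mul h3, ?_⟩
    rw [← he', X.red_mul h1.1 h3.1, h2, h4, one_pow, mul_inv_cancel₀ hp.2]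
  -- `(Θ - 1) x` is represented by a witness, whose ratio `Θ` fixes
  obtain ⟨g, hg, y', H, hW⟩ := X.exists_wit hn (mul_ne_zero hsy (inv_ne_zero hy))
    (D := Θ.s • D + -D) (by
      rw [divOf_mul hsy (inv_ne_zero hy), Fermat.JAC.divOf_smul, divOf_inv, hdiv, smul_comm,
        nsmul_add, smul_neg]) hpow
  set D₁ := Θ.s • D + -D + divOf L g
  have hD₁ : IsCls D₁ (Θ.s • x - x) := by
    rw [sub_eq_add_neg]; exact ((hD.smul Θ.s).add hD.neg).add_divOf hg
  -- the ratio of its transform cancels that of its inverse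
  obtain ⟨ζ, -, hζ⟩ := X.exists_hasRatio hn hW
  obtain ⟨ζ₁, -, hζ₁, hζ₁v⟩ := Θ.exists_hasRatio_smul hn hW hζ
  obtain ⟨ζ₂, hζ₂, hζ₂v⟩ := hasRatio_neg hn hW hζ
  rw [sub_eq_add_neg (Θ.s • _) _]
  refine cls_eq_zero hnk (X.wit_mul (Θ.wit hW) (X.wit_inv hW))
    (X.hasRatio_mul hn (Θ.wit hW) (X.wit_inv hW) hζ₁ hζ₂) (fun s hs => ?_)
    ((hD₁.smul Θ.s).add hD₁.neg)
  have hid : Θ.e true = true := by rw [he]; rfl
  have h1 := hζ₁v s hs
  rw [if_pos hid, Sym.pt, if_pos hid, hτ, one_smul,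
    show Θ.base = 1 from (Θ.τ_base true).symm.trans (by rw [hτ, SemilinearAut.baseAut_one])] at h1
  obtain ⟨P, hP, hv⟩ := X.exists_section ζ (le_refl X.N0)
  have hne : ζ s ≠ 0 := fun h0 => by
    have h5 := X.exists_hasRatio hn hW
    obtain ⟨η, hη, hη'⟩ := h5
    have h6 := hη s
    rw [X.hasRatio_unique hη' hζ hs, h0, zero_pow hn] at h6
    exact zero_ne_one h6
  change ζ₁ s * ζ₂ s = 1
  rw [h1, hζ₂v s hs]
  exact mul_inv_cancel₀ hne

/-- A class with a witness is killed by `Φ + q W`, for a `q`-Frobenius `Φ` and a swap `W`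
agreeing at the glued points. -/
theorem frobenius_add_eq_zero_of_wit (Φ W : Sym X) (hΦe : Φ.e true = true) (hWe : W.e true ≠ true)
    (hpt : ∀ s ∈ X.S, Φ.pt s = W.pt s) {q : ℕ} (hΦb : ∀ a, Φ.base a = a ^ q)
    (hWb : ∀ a, W.base a = a) (hnk : (n : k) ≠ 0) {x : Pic0 L F} {D : Divisor L F} {y : F}
    {H : Bool → K} (hD : IsCls D x) (hW : X.Wit n D y H) : Φ.s • x + q • W.s • x = 0 := by
  have hn : n ≠ 0 := fun h => hnk (by rw [h, Nat.cast_zero])
  obtain ⟨ζ, hζn, hζ⟩ := X.exists_hasRatio hn hW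
  obtain ⟨ζ₁, -, hζ₁, hζ₁v⟩ := Φ.exists_hasRatio_smul hn hW hζ
  obtain ⟨ζ₂, -, hζ₂, hζ₂v⟩ := W.exists_hasRatio_smul hn hW hζ
  refine cls_eq_zero hnk (X.wit_mul (Φ.wit hW) (wit_nsmul (W.wit hW) q))
    (X.hasRatio_mul hn (Φ.wit hW) (wit_nsmul (W.wit hW) q) hζ₁
      (hasRatio_nsmul hn (W.wit hW) hζ₂ q)) (fun t ht => ?_)
    ((hD.smul Φ.s).add ((hD.smul W.s).nsmul q))
  obtain ⟨s, hs, rfl⟩ := Φ.exists_pt ht
  have e1 := hζ₁v s hs
  have e2 := hζ₂v s hs
  rw [if_pos hΦe, hΦb] at e1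
  rw [if_neg hWe, hWb, ← hpt s hs] at e2
  change ζ₁ (Φ.pt s) * ζ₂ (Φ.pt s) ^ q = 1
  rw [e1, e2, inv_pow, mul_inv_cancel₀]
  refine pow_ne_zero q fun h0 => ?_
  have := hζn s
  rw [h0, zero_pow hn] at this
  exact zero_ne_one this

/-- If both reductions of `Φ y * W y` are `n`-th powers up to scalars (the class is new), then `(Φ +
q W) (Φ + W)` kills it, for a `q`-Frobenius `Φ` and a swap `W` agreeing at the glued points. -/
theorem frobenius_new (Φ W : Sym X) (hΦe : Φ.e true = true) (hWe : W.e true ≠ true)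
    (hpt : ∀ s ∈ X.S, Φ.pt s = W.pt s) {q : ℕ} (hΦb : ∀ a, Φ.base a = a ^ q)
    (hWb : ∀ a, W.base a = a) (hnk : (n : k) ≠ 0) {x : Pic0 L F} {D : Divisor L F}
    (hD : IsCls D x) {y : F} (hy : y ≠ 0) (hdiv : divOf L y = n • D)
    (hpow : ∀ b, ∃ (c : L) (z : K), X.Prim b (c • (Φ.s • y * W.s • y)) ∧
      X.red b (c • (Φ.s • y * W.s • y)) = z ^ n) :
    Φ.s • (Φ.s • x + W.s • x) + q • W.s • (Φ.s • x + W.s • x) = 0 := by
  have hn : n ≠ 0 := fun h => hnk (by rw [h, Nat.cast_zero])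
  have h1 : Φ.s • y ≠ 0 := (smul_ne_zero_iff_ne Φ.s).mpr hy
  have h2 : W.s • y ≠ 0 := (smul_ne_zero_iff_ne W.s).mpr hy
  obtain ⟨g, hg, y', H, hW⟩ := X.exists_wit hn (mul_ne_zero h1 h2) (D := Φ.s • D + W.s • D) (by
      rw [divOf_mul h1 h2, Fermat.JAC.divOf_smul, Fermat.JAC.divOf_smul, hdiv,
        smul_comm Φ.s, smul_comm W.s, nsmul_add]) hpow
  have hD₁ := ((hD.smul Φ.s).add (hD.smul W.s)).add_divOf hg
  exact frobenius_add_eq_zero_of_wit Φ W hΦe hWe hpt hΦb hWb hnk hD₁ hW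

end Degen

end Fermat.BAD

end
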