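import Fermat.Agent.BAD.Engine.Kernel
import Fermat.Agent.JAC.EvalDiv

/-!
# Symmetries of a curve with two glued reductions

A `Sym` is a semilinear automorphism of the curve with its reductions, which may swap the
components. It permutes the glued points (`pt`), and `exists_hasRatio_smul` says that it
transports the ratio of a witness, inverted if the components are swapped. So a relation between
symmetries which makes the ratio one kills the class by `Kernel`: see `Theorems` and `Diamond`.
-/

set_option autoImplicit false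
set_option linter.unusedSectionVars false

attribute [local instance 10000] SubalgebraClass.toAlgebra HahnSeries.powerSeriesAlgebra

noncomputable section

open AlgebraicCurve

namespace Fermat.BAD

open Fermat.FF Fermat.RED.Model

variable {L : Type*} [Field L] {A : ValuationSubring L}
variable {k : Type*} [Field k] [IsAlgClosed L] [IsAlgClosed k]
variable {F : Type*} [Field F] [Algebra L F]
variable {π : A →+* k} {ι : Bool → F →+* LaurentSeries L}
  {K : IntermediateField k (LaurentSeries k)}
variable [FF.IsFunctionField L F] [FF.IsFunctionField k K]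

/-- A semilinear automorphism of the curve compatible with the two reductions. -/
structure Sym (X : Degen π ι K) where
  /-- The automorphism of the curve. -/
  s : SemilinearAut L F
  /-- Its reduction on each component. -/
  τ : Bool → SemilinearAut k K
  /-- The induced automorphism of the residue field. -/
  base : k ≃+* k
  /-- Both reductions induce it. -/
  τ_base : ∀ b, SemilinearAut.baseAut (τ b) = base
  /-- The induced permutation of the components. -/
  e : Bool ≃ Bool
  /-- Functions integral at `b` go to functions integral at `e b`. -/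
  mapsInt : ∀ b f, f ∈ gInt π (ι b) → s • f ∈ gInt π (ι (e b))
  /-- Reduction commutes with the symmetry. -/
  red_eq : ∀ b f, f ∈ gInt π (ι b) → X.red (e b) (s • f) = τ b • X.red b f
  /-- The cusp divisor is fixed. -/
  A0_fixed : s • X.A0 = X.A0
  /-- So are those of the residue curves. -/
  B_fixed : ∀ b, τ b • X.B = X.B

namespace Sym

variable {X : Degen π ι K} (Θ : Sym X)

/-- A symmetry is semilinear. -/
theorem smul_smul_scalar (c : L) (f : F) :
    Θ.s • (c • f) = SemilinearAut.baseAut Θ.s c • (Θ.s • f) := by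
  rw [Algebra.smul_def, smul_mul', SemilinearAut.smul_algebraMap, ← Algebra.smul_def]

/-- A primitive function goes to a primitive one. -/
theorem prim {b : Bool} {f : F} (hf : X.Prim b f) : X.Prim (Θ.e b) (Θ.s • f) :=
  ⟨Θ.mapsInt b f hf.1, by rw [Θ.red_eq b f hf.1]; exact (smul_ne_zero_iff_ne (Θ.τ b)).mpr hf.2⟩

/-- A constant whose transform under a symmetry lies in the valuation ring lies in it. -/
theorem mem_of_base_mem {c : L} (hc : SemilinearAut.baseAut Θ.s c ∈ A) : c ∈ A := by
  by_contra h
  have hc0 : c ≠ 0 := fun h0 => h (h0 ▸ zero_mem A)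
  have hinv : c⁻¹ ∈ A := (A.mem_or_inv_mem c).resolve_left h
  have h0 : π ⟨c⁻¹, hinv⟩ = 0 := X.eq_zero_of_inv_notMem (by simpa using h)
  have hint := Θ.mapsInt true _ (X.int_algebraMap (b := true) hinv)
  have hred : X.red (Θ.e true) (Θ.s • algebraMap L F c⁻¹) = 0 := by
    rw [Θ.red_eq true _ (X.int_algebraMap hinv),
      show algebraMap L F c⁻¹ = algebraMap L F ((⟨c⁻¹, hinv⟩ : A) : L) from rfl,
      X.red_algebraMap, h0, map_zero, smul_zero]
  have h1 := congrArg (X.red (Θ.e true))
    (show (1 : F) = SemilinearAut.baseAut Θ.s c • (Θ.s • algebraMap L F c⁻¹) by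
      rw [← Θ.smul_smul_scalar, Algebra.smul_def, ← map_mul, mul_inv_cancel₀ hc0,
        map_one, smul_one])
  rw [X.red_one, show SemilinearAut.baseAut Θ.s c =
    ((⟨SemilinearAut.baseAut Θ.s c, hc⟩ : A) : L) from rfl, X.red_smul _ hint, hred,
    smul_zero] at h1
  exact one_ne_zero h1

/-- Integrality descends along a symmetry. -/
theorem int_of_int {b : Bool} {f : F} (h : Θ.s • f ∈ gInt π (ι (Θ.e b))) :
    f ∈ gInt π (ι b) := by
  rcases eq_or_ne f 0 with rfl | hf
  · exact zero_mem _
  obtain ⟨c, hc, hp⟩ := X.exists_smul_prim b hf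
  have h1 := Θ.prim hp
  have hf' : f = c⁻¹ • (c • f) := by rw [smul_smul, inv_mul_cancel₀ hc, one_smul]
  have h2 : c⁻¹ ∈ A := Θ.mem_of_base_mem (h1.mem_of_smul (by
    rwa [← Θ.smul_smul_scalar, ← hf']))
  rw [hf']
  exact X.int_smul h2 hp.1

/-- `O` is stable under a symmetry. -/
theorem smul_mem_O {f : F} (hf : f ∈ X.O) : Θ.s • f ∈ X.O :=
  X.mem_O.mpr fun b => by
    have := Θ.mapsInt (Θ.e.symm b) f (X.int_of_mem_O hf _)
    rwa [Θ.e.apply_symm_apply] at this

/-- `O` is stable under its inverse. -/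
theorem inv_smul_mem_O {f : F} (hf : f ∈ X.O) : Θ.s⁻¹ • f ∈ X.O :=
  X.mem_O.mpr fun b => Θ.int_of_int (by rw [smul_inv_smul]; exact X.int_of_mem_O hf _)

/-- The transformed pair of reductions. -/
def tr (P : Bool → K) : Bool → K := fun b => Θ.τ (Θ.e.symm b) • P (Θ.e.symm b)

/-- The transformed pair at `e b`. -/
theorem tr_apply (P : Bool → K) (b : Bool) : Θ.tr P (Θ.e b) = Θ.τ b • P b := by
  simp only [tr, Equiv.symm_apply_apply]

/-- The reductions of a transformed function are the transformed reductions. -/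
theorem red_smul (b : Bool) {f : F} (hf : f ∈ X.O) :
    X.red b (Θ.s • f) = Θ.tr (fun c => X.red c f) b := by
  conv_lhs => rw [← Θ.e.apply_symm_apply b]
  exact Θ.red_eq _ f (X.int_of_mem_O hf _)

/-- Evaluation commutes with the reductions of a symmetry. -/
theorem eval_smul (b : Bool) {v : Place k K} {z : K} (hz : OrdGE v z 0) :
    evalAt (Θ.τ b • v) (Θ.τ b • z) = Θ.base (evalAt v z) := by
  rw [Fermat.JAC.evalAt_smul (Θ.τ b) hz, Θ.τ_base]

/-- The reduced automorphisms of a symmetry preserve the multiplicities of `B`. -/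
theorem B_apply (b : Bool) (v : Place k K) : X.B (Θ.τ b • v) = X.B v := by
  conv_lhs => rw [← Θ.B_fixed b]
  rw [SemilinearAut.divisor_smul_apply_smul]

/-- Sections of `D + m A0` go to sections of the transform of `D`. -/
theorem smul_sect {D : Divisor L F} {m : ℕ} {g : F} (hg : g ∈ X.sect D m) :
    Θ.s • g ∈ X.sect (Θ.s • D) m := by
  have := smul_mem_riemannRochSpace Θ.s hg
  rwa [smul_add, smul_comm Θ.s m, Θ.A0_fixed] at this

end Sym

namespace Degen

variable (X : Degen π ι K)
include X

/-- The glued pairs of points are determined by the glued system. -/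
theorem glue_unique {t t' : Place k K} (ht : X.B t = 0) (ht' : X.B t' = 0)
    (h : ∀ Q ∈ X.glueSp (fun _ => 1) X.N0, evalAt t (Q true) = evalAt t' (Q false)) :
    t ∈ X.S ∧ X.Qf t = t' := by
  classical
  have hd := X.le_degree_nsmul_B X.N0
  have hz : ∀ v : Place k K, evalAt v (0 : K) = 0 := fun v => by
    simpa using evalAt_algebraMap v (0 : k)
  have hN : (2 * genusFF k K + X.S.card + 2 : ℤ) ≤ Divisor.degree (X.N0 • X.B) := by
    have : 2 * genusFF k K + X.S.card + 2 ≤ X.N0 := by unfold N0; omega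
    omega
  -- If `t` is not glued, interpolate a glued pair `(f, 0)` with `f t = 1`.
  by_cases htS : t ∈ X.S
  swap
  · exfalso
    obtain ⟨f, hf, hfv⟩ := exists_interpolation (X.N0 • X.B) (insert t X.S)
      (fun s hs => X.nsmul_B_eq_zero _ ((Finset.mem_insert.mp hs).elim (fun e => e ▸ ht) (X.S_B s)))
      (by rw [Finset.card_insert_of_notMem htS]; push_cast; omega)
      (fun s => if s = t then 1 else 0)
    have h1 := h (fun b => cond b f 0) ⟨fun b => by cases b; exacts [zero_mem _, hf],
      fun s hs => by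
        change evalAt s f = 1 * evalAt (X.Qf s) (0 : K)
        rw [(hfv s (Finset.mem_insert_of_mem hs)).2, if_neg fun e : s = t => htS (e ▸ hs), hz,
          mul_zero]⟩
    change evalAt t f = evalAt t' (0 : K) at h1
    rw [hz, (hfv t (Finset.mem_insert_self _ _)).2, if_pos rfl] at h1
    exact one_ne_zero h1
  refine ⟨htS, ?_⟩
  -- If `t'` is not `Qf t`, interpolate a glued pair equal to `1` at `t` and `0` at `t'`.
  by_contra hne
  obtain ⟨f, hf, hfv⟩ := exists_interpolation (X.N0 • X.B) X.S
    (fun s hs => X.nsmul_B_eq_zero _ (X.S_B s hs)) (by omega) (fun s => if s = t then 1 else 0)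
  have hcard : (insert t' (X.S.image X.Qf)).card ≤ X.S.card + 1 :=
    (Finset.card_insert_le _ _).trans (Nat.add_le_add_right Finset.card_image_le _)
  obtain ⟨g, hg, hgv⟩ := exists_interpolation (X.N0 • X.B) (insert t' (X.S.image X.Qf))
    (fun s hs => X.nsmul_B_eq_zero _ ((Finset.mem_insert.mp hs).elim (fun e => e ▸ ht') fun h' => by
      obtain ⟨u, hu, rfl⟩ := Finset.mem_image.mp h'
      exact X.Qf_B u hu))
    (by omega) (fun s => if s = X.Qf t then 1 else 0)
  have h1 := h (fun b => cond b f g) ⟨fun b => by cases b; exacts [hg, hf], fun s hs => by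
    change evalAt s f = 1 * evalAt (X.Qf s) g
    rw [(hfv s hs).2, (hgv _ (Finset.mem_insert_of_mem (Finset.mem_image_of_mem _ hs))).2, one_mul]
    by_cases hst : s = t
    · subst hst; rw [if_pos rfl, if_pos rfl]
    · rw [if_neg hst, if_neg fun he => hst (X.Qf_inj hs htS he)]⟩
  change evalAt t f = evalAt t' g at h1
  rw [(hfv t htS).2, if_pos rfl, (hgv t' (Finset.mem_insert_self _ _)).2,
    if_neg (Ne.symm hne)] at h1
  exact one_ne_zero h1

end Degen

namespace Sym

variable {X : Degen π ι K} (Θ : Sym X)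

/-- A symmetry maps the glued space of trivial ratio onto itself in degree `N0`. -/
theorem tr_glue {Q : Bool → K} (hQ : Q ∈ X.glueSp (fun _ => 1) X.N0) :
    ∃ P ∈ X.glueSp (fun _ => 1) X.N0, Θ.tr P = Q := by
  obtain ⟨g, hgL, hgO, hg⟩ := X.exists_lift le_rfl hQ
  have hO := Θ.inv_smul_mem_O hgO
  refine ⟨fun b => X.red b (Θ.s⁻¹ • g), ?_, funext fun b => ?_⟩
  · rw [← X.hasRatio_one one_ne_zero _ le_rfl]
    refine ⟨Θ.s⁻¹ • g, ?_, hO, fun b => by simp⟩
    have hA : Θ.s⁻¹ • (X.N0 • X.A0) = X.N0 • X.A0 := by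
      rw [smul_comm, inv_smul_eq_iff.mpr Θ.A0_fixed.symm]
    rw [Degen.sect, zero_add, mem_riemannRochSpace]
    intro w
    rcases eq_or_ne g 0 with rfl | hne
    · rw [smul_zero]; exact ordGE_zero _ _
    obtain ⟨u, rfl⟩ : ∃ u, Θ.s⁻¹ • u = w := ⟨Θ.s • w, inv_smul_smul Θ.s w⟩
    rw [← hA, SemilinearAut.divisor_smul_apply_smul,
      ordGE_iff_of_ne ((smul_ne_zero_iff_ne Θ.s⁻¹).mpr hne), SemilinearAut.ord_smul]
    exact (mem_riemannRochSpace.mp hgL u).le_ord hne
  · rw [← Θ.red_smul b hO, smul_inv_smul, hg]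

/-- The image of a glued point, on the first component. -/
def pt (s : Place k K) : Place k K :=
  if Θ.e true = true then Θ.τ true • s else Θ.τ false • X.Qf s

/-- The image of a glued point, on the second component. -/
def pt' (s : Place k K) : Place k K :=
  if Θ.e true = true then Θ.τ false • X.Qf s else Θ.τ true • s

/-- The values at the moved glued points of a transformed pair are the transformed values of the
pair, in the order of the two components. -/
theorem eval_tr {P : Bool → K} {ζ : Place k K → k} {m : ℕ} (hP : P ∈ X.glueSp ζ m)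
    {s : Place k K} (hs : s ∈ X.S) :
    evalAt (Θ.pt s) (Θ.tr P true) =
        (if Θ.e true = true then Θ.base (evalAt s (P true))
          else Θ.base (evalAt (X.Qf s) (P false))) ∧
      evalAt (Θ.pt' s) (Θ.tr P false) =
        (if Θ.e true = true then Θ.base (evalAt (X.Qf s) (P false))
          else Θ.base (evalAt s (P true))) := by
  have h1 := Θ.eval_smul true (X.ordGE_S (hP.1 true) (X.S_B s hs))
  have h2 := Θ.eval_smul false (X.ordGE_S (hP.1 false) (X.Qf_B s hs))
  rw [← Θ.tr_apply P true] at h1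
  rw [← Θ.tr_apply P false] at h2
  by_cases he : Θ.e true = true
  · have he' : Θ.e false = false := Bool.eq_false_iff.mpr fun h =>
      Bool.false_ne_true (Θ.e.injective (h.trans he.symm))
    rw [he] at h1
    rw [he'] at h2
    simp only [pt, pt', if_pos he]
    exact ⟨h1, h2⟩
  · have he' : Θ.e false = true := Bool.not_eq_false _ |>.mp fun h =>
      Bool.false_ne_true (Θ.e.injective (h.trans (Bool.eq_false_iff.mpr he).symm))
    rw [Bool.eq_false_iff.mpr he] at h1
    rw [he'] at h2
    simp only [pt, pt', if_neg he]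
    exact ⟨h2, h1⟩

/-- A symmetry moves each glued pair of points to a glued pair. -/
theorem pt_spec {s : Place k K} (hs : s ∈ X.S) :
    Θ.pt s ∈ X.S ∧ X.Qf (Θ.pt s) = Θ.pt' s := by
  refine X.glue_unique ?_ ?_ fun Q hQ => ?_
  · by_cases he : Θ.e true = true
    · rw [pt, if_pos he, Θ.B_apply]; exact X.S_B s hs
    · rw [pt, if_neg he, Θ.B_apply]; exact X.Qf_B s hs
  · by_cases he : Θ.e true = true
    · rw [pt', if_pos he, Θ.B_apply]; exact X.Qf_B s hs
    · rw [pt', if_neg he, Θ.B_apply]; exact X.S_B s hs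
  · obtain ⟨P, hP, rfl⟩ := Θ.tr_glue hQ
    obtain ⟨h1, h2⟩ := Θ.eval_tr hP hs
    rw [h1, h2, hP.2 s hs, one_mul]

/-- `pt` is onto `S`. -/
theorem exists_pt {t : Place k K} (ht : t ∈ X.S) : ∃ s ∈ X.S, Θ.pt s = t := by
  classical
  have hinj : Set.InjOn Θ.pt X.S := fun a ha b hb h => by
    by_cases he : Θ.e true = true
    · simp only [pt, if_pos he] at h
      exact MulAction.injective _ h
    · simp only [pt, if_neg he] at h
      exact X.Qf_inj ha hb (MulAction.injective _ h)
  obtain ⟨s, hs, h⟩ := Finset.surj_on_of_inj_on_of_card_le (s := X.S) (t := X.S)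
    (fun a _ => Θ.pt a) (fun a ha => (Θ.pt_spec ha).1)
    (fun a b ha hb h => hinj ha hb h) le_rfl t ht
  exact ⟨s, hs, h.symm⟩

variable {n : ℕ} {D : Divisor L F} {y : F} {H : Bool → K}

/-- Witnesses transform. -/
theorem wit (h : X.Wit n D y H) : X.Wit n (Θ.s • D) (Θ.s • y) (Θ.tr H) :=
  ⟨(smul_ne_zero_iff_ne Θ.s).mpr h.y_ne, by
    rw [Fermat.JAC.divOf_smul, h.div_eq, smul_comm],
    Θ.smul_mem_O h.mem, fun b => (smul_ne_zero_iff_ne _).mpr (h.H_ne _), fun b => by
    rw [Θ.red_smul b h.mem]
    simp only [tr, h.red_eq, smul_pow']⟩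

/-- The ratio of the transformed witness: the transformed ratio, inverted if the components are
swapped. -/
theorem exists_hasRatio_smul (hn : n ≠ 0) (h : X.Wit n D y H) {ζ : Place k K → k}
    (hζ : X.HasRatio D H ζ) :
    ∃ ζ' : Place k K → k, (∀ s, ζ' s ^ n = 1) ∧ X.HasRatio (Θ.s • D) (Θ.tr H) ζ' ∧
      ∀ s ∈ X.S, ζ' (Θ.pt s) =
        if Θ.e true = true then Θ.base (ζ s) else (Θ.base (ζ s))⁻¹ := by
  obtain ⟨ζ', hζ'n, hζ'⟩ := X.exists_hasRatio hn (Θ.wit h)
  refine ⟨ζ', hζ'n, hζ', fun s hs => ?_⟩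
  obtain ⟨P, hP, hv⟩ := X.exists_section ζ (le_refl X.N0)
  have hP' := hP
  rw [← hζ _ le_rfl] at hP'
  obtain ⟨g, hg, hgO, hPe⟩ := hP'
  have htr : Θ.tr P ∈ X.glueSp ζ' X.N0 := by
    rw [← hζ' _ le_rfl]
    refine ⟨Θ.s • g, Θ.smul_sect hg, Θ.smul_mem_O hgO, fun b => ?_⟩
    rw [Θ.red_smul b hgO]
    simp only [tr, hPe, smul_mul']
  obtain ⟨h1, h2⟩ := Θ.eval_tr hP hs
  have h3 := htr.2 _ (Θ.pt_spec hs).1
  rw [(Θ.pt_spec hs).2, h1, h2, (hv s hs).1, (hv s hs).2, map_one] at h3
  by_cases he : Θ.e true = true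
  · rw [if_pos he, if_pos he, mul_one] at h3
    rw [if_pos he, h3]
  · rw [if_neg he, if_neg he] at h3
    rw [if_neg he]
    exact eq_inv_of_mul_eq_one_left h3.symm

end Sym

end Fermat.BAD

end
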