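import Fermat.Agent.BAD.Engine.Theorems

/-!
# Inertia and the diamond operators of a ramified character

`diamond_inertia`, the third output of the engine, used at level `Γ_G(M q)` in `BAD/XC/Data`: if
`Θ` is trivial on the first reduction and agrees with `C` on the second one, then on torsion prime
to the residue characteristic `(Δ - 1) (Θ - 1) (Θ - C) = 0` for every symmetry `Δ` fixing all
glued points (`Θ - C` and `Θ - 1` make a witness, `Δ - 1` makes its ratio one).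
-/

set_option autoImplicit false

noncomputable section

open AlgebraicCurve

namespace Fermat.BAD

open Fermat.FF

variable {L : Type*} [Field L] {A : ValuationSubring L}
variable {k : Type*} [Field k] [IsAlgClosed L] [IsAlgClosed k]
variable {F : Type*} [Field F] [Algebra L F]
variable {π : A →+* k} {ι : Bool → F →+* LaurentSeries L}
  {K : IntermediateField k (LaurentSeries k)}
variable [FF.IsFunctionField L F] [FF.IsFunctionField k K]
variable {X : Degen π ι K} {n : ℕ}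

namespace Degen

/-- The reduction of `Θ y / C y` at a component fixed by both. -/
theorem exists_prim_quot (Θ C : Sym X) {b : Bool} (hΘ : Θ.e b = b) (hC : C.e b = b) {y : F}
    {c₀ : L} (hp : X.Prim b (c₀ • y)) :
    ∃ c : L, X.Prim b (c • (Θ.s • y * (C.s • y)⁻¹)) ∧
      X.red b (c • (Θ.s • y * (C.s • y)⁻¹)) =
        Θ.τ b • X.red b (c₀ • y) * (C.τ b • X.red b (c₀ • y))⁻¹ := by
  have h1 := Θ.prim hp
  have h1' := Θ.red_eq b _ hp.1
  rw [hΘ] at h1 h1'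
  have h2 := C.prim hp
  have h2' := C.red_eq b _ hp.1
  rw [hC] at h2 h2'
  obtain ⟨h3, h4⟩ := X.prim_inv h2
  have he : (Θ.s • (c₀ • y)) * (C.s • (c₀ • y))⁻¹ =
      (SemilinearAut.baseAut Θ.s c₀ * (SemilinearAut.baseAut C.s c₀)⁻¹) •
        (Θ.s • y * (C.s • y)⁻¹) := by
    rw [Θ.smul_smul_scalar, C.smul_smul_scalar, Algebra.smul_def, Algebra.smul_def,
      Algebra.smul_def, mul_inv, map_mul, map_inv₀]
    ring
  refine ⟨_, he ▸ h1.mul h3, ?_⟩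
  rw [← he, X.red_mul h1.1 h3.1, h1', h4, h2']

/-- **Diamond and inertia**: `(Δ - 1) (Θ - 1) (Θ - C)` kills the `n`-torsion for `n` invertible
in `k`. -/
theorem diamond_inertia (Θ C Δ : Sym X) (hΘe : Θ.e = Equiv.refl Bool) (hΘ : Θ.τ true = 1)
    (hCe : C.e = Equiv.refl Bool) (hC : C.τ false = Θ.τ false)
    (hΔe : Δ.e = Equiv.refl Bool) (hΔb : ∀ a, Δ.base a = a) (hΔpt : ∀ s ∈ X.S, Δ.pt s = s)
    (hnk : (n : k) ≠ 0) {x : Pic0 L F} (hx : n • x = 0) :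
    Δ.s • (Θ.s • (Θ.s • x - C.s • x) - (Θ.s • x - C.s • x)) -
      (Θ.s • (Θ.s • x - C.s • x) - (Θ.s • x - C.s • x)) = 0 := by
  have hn : n ≠ 0 := fun h => hnk (by rw [h, Nat.cast_zero])
  obtain ⟨D, hD⟩ := exists_isCls x
  obtain ⟨y, hy, hdiv⟩ := hD.exists_div hx
  set y₁ := Θ.s • y * (C.s • y)⁻¹ with hy₁def
  have hy₁ : y₁ ≠ 0 := mul_ne_zero ((smul_ne_zero_iff_ne Θ.s).mpr hy)
    (inv_ne_zero ((smul_ne_zero_iff_ne C.s).mpr hy))
  have hd₁ : divOf L y₁ = n • (Θ.s • D + -(C.s • D)) := by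
    rw [hy₁def, divOf_mul ((smul_ne_zero_iff_ne Θ.s).mpr hy)
      (inv_ne_zero ((smul_ne_zero_iff_ne C.s).mpr hy)), divOf_inv, Fermat.JAC.divOf_smul,
      Fermat.JAC.divOf_smul, hdiv, smul_comm Θ.s, smul_comm C.s, nsmul_add, smul_neg]
  set D₁ := Θ.s • D + -(C.s • D)
  set y₂ := Θ.s • y₁ * y₁⁻¹ with hy₂def
  have hsy₁ : Θ.s • y₁ ≠ 0 := (smul_ne_zero_iff_ne Θ.s).mpr hy₁
  -- both reductions of `y₂` are constants
  have hpow : ∀ b, ∃ (c : L) (z : K), X.Prim b (c • y₂) ∧ X.red b (c • y₂) = z ^ n := by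
    intro b
    obtain ⟨c₀, hc₀, hp₀⟩ : ∃ c₀ : L, c₀ ≠ 0 ∧ X.Prim b (c₀ • y₁) ∧
        Θ.τ b • X.red b (c₀ • y₁) = X.red b (c₀ • y₁) := by
      cases b
      · obtain ⟨c₁, -, hp₁⟩ := X.exists_smul_prim false hy
        obtain ⟨c, hc, hcr⟩ := exists_prim_quot Θ C (by rw [hΘe]; rfl) (by rw [hCe]; rfl) hp₁
        rw [hC, mul_inv_cancel₀ ((smul_ne_zero_iff_ne _).mpr hp₁.2)] at hcr
        refine ⟨c, fun h0 => hc.ne_zero (by rw [h0, zero_smul]), hc, ?_⟩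
        rw [hcr, smul_one]
      · obtain ⟨c, hc0, hc⟩ := X.exists_smul_prim true hy₁
        exact ⟨c, hc0, hc, by rw [hΘ, one_smul]⟩
    obtain ⟨h1, h2⟩ : Θ.e b = b ∧ (Θ.s • (c₀ • y₁)) = SemilinearAut.baseAut Θ.s c₀ • (Θ.s • y₁) :=
      ⟨by rw [hΘe]; rfl, Θ.smul_smul_scalar c₀ y₁⟩
    have h3 := Θ.prim hp₀.1
    have h3' := Θ.red_eq b _ hp₀.1.1
    rw [h1] at h3 h3'
    obtain ⟨h4, h5⟩ := X.prim_inv hp₀.1
    have he : (Θ.s • (c₀ • y₁)) * (c₀ • y₁)⁻¹ =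
        (SemilinearAut.baseAut Θ.s c₀ * c₀⁻¹) • y₂ := by
      rw [hy₂def, h2, Algebra.smul_def, Algebra.smul_def, Algebra.smul_def, mul_inv, map_mul,
        map_inv₀]
      ring
    refine ⟨_, 1, he ▸ h3.mul h4, ?_⟩
    rw [← he, X.red_mul h3.1 h4.1, h3', h5, hp₀.2, one_pow, mul_inv_cancel₀ hp₀.1.2]
  -- so `(Θ - 1) (Θ - C) x` is represented by a witness, whose ratio `Δ` fixes
  obtain ⟨g, hg, y', H, hW⟩ := X.exists_wit hn (mul_ne_zero hsy₁ (inv_ne_zero hy₁))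
    (D := Θ.s • D₁ + -D₁) (by
      rw [divOf_mul hsy₁ (inv_ne_zero hy₁), Fermat.JAC.divOf_smul, divOf_inv, hd₁,
        smul_comm Θ.s n D₁, ← smul_neg, ← nsmul_add]) hpow
  set D₂ := Θ.s • D₁ + -D₁ + divOf L g
  have hD₁ : IsCls D₁ (Θ.s • x - C.s • x) := by
    rw [sub_eq_add_neg]; exact (hD.smul Θ.s).add (hD.smul C.s).neg
  have hD₂ : IsCls D₂ (Θ.s • (Θ.s • x - C.s • x) - (Θ.s • x - C.s • x)) := by
    rw [sub_eq_add_neg (Θ.s • _)]; exact ((hD₁.smul Θ.s).add hD₁.neg).add_divOf hg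
  obtain ⟨ζ, hζn, hζ⟩ := X.exists_hasRatio hn hW
  obtain ⟨ζ₁, -, hζ₁, hζ₁v⟩ := Δ.exists_hasRatio_smul hn hW hζ
  obtain ⟨ζ₂, hζ₂, hζ₂v⟩ := hasRatio_neg hn hW hζ
  rw [sub_eq_add_neg (Δ.s • _) _]
  refine cls_eq_zero hnk (X.wit_mul (Δ.wit hW) (X.wit_inv hW))
    (X.hasRatio_mul hn (Δ.wit hW) (X.wit_inv hW) hζ₁ hζ₂) (fun s hs => ?_)
    ((hD₂.smul Δ.s).add hD₂.neg)
  have h1 := hζ₁v s hs
  rw [hΔpt s hs, if_pos (by rw [hΔe]; rfl), hΔb] at h1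
  change ζ₁ s * ζ₂ s = 1
  rw [h1, hζ₂v s hs]
  refine mul_inv_cancel₀ fun h0 => ?_
  have := hζn s
  rw [h0, zero_pow hn] at this
  exact zero_ne_one this

end Degen

end Fermat.BAD

end
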