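import Fermat.Agent.BAD.Engine.RR
import Fermat.Agent.RED.Model.Generic
import Fermat.Agent.RED.Model.Basic
import Fermat.Agent.RED.Model.Separate
import Fermat.Agent.RED.UnitArg

/-!
# A curve with two reductions glued at finitely many points

`Degen π ι K` abstracts the bad reduction of a modular curve at a prime exactly dividing the
level. The special fibre has two components, indexed by `b : Bool`, both with function field `K`;
`ι b` is the expansion at a cusp on component `b`, so reducing expansions reduces functions to
component `b`. The components meet at the finite set `S` (the supersingular points) by the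
identification `Qf`. These properties are all that is used below; no scheme-theoretic model is
built.

The engine on top of it, in order of dependence:
* `RR`: interpolation in Riemann–Roch spaces of the residue curve (the reduction of functions
  defined at the generic point of a component, `gInt` and `gRed`, is in `RED/Model/Generic`).
* `Basic` (here): integrality (`O`), primitivity (`Prim`), and `finrank_le_redImage`: reduction
  does not lose dimensions, the source of all the surjectivity statements below.
* `Ratio`, `Mul`: for a divisor `D` with `n • D = div y` such that both reductions of `y` are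
  `n`-th powers (a `Wit`), the reduced sections of `D + m A0` are the pairs glued with a ratio
  `ζ : S → μ_n`, multiplicative in `D`.
* `Residual`, `Root`, `Kernel`: a witness with ratio one is principal, by Newton iteration
  (`eq_divOf_of_hasRatio_one`).
* `Sym`: how symmetries move the ratio.
* `Theorems`, `Diamond`: the results, relations satisfied by inertia, Frobenius and diamond
  operators on torsion prime to the residue characteristic (`inertia_sq`, `frobenius_new`,
  `diamond_inertia`), applied to modular curves in the other folders of `BAD`.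
-/

set_option autoImplicit false
set_option linter.unusedSectionVars false

attribute [local instance 10000] SubalgebraClass.toAlgebra HahnSeries.powerSeriesAlgebra

noncomputable section

open AlgebraicCurve

namespace Fermat.BAD

open Fermat.FF Fermat.RED.Model

variable {L : Type*} [Field L] {A : ValuationSubring L}
variable {k : Type*} [Field k] [IsAlgClosed L] [IsAlgClosed k]
variable {F : Type*} [Field F] [Algebra L F]

/-- A curve with two reductions of residue field `K`, glued at the finite set `S` by `Qf`: the bad
reduction of a modular curve at a prime exactly dividing the level. -/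
structure Degen (π : A →+* k) (ι : Bool → F →+* LaurentSeries L)
    (K : IntermediateField k (LaurentSeries k)) [FF.IsFunctionField L F]
    [FF.IsFunctionField k K] where
  /-- `k` is the whole residue ring of `A`. -/
  surj : Function.Surjective π
  /-- Every element reducing to zero has a power divisible by any given nonzero element. -/
  arch : ∀ a : A, π a = 0 → ∀ c : A, c ≠ 0 → ∃ N : ℕ, c ∣ a ^ N
  /-- Constants expand as constants. -/
  ι_algebraMap : ∀ b c, ι b (algebraMap L F c) = algebraMap L (LaurentSeries L) c
  /-- The cusp divisor of the curve, bounding the poles of the functions considered. -/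
  A0 : Divisor L F
  /-- `A0` is effective. -/
  A0_nonneg : 0 ≤ A0
  /-- The cusp divisor of each residue curve. -/
  B : Divisor k K
  /-- `B` is effective. -/
  B_nonneg : 0 ≤ B
  /-- `B` is nonzero. -/
  B_ne : B ≠ 0
  /-- `A0` has twice the degree of `B`: one copy for each component. -/
  deg_A0 : Divisor.degree A0 = 2 * Divisor.degree B
  /-- Integral expansions reduce to functions on the residue curve. -/
  red_mem : ∀ b f, ι b f ∈ intSeries A → redF π (ι b) f ∈ K
  /-- A nonzero integral expansion becomes primitive after a scaling. -/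
  attained : ∀ b f, f ≠ 0 → ι b f ∈ intSeries A →
    ∃ a : L, ι b (a • f) ∈ intSeries A ∧ redF π (ι b) (a • f) ≠ 0
  /-- Every function is, up to a scalar, a quotient of two integral expansions whose denominator has
  nonzero reduction. -/
  denom : ∀ b f, ∃ (u : F) (a : L), a ≠ 0 ∧ ι b u ∈ intSeries A ∧ redF π (ι b) u ≠ 0 ∧
    ι b (a • (f * u)) ∈ intSeries A
  /-- Functions with poles only at `A0` have bounded expansions. -/
  bdd : ∀ b (m : ℕ) f, f ∈ riemannRochSpace (m • A0) →
    ∃ a : L, a ≠ 0 ∧ ι b (a • f) ∈ intSeries A
  /-- Such functions, if integral on both components, reduce to sections of multiples of `B`. -/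
  pole : ∀ b (m : ℕ) f (h : ∀ b', ι b' f ∈ intSeries A), f ∈ riemannRochSpace (m • A0) →
    (⟨redF π (ι b) f, red_mem b f (h b)⟩ : K) ∈ riemannRochSpace (m • B)
  /-- The glued points, on the first component `true`. -/
  S : Finset (Place k K)
  /-- The point of the second component `false` glued to a point of `S`. -/
  Qf : Place k K → Place k K
  /-- Distinct glued points are glued to distinct points. -/
  Qf_inj : Set.InjOn Qf S
  /-- No glued point of the first component is a cusp. -/
  S_B : ∀ s ∈ S, B s = 0
  /-- No glued point of the second component is a cusp. -/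
  Qf_B : ∀ s ∈ S, B (Qf s) = 0
  /-- The two reductions of an integral section of a multiple of `A0` agree at glued points. -/
  glue : ∀ (m : ℕ) f (ht : ι true f ∈ intSeries A) (hf : ι false f ∈ intSeries A),
    f ∈ riemannRochSpace (m • A0) → ∀ s ∈ S,
      evalAt s (⟨redF π (ι true) f, red_mem true f ht⟩ : K) =
        evalAt (Qf s) (⟨redF π (ι false) f, red_mem false f hf⟩ : K)
  /-- The genus is at most that of the glued configuration (see `card_S_add_genus_le` for the
  converse inequality). -/
  count : genusFF L F + 1 ≤ 2 * genusFF k K + S.card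

namespace Degen

variable {π : A →+* k} {ι : Bool → F →+* LaurentSeries L}
  {K : IntermediateField k (LaurentSeries k)}
variable [FF.IsFunctionField L F] [FF.IsFunctionField k K]
variable (X : Degen π ι K)

include X

/-- The cusp divisor `B` has positive degree. -/
theorem deg_B_pos : 0 < Divisor.degree X.B := by
  rcases (FF.degree_nonneg X.B_nonneg).lt_or_eq with h | h
  · exact h
  · exact absurd (FF.eq_zero_of_nonneg_of_degree X.B_nonneg h.symm) X.B_ne

/-- A scaling by a nonzero constant can be traded for a power of any small element. -/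
theorem exists_pow_mul_mem_intSeries {ρ : L} (hρA : ρ ∈ A) (hρ : π ⟨ρ, hρA⟩ = 0) {a : L}
    (ha : a ≠ 0) {W : LaurentSeries L} (h : algebraMap L (LaurentSeries L) a * W ∈ intSeries A) :
    ∃ j : ℕ, algebraMap L (LaurentSeries L) (ρ ^ j) * W ∈ intSeries A := by
  rcases A.mem_or_inv_mem a with h1 | h1
  · obtain ⟨j, t, ht⟩ := X.arch ⟨ρ, hρA⟩ hρ ⟨a, h1⟩ fun e => ha (congrArg Subtype.val e)
    refine ⟨j, ?_⟩
    rw [show ρ ^ j = (t : L) * a by
      rw [mul_comm]; exact congrArg Subtype.val ht, map_mul, mul_assoc]
    exact mul_mem (algebraMap_mem_intSeries t.2) h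
  · refine ⟨0, ?_⟩
    rw [pow_zero, map_one, one_mul,
      show W = algebraMap L (LaurentSeries L) a⁻¹ * (algebraMap L (LaurentSeries L) a * W) by
        rw [← mul_assoc, ← map_mul, inv_mul_cancel₀ ha, map_one, one_mul]]
    exact mul_mem (algebraMap_mem_intSeries h1) h

/-- Reduction at component `b`: the function on the residue curve to which `f` restricts (zero
unless `f` is defined at the generic point of the component). -/
def red (b : Bool) (f : F) : K :=
  ⟨gRed π (ι b) f, gRed_mem (K := K.toSubfield) (fun g hg => X.red_mem b g hg) f⟩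

/-- The functions integral at both components. -/
@[nolint unusedArguments]
def O (_Y : Degen π ι K) : Subring F := gInt π (ι true) ⊓ gInt π (ι false)

/-- `O` consists of the functions integral at both components. -/
theorem mem_O {f : F} : f ∈ X.O ↔ ∀ b, f ∈ gInt π (ι b) :=
  ⟨fun h b => by cases b; exacts [h.2, h.1], fun h => ⟨h true, h false⟩⟩

/-- The series underlying `red b f` is `gRed π (ι b) f`. -/
theorem coe_red (b : Bool) (f : F) : (X.red b f : LaurentSeries k) = gRed π (ι b) f := rfl

/-- On a function with integral expansion, `red` is the reduction of the expansion. -/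
theorem red_of_int {b : Bool} {f : F} (h : ι b f ∈ intSeries A) :
    X.red b f = ⟨redF π (ι b) f, X.red_mem b f h⟩ := Subtype.ext (gRed_of_int h)

/-- `red` sends `0` to `0`. -/
@[simp] theorem red_zero (b : Bool) : X.red b (0 : F) = 0 :=
  Subtype.ext (by rw [coe_red, gRed_zero]; rfl)

/-- `red` sends `1` to `1`. -/
@[simp] theorem red_one (b : Bool) : X.red b (1 : F) = 1 :=
  Subtype.ext (by rw [coe_red, gRed_one]; rfl)

/-- `red` is additive on functions integral at the component. -/
theorem red_add {b : Bool} {f g : F} (hf : f ∈ gInt π (ι b)) (hg : g ∈ gInt π (ι b)) :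
    X.red b (f + g) = X.red b f + X.red b g :=
  Subtype.ext (by rw [AddMemClass.coe_add, coe_red, coe_red, coe_red, gRed_add hf hg])

/-- `red` commutes with subtraction on functions integral at the component. -/
theorem red_sub {b : Bool} {f g : F} (hf : f ∈ gInt π (ι b)) (hg : g ∈ gInt π (ι b)) :
    X.red b (f - g) = X.red b f - X.red b g :=
  Subtype.ext (by rw [AddSubgroupClass.coe_sub, coe_red, coe_red, coe_red, gRed_sub hf hg])

/-- `red` is multiplicative on functions integral at the component. -/
theorem red_mul {b : Bool} {f g : F} (hf : f ∈ gInt π (ι b)) (hg : g ∈ gInt π (ι b)) :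
    X.red b (f * g) = X.red b f * X.red b g :=
  Subtype.ext (by rw [MulMemClass.coe_mul, coe_red, coe_red, coe_red, gRed_mul hf hg])

/-- `red` commutes with powers on functions integral at the component. -/
theorem red_pow {b : Bool} {f : F} (hf : f ∈ gInt π (ι b)) (n : ℕ) :
    X.red b (f ^ n) = X.red b f ^ n :=
  Subtype.ext (by rw [SubmonoidClass.coe_pow, coe_red, coe_red, gRed_pow hf])

/-- `red` commutes with finite sums of functions integral at the component. -/
theorem red_sum {b : Bool} {α : Type*} (s : Finset α) {f : α → F}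
    (hf : ∀ i ∈ s, (f i) ∈ gInt π (ι b)) :
    X.red b (∑ i ∈ s, f i) = ∑ i ∈ s, X.red b (f i) :=
  Subtype.ext (by
    rw [coe_red, gRed_sum s hf, AddSubmonoidClass.coe_finsetSum]
    simp only [coe_red])

/-- An integral constant has integral expansion. -/
theorem series_algebraMap {b : Bool} {c : L} (hc : c ∈ A) :
    ι b (algebraMap L F c) ∈ intSeries A := by
  rw [X.ι_algebraMap]; exact algebraMap_mem_intSeries hc

/-- An integral constant is integral at either component. -/
theorem int_algebraMap {b : Bool} {c : L} (hc : c ∈ A) :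
    algebraMap L F c ∈ gInt π (ι b) := mem_gInt_of_int (X.series_algebraMap hc)

/-- An integral constant reduces to its image under `π`. -/
theorem red_algebraMap {b : Bool} (c : A) :
    X.red b (algebraMap L F (c : L)) = algebraMap k K (π c) := by
  refine Subtype.ext ?_
  rw [coe_red, gRed_of_int (X.series_algebraMap c.2), redF_of_mem (X.series_algebraMap c.2)]
  refine (Eq.trans ?_ (redHom_algebraMap π c.2))
  congr 1
  exact Subtype.ext (X.ι_algebraMap b c)

/-- A function integral at a component stays so when multiplied by an integral constant. -/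
theorem int_smul {b : Bool} {c : L} {f : F} (hc : c ∈ A) (hf : f ∈ gInt π (ι b)) :
    (c • f) ∈ gInt π (ι b) := by
  rw [Algebra.smul_def]; exact mul_mem (X.int_algebraMap hc) hf

/-- `red` is semilinear along `π`. -/
theorem red_smul {b : Bool} (c : A) {f : F} (hf : f ∈ gInt π (ι b)) :
    X.red b ((c : L) • f) = π c • X.red b f := by
  rw [Algebra.smul_def, X.red_mul (X.int_algebraMap c.2) hf, X.red_algebraMap, Algebra.smul_def]

/-- `O` is stable under integral scalars. -/
theorem smul_mem_O {c : L} {f : F} (hc : c ∈ A) (hf : f ∈ X.O) : c • f ∈ X.O :=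
  X.mem_O.mpr fun b => X.int_smul hc (X.mem_O.mp hf b)

/-- A member of `O` is integral at each component. -/
theorem int_of_mem_O {f : F} (hf : f ∈ X.O) (b : Bool) : f ∈ gInt π (ι b) := X.mem_O.mp hf b

/-- Primitive at component `b`: integral there with nonzero reduction. -/
def Prim (b : Bool) (f : F) : Prop := f ∈ gInt π (ι b) ∧ X.red b f ≠ 0

omit X in
/-- A product of primitive functions is primitive. -/
theorem Prim.mul {X : Degen π ι K} {b : Bool} {f g : F} (hf : X.Prim b f) (hg : X.Prim b g) :
    X.Prim b (f * g) :=
  ⟨mul_mem hf.1 hg.1, by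
    rw [X.red_mul hf.1 hg.1]; exact mul_ne_zero hf.2 hg.2⟩

/-- `1` is primitive at both components. -/
theorem prim_one (b : Bool) : X.Prim b 1 := ⟨one_mem _, by simp⟩

omit X in
/-- A power of a primitive function is primitive. -/
theorem Prim.pow {X : Degen π ι K} {b : Bool} {f : F} (hf : X.Prim b f) (n : ℕ) :
    X.Prim b (f ^ n) := by
  induction n with
  | zero => simpa using X.prim_one b
  | succ n ih => rw [pow_succ]; exact ih.mul hf

omit X in
/-- A primitive function is nonzero. -/
theorem Prim.ne_zero {X : Degen π ι K} {b : Bool} {f : F} (hf : X.Prim b f) : f ≠ 0 :=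
  fun h => hf.2 (by rw [h, X.red_zero])

/-- At each component every nonzero function is a scalar times a primitive one. -/
theorem exists_smul_prim (b : Bool) {f : F} (hf : f ≠ 0) : ∃ c : L, c ≠ 0 ∧ X.Prim b (c • f) := by
  obtain ⟨u, a, ha, hu, hu0, hfu⟩ := X.denom b f
  have hu_ne : u ≠ 0 := fun h => hu0 (by rw [h, redF_zero])
  obtain ⟨a', ha', hr⟩ := X.attained b (a • (f * u)) (smul_ne_zero ha (mul_ne_zero hf hu_ne)) hfu
  have hq : IsGQuot π (ι b) ((a' * a) • f) (a' • a • (f * u)) u :=
    ⟨ha', hu, hu0, by rw [smul_mul_assoc, mul_smul]⟩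
  have hne : X.red b ((a' * a) • f) ≠ 0 := fun h => by
    have h1 := congrArg (fun z : K => (z : LaurentSeries k)) h
    rw [coe_red, hq.gRed_eq] at h1
    exact div_ne_zero hr hu0 h1
  exact ⟨a' * a, fun h => hne (by rw [h, zero_smul, red_zero]), hq.mem, hne⟩

/-- An integral scalar whose inverse is not integral reduces to zero. -/
theorem eq_zero_of_inv_notMem {c : A} (h : ((c : L))⁻¹ ∉ A) : π c = 0 :=
  map_eq_zero_of_inv_notMem X.surj h

omit X in
/-- A scalar keeping a primitive element integral is integral. -/
theorem Prim.mem_of_smul {X : Degen π ι K} {b : Bool} {f : F} (hf : X.Prim b f) {c : L}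
    (hc : (c • f) ∈ gInt π (ι b)) : c ∈ A := by
  by_contra h
  have hc0 : c ≠ 0 := fun h0 => h (h0 ▸ zero_mem A)
  have hinv : c⁻¹ ∈ A := (A.mem_or_inv_mem c).resolve_left h
  have h1 : π ⟨c⁻¹, hinv⟩ = 0 := X.eq_zero_of_inv_notMem (by simpa using h)
  refine hf.2 ?_
  rw [show f = c⁻¹ • c • f by rw [smul_smul, inv_mul_cancel₀ hc0, one_smul],
    X.red_smul ⟨c⁻¹, hinv⟩ hc, h1, zero_smul]

/-- A bounded expansion of a function defined at the generic point is integral. -/
theorem series_int_of_bdd {b : Bool} {f : F} (hf : f ∈ gInt π (ι b)) {a : L} (ha : a ≠ 0)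
    (h : ι b (a • f) ∈ intSeries A) : ι b f ∈ intSeries A := by
  rcases eq_or_ne f 0 with rfl | hf0
  · rw [map_zero]; exact zero_mem _
  obtain ⟨a', h', hr⟩ := X.attained b (a • f) (smul_ne_zero ha hf0) h
  have hc : a' * a ≠ 0 := fun h0 => hr (by rw [smul_smul, h0, zero_smul, redF_zero])
  have hp : X.Prim b ((a' * a) • f) := by
    rw [mul_smul]
    exact ⟨mem_gInt_of_int h', fun h0 => hr (by
      rw [← gRed_of_int h', ← X.coe_red, h0]; rfl)⟩
  have hinv : (a' * a)⁻¹ ∈ A := hp.mem_of_smul (by rwa [smul_smul, inv_mul_cancel₀ hc, one_smul])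
  rw [show f = (a' * a)⁻¹ • (a' • a • f) by
    rw [smul_smul a', smul_smul, inv_mul_cancel₀ hc, one_smul], Algebra.smul_def, map_mul]
  exact mul_mem (X.series_algebraMap hinv) h'

/-- A function with poles only at `A0` which is defined at the generic point of a component has
integral expansion there. -/
theorem series_int_of_mem {b : Bool} {m : ℕ} {f : F} (hf : f ∈ gInt π (ι b))
    (hm : f ∈ riemannRochSpace (m • X.A0)) : ι b f ∈ intSeries A := by
  obtain ⟨a, ha, hab⟩ := X.bdd b m f hm
  exact X.series_int_of_bdd hf ha hab

/-- If the product with a primitive function is integral at a component, so is the function. -/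
theorem mem_gInt_of_mul_prim {b : Bool} {u : F} {S : F} (hS : X.Prim b S)
    (h : (u * S) ∈ gInt π (ι b)) : u ∈ gInt π (ι b) := by
  rcases eq_or_ne u 0 with rfl | hu
  · exact zero_mem _
  obtain ⟨c, hc, hp⟩ := X.exists_smul_prim b hu
  have h2 : (c⁻¹ • (c • u * S)) ∈ gInt π (ι b) := by
    rwa [← smul_mul_assoc, smul_smul, inv_mul_cancel₀ hc, one_smul]
  have := X.int_smul ((hp.mul hS).mem_of_smul h2) hp.1
  rwa [smul_smul, inv_mul_cancel₀ hc, one_smul] at this

/-- A scalar making `f` integral everywhere and nonzero at some component. -/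
theorem exists_joint {f : F} (hf : f ≠ 0) :
    ∃ c : L, c ≠ 0 ∧ c • f ∈ X.O ∧ ∃ b, X.red b (c • f) ≠ 0 := by
  obtain ⟨a, ha, hpa⟩ := X.exists_smul_prim true hf
  obtain ⟨c, hc, hpc⟩ := X.exists_smul_prim false hf
  rcases A.mem_or_inv_mem (a / c) with h | h
  · refine ⟨a, ha, X.mem_O.mpr fun b => ?_, true, hpa.2⟩
    cases b
    · have := X.int_smul h hpc.1
      rwa [smul_smul, div_mul_cancel₀ _ hc] at this
    · exact hpa.1
  · refine ⟨c, hc, X.mem_O.mpr fun b => ?_, false, hpc.2⟩
    cases b
    · exact hpc.1
    · have := X.int_smul h hpa.1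
      rwa [inv_div, smul_smul, div_mul_cancel₀ _ ha] at this

/-- The pairs `(red b g * u b)` for `g` in `W` integral at both components. -/
def redImage (W : Submodule L F) (u : Bool → K) : Submodule k (Bool → K) where
  carrier := {P | ∃ g ∈ W, g ∈ X.O ∧ ∀ b, P b = X.red b g * u b}
  zero_mem' := ⟨0, zero_mem W, zero_mem _, fun b => by simp⟩
  add_mem' := by
    rintro P P' ⟨g, hg, hgO, hP⟩ ⟨g', hg', hgO', hP'⟩
    exact ⟨g + g', add_mem hg hg', add_mem hgO hgO', fun b => by
      rw [Pi.add_apply, hP, hP', X.red_add (X.int_of_mem_O hgO b) (X.int_of_mem_O hgO' b), add_mul]⟩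
  smul_mem' := by
    rintro c P ⟨g, hg, hgO, hP⟩
    obtain ⟨a, rfl⟩ := X.surj c
    exact ⟨(a : L) • g, W.smul_mem _ hg, X.smul_mem_O a.2 hgO, fun b => by
      rw [Pi.smul_apply, hP, X.red_smul a (X.int_of_mem_O hgO b), smul_mul_assoc]⟩

/-- Membership in `redImage`. -/
theorem mem_redImage {W : Submodule L F} {u : Bool → K} {P : Bool → K} :
    P ∈ X.redImage W u ↔ ∃ g ∈ W, g ∈ X.O ∧ ∀ b, P b = X.red b g * u b := Iff.rfl

/-- The coefficients of a multiple in `K` are the multiples of the coefficients. -/
theorem coe_smul_series (c : k) (z : K) (n : ℤ) :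
    ((c • z : K) : LaurentSeries k).coeff n = c * (z : LaurentSeries k).coeff n := by
  rw [Algebra.smul_def, MulMemClass.coe_mul]
  exact Fermat.RED.coeff_algebraMap_mul c _ n

/-- Reduction does not lose dimensions: `W` is no larger than the space of twisted pairs of
reductions of its integral elements. -/
theorem finrank_le_redImage {W : Submodule L F} [FiniteDimensional L W] {u : Bool → K}
    (hu : ∀ b, u b ≠ 0) [FiniteDimensional k (X.redImage W u)] :
    Module.finrank L W ≤ Module.finrank k (X.redImage W u) := by
  classical
  have : Module.Free L W := Module.Free.of_divisionRing L W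
  let e := Module.finBasis L W
  choose v c hc hv hv0 hcv using fun (b : Bool) i => X.denom b (e i : F)
  -- common denominators
  set U : Bool → F := fun b => ∏ i, v b i with hU
  have hUi : ∀ b, ι b (U b) ∈ intSeries A := fun b => by
    rw [hU, map_prod]; exact prod_mem fun i _ => hv b i
  have hU0 : ∀ b, X.red b (U b) ≠ 0 := fun b h0 => by
    have h1 := congrArg (fun z : K => (z : LaurentSeries k)) h0
    rw [coe_red, gRed_of_int (hUi b), hU, redF_prod _ fun i _ => hv b i] at h1
    exact Finset.prod_ne_zero_iff.mpr (fun i _ => hv0 b i) h1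
  -- hence `U * g` has bounded expansions for `g` in `W`
  have hbd : ∀ (b : Bool) (w : W), ∃ a : L, a ≠ 0 ∧ ι b (a • (U b * (w : F))) ∈ intSeries A :=
    fun b => exists_smul_prod_mul_mem (fun _ => X.series_algebraMap) e (hc b) (hv b) (hcv b)
  -- the coefficients of the reductions of `U * g`, of which finitely many separate `redImage`
  let cn : Bool × ℤ → (Bool → K) →ₗ[k] k := fun i =>
    { toFun := fun P => ((P i.1 * ((u i.1)⁻¹ * X.red i.1 (U i.1)) : K) : LaurentSeries k).coeff i.2
      map_add' := fun P P' => by
        rw [Pi.add_apply, add_mul, AddMemClass.coe_add, HahnSeries.coeff_add]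
      map_smul' := fun c P => by
        rw [Pi.smul_apply, smul_mul_assoc, X.coe_smul_series, RingHom.id_apply, smul_eq_mul] }
  obtain ⟨S, hS, hsep⟩ := exists_separating_finset cn (fun P hP => funext fun b => by
    have h : P b * ((u b)⁻¹ * X.red b (U b)) = 0 :=
      Subtype.ext (HahnSeries.ext (funext fun n => hP (b, n)))
    exact (mul_eq_zero.mp h).resolve_right (mul_ne_zero (inv_ne_zero (hu b)) (hU0 b)))
      (X.redImage W u)
  -- the same coefficients of `U * g`: they are injective on `W`, as a common zero would reduce
  -- to a pair killed by all the coefficients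
  let Φ : W →ₗ[L] (S → L) :=
    { toFun := fun w i => (ι i.1.1 (U i.1.1 * (w : F))).coeff i.1.2
      map_add' := fun w w' => by ext i; simp [mul_add]
      map_smul' := fun c w => by
        ext i
        simp only [Submodule.coe_smul, Algebra.smul_def, map_mul, X.ι_algebraMap, Pi.smul_apply,
          RingHom.id_apply, mul_left_comm (ι i.1.1 (U i.1.1))]
        exact Fermat.RED.coeff_algebraMap_mul c _ _ }
  have hΦ : Function.Injective Φ := by
    rw [injective_iff_map_eq_zero]
    intro w hw
    by_contra hne
    obtain ⟨c', hc', hO, b, hb⟩ := X.exists_joint (f := (w : F)) fun h => hne (Subtype.ext h)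
    refine hb ?_
    have hP := hsep (fun b => X.red b (c' • (w : F)) * u b)
      ⟨c' • (w : F), W.smul_mem c' w.2, hO, fun b => rfl⟩ (fun i hi => ?_)
    · exact (mul_eq_zero.mp (congrFun hP b)).resolve_right (hu b)
    · change ((X.red i.1 (c' • (w : F)) * u i.1 * ((u i.1)⁻¹ * X.red i.1 (U i.1)) : K) :
          LaurentSeries k).coeff i.2 = 0
      have hmem := mul_mem (mem_gInt_of_int (π := π) (hUi i.1)) (X.int_of_mem_O hO i.1)
      obtain ⟨a, ha, hab⟩ := hbd i.1 ⟨_, W.smul_mem c' w.2⟩
      have hint := X.series_int_of_bdd hmem ha hab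
      rw [mul_assoc, mul_inv_cancel_left₀ (hu i.1), mul_comm,
        ← X.red_mul (mem_gInt_of_int (hUi i.1)) (X.int_of_mem_O hO i.1), X.red_of_int hint]
      change (redF π (ι i.1) (U i.1 * c' • (w : F))).coeff i.2 = 0
      rw [redF_of_mem hint, redHom_coeff]
      refine Eq.trans (congrArg π (Subtype.ext ?_)) (map_zero π)
      change (ι i.1 (U i.1 * c' • (w : F))).coeff i.2 = 0
      rw [mul_smul_comm, Algebra.smul_def, map_mul, X.ι_algebraMap,
        Fermat.RED.coeff_algebraMap_mul]
      have := congrFun hw ⟨i, hi⟩
      change (ι i.1 (U i.1 * (w : F))).coeff i.2 = 0 at this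
      rw [this, mul_zero]
  calc Module.finrank L W ≤ Module.finrank L (S → L) :=
        LinearMap.finrank_le_finrank_of_injective hΦ
    _ = S.card := by rw [Module.finrank_fintype_fun_eq_card, Fintype.card_coe]
    _ ≤ _ := hS

/-- The reduction of an integral combination of members of `O`. -/
theorem red_comb {α : Type*} [Fintype α] {w : α → F} (hw : ∀ i, w i ∈ X.O) (d : α → A)
    (b : Bool) : X.red b (∑ i, (d i : L) • w i) = ∑ i, π (d i) • X.red b (w i) := by
  rw [X.red_sum _ fun i _ => X.int_smul (d i).2 (X.int_of_mem_O (hw i) b)]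
  exact Finset.sum_congr rfl fun i _ => X.red_smul (d i) (X.int_of_mem_O (hw i) b)

/-- If the pairs of reductions of a family are independent, an integral combination reducing to zero
at both components has coefficients reducing to zero. -/
theorem eq_zero_of_red_comb {α : Type*} [Fintype α] {w : α → F} (hw : ∀ i, w i ∈ X.O)
    (hind : LinearIndependent k fun i (b : Bool) => X.red b (w i)) (d : α → A)
    (h : ∀ b, X.red b (∑ i, (d i : L) • w i) = 0) (j : α) : π (d j) = 0 := by
  refine Fintype.linearIndependent_iff.mp hind (fun i => π (d i)) (funext fun b => ?_) j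
  rw [Finset.sum_apply, Pi.zero_apply, ← h b, X.red_comb hw d b]
  rfl

/-- A family in `O` whose pairs of reductions are independent is independent. -/
theorem linearIndependent_of_red {α : Type*} [Fintype α] {w : α → F} (hw : ∀ i, w i ∈ X.O)
    (hind : LinearIndependent k fun i (b : Bool) => X.red b (w i)) : LinearIndependent L w := by
  classical
  rw [Fintype.linearIndependent_iff]
  intro c hc i
  by_contra hi
  obtain ⟨a, ha, hdiv, j, -, hj⟩ := exists_div_mem (A := A) Finset.univ c
    ⟨i, Finset.mem_univ i, hi⟩
  have h0 : ∑ l, ((⟨c l / a, hdiv l (Finset.mem_univ l)⟩ : A) : L) • w l = 0 := by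
    simp only [div_eq_inv_mul, mul_smul, ← Finset.smul_sum, hc, smul_zero]
  have h1 := X.eq_zero_of_red_comb hw hind _ (fun b => by rw [h0, X.red_zero]) j
  rw [show (⟨c j / a, hdiv j (Finset.mem_univ j)⟩ : A) = 1 from
    Subtype.ext (by simp [hj, ha]), map_one] at h1
  exact one_ne_zero h1

/-- Integral combinations of a family with independent reductions have integral coefficients. -/
theorem mem_A_of_comb {α : Type*} [Fintype α] {w : α → F} (hw : ∀ i, w i ∈ X.O)
    (hind : LinearIndependent k fun i (b : Bool) => X.red b (w i)) {c : α → L}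
    (he : (∑ i, c i • w i) ∈ X.O) (i : α) : c i ∈ A := by
  classical
  by_contra hi
  obtain ⟨a, ha, hdiv, j, -, hj⟩ := exists_div_mem (A := A) Finset.univ c
    ⟨i, Finset.mem_univ i, fun h => hi (h ▸ zero_mem A)⟩
  have hane : a ∉ A := fun h => hi (by
    have := mul_mem (hdiv i (Finset.mem_univ i)) h
    rwa [div_mul_cancel₀ _ ha] at this)
  have hinv : a⁻¹ ∈ A := (A.mem_or_inv_mem a).resolve_left hane
  have h0 : ∑ l, ((⟨c l / a, hdiv l (Finset.mem_univ l)⟩ : A) : L) • w l
      = ((⟨a⁻¹, hinv⟩ : A) : L) • ∑ l, c l • w l := by
    simp only [div_eq_inv_mul, mul_smul, ← Finset.smul_sum]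
  have h1 := X.eq_zero_of_red_comb hw hind _ (fun b => by
    rw [h0, X.red_smul _ (X.int_of_mem_O he b), X.eq_zero_of_inv_notMem (by simpa using hane),
      zero_smul]) j
  rw [show (⟨c j / a, hdiv j (Finset.mem_univ j)⟩ : A) = 1 from
    Subtype.ext (by simp [hj, ha]), map_one] at h1
  exact one_ne_zero h1

end Degen

end Fermat.BAD

end
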