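import Fermat.Agent.BAD.Engine.Basic
import Mathlib.RingTheory.Nullstellensatz

/-!
# An `n`-th root exists if it exists modulo all powers of the valuation ideal

Main theorem `exists_eq_pow_of_approx`, the limit of the iteration in `Kernel`. In coordinates
being a root is a system of polynomial equations. Without a solution over the algebraically closed
`L` the Nullstellensatz gives a Bézout identity, and evaluating it at the approximate solutions
makes a fixed nonzero denominator divisible by every power of `a`.
-/

set_option autoImplicit false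

noncomputable section

namespace Fermat.BAD

open Fermat.RED.Model

variable {L : Type*} [Field L] {A : ValuationSubring L}
variable {k : Type*} [Field k] [IsAlgClosed L] [IsAlgClosed k]
variable {F : Type*} [Field F] [Algebra L F]
variable {π : A →+* k} {ι : Bool → F →+* LaurentSeries L}
  {K : IntermediateField k (LaurentSeries k)}
variable [FF.IsFunctionField L F] [FF.IsFunctionField k K]

namespace Degen

variable (X : Degen π ι K)
include X

/-- A function in a finite-dimensional space is an `n`-th power of a combination of the `w i` if it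
is congruent to such powers modulo all powers of a nonzero `a` with `π a = 0`. -/
theorem exists_eq_pow_of_approx {σ τ : Type*} [Fintype σ] [Fintype τ]
    (w : σ → F) (u : τ → F) (hu : ∀ l, u l ∈ X.O)
    (hind : LinearIndependent k fun l (b : Bool) => X.red b (u l))
    (n : ℕ) (f : F) (hf : f ∈ Submodule.span L (Set.range u))
    (hpow : ∀ c : σ → L, (∑ i, c i • w i) ^ n ∈ Submodule.span L (Set.range u))
    (a : A) (ha : π a = 0) (ha0 : a ≠ 0)
    (happrox : ∀ N : ℕ, ∃ c : σ → A, ∃ e ∈ X.O,
      f - (∑ i, (c i : L) • w i) ^ n = ((a : L) ^ N) • e) :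
    ∃ c : σ → L, f = (∑ i, c i • w i) ^ n := by
  classical
  have hli := X.linearIndependent_of_red hu hind
  set bu := Module.Basis.span hli
  have hφ : ∀ l, ∃ φ : F →ₗ[L] L, φ.comp (Submodule.subtype _) = bu.coord l := fun l =>
    LinearMap.exists_extend (bu.coord l)
  choose φ hφ using hφ
  have hcoord : ∀ z ∈ Submodule.span L (Set.range u), z = ∑ l, φ l z • u l := by
    intro z hz
    have h1 := congrArg Subtype.val (bu.sum_repr ⟨z, hz⟩)
    simp only [AddSubmonoidClass.coe_finsetSum, SetLike.val_smul] at h1
    conv_lhs => rw [← h1]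
    refine Finset.sum_congr rfl fun l _ => ?_
    rw [show (bu l : F) = u l from congrArg Subtype.val (Module.Basis.span_apply hli l),
      show φ l z = bu.coord l ⟨z, hz⟩ from LinearMap.congr_fun (hφ l) ⟨z, hz⟩]
    rfl
  have hint : ∀ z ∈ Submodule.span L (Set.range u), z ∈ X.O → ∀ l, φ l z ∈ A := fun z hz hzO l =>
    X.mem_A_of_comb hu hind (c := fun l => φ l z) (by rw [← hcoord z hz]; exact hzO) l
  -- the equations `P l`: the coordinates of `f - (∑ X i w i) ^ n`
  set Q : MvPolynomial σ F :=
    MvPolynomial.C f - (∑ i, MvPolynomial.C (w i) * MvPolynomial.X i) ^ n with hQ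
  set P : τ → MvPolynomial σ L :=
    fun l => ∑ d ∈ Q.support, MvPolynomial.monomial d (φ l (Q.coeff d)) with hPdef
  have heval : ∀ (c : σ → L) l, MvPolynomial.eval c (P l) = φ l (f - (∑ i, c i • w i) ^ n) := by
    intro c l
    have h1 : MvPolynomial.eval (fun i => algebraMap L F (c i)) Q = f - (∑ i, c i • w i) ^ n := by
      simp [hQ, Algebra.smul_def, mul_comm]
    rw [← h1, MvPolynomial.eval_eq (fun i => algebraMap L F (c i)) Q]
    simp only [hPdef, map_sum]
    refine Finset.sum_congr rfl fun d _ => ?_
    rw [MvPolynomial.eval_monomial, Finsupp.prod,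
      show ∏ i ∈ d.support, algebraMap L F (c i) ^ d i = algebraMap L F (∏ i ∈ d.support, c i ^ d i)
        by simp, mul_comm (Q.coeff d), ← Algebra.smul_def, map_smul, smul_eq_mul, mul_comm]
  -- no solution: the equations generate the unit ideal
  by_contra hno
  push Not at hno
  have hempty : MvPolynomial.zeroLocus L (Ideal.span (Set.range P)) = ∅ := by
    refine Set.eq_empty_iff_forall_notMem.mpr fun c hc => hno c ?_
    rw [MvPolynomial.zeroLocus_span] at hc
    have hz : ∀ l, φ l (f - (∑ i, c i • w i) ^ n) = 0 := fun l => by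
      rw [← heval]
      have := hc (P l) ⟨l, rfl⟩
      simpa [MvPolynomial.aeval_eq_eval] using this
    have := hcoord _ (sub_mem hf (hpow c))
    simp only [hz, zero_smul, Finset.sum_const_zero, sub_eq_zero] at this
    exact this
  have htop : Ideal.span (Set.range P) = ⊤ := by
    have h1 := MvPolynomial.vanishingIdeal_zeroLocus_eq_radical (K := L) (Ideal.span (Set.range P))
    rw [hempty, MvPolynomial.vanishingIdeal_empty] at h1
    exact Ideal.radical_eq_top.mp h1.symm
  obtain ⟨p, hp⟩ := Ideal.mem_span_range_iff_exists_fun.mp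
    (htop ▸ Submodule.mem_top : (1 : MvPolynomial σ L) ∈ Ideal.span (Set.range P))
  -- a common denominator
  set cf : Option (Σ _ : τ, (σ →₀ ℕ)) → L := fun o => o.elim 1 fun q => (p q.1).coeff q.2 with hcf
  obtain ⟨M, hM, hdiv, -, -, -⟩ := exists_div_mem (A := A)
    (insert none ((Finset.univ.sigma fun l => (p l).support).image some)) cf
    ⟨none, Finset.mem_insert_self _ _, by simp [hcf]⟩
  have h1M : (1 : L) / M ∈ A := hdiv none (Finset.mem_insert_self _ _)
  set d : A := ⟨1 / M, h1M⟩ with hd
  have hd0 : d ≠ 0 := fun h => one_div_ne_zero hM (congrArg Subtype.val h)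
  -- the identity at an approximate solution
  have hbound : ∀ N, (a : A) ^ N ∣ d := by
    intro N
    obtain ⟨c, e, he, hce⟩ := happrox N
    have hterm : ∀ l, ∃ r : A, MvPolynomial.eval (fun i => (c i : L)) (p l) / M *
        MvPolynomial.eval (fun i => (c i : L)) (P l) = (r : L) * (a : L) ^ N := by
      intro l
      have h1 : MvPolynomial.eval (fun i => (c i : L)) (p l) / M ∈ A := by
        rw [MvPolynomial.eval_eq, Finset.sum_div]
        refine sum_mem fun q hq => ?_
        rw [mul_div_right_comm]
        refine mul_mem (hdiv (some ⟨l, q⟩) (Finset.mem_insert_of_mem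
          (Finset.mem_image_of_mem _ (by simp [MvPolynomial.mem_support_iff.mp hq])))) ?_
        exact prod_mem fun i _ => pow_mem (c i).2 _
      have hespan : e ∈ Submodule.span L (Set.range u) := by
        have := Submodule.smul_mem _ ((a : L) ^ N)⁻¹ (sub_mem hf (hpow fun i => (c i : L)))
        rwa [hce, smul_smul, inv_mul_cancel₀ (pow_ne_zero N fun h => ha0 (Subtype.ext h)),
          one_smul] at this
      refine ⟨⟨_, h1⟩ * ⟨_, hint e hespan he l⟩, ?_⟩
      rw [heval, hce, map_smul, smul_eq_mul, MulMemClass.coe_mul]
      ring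
    choose r hr using hterm
    refine ⟨∑ l, r l, Subtype.ext ?_⟩
    have h2 := congrArg (MvPolynomial.eval fun i => (c i : L)) hp
    rw [map_sum, map_one] at h2
    simp only [map_mul] at h2
    simp only [MulMemClass.coe_mul, SubmonoidClass.coe_pow, AddSubmonoidClass.coe_finsetSum,
      Finset.mul_sum]
    change (1 : L) / M = _
    rw [← h2, Finset.sum_div]
    refine Finset.sum_congr rfl fun l _ => ?_
    rw [mul_div_right_comm, hr, mul_comm]
  -- contradicting `arch`
  obtain ⟨N₀, hN₀⟩ := X.arch a ha d hd0
  obtain ⟨r, hr⟩ := (hbound (N₀ + 1)).trans hN₀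
  rw [pow_succ, mul_assoc] at hr
  have h1 : a * r = 1 := mul_left_cancel₀ (pow_ne_zero N₀ ha0) (hr.symm.trans (mul_one _).symm)
  have h2 := congrArg π h1
  rw [map_mul, ha, zero_mul, map_one] at h2
  exact zero_ne_one h2

end Degen

end Fermat.BAD

end
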