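import Fermat.Agent.BAD.Engine.Residual
import Fermat.Agent.BAD.Engine.Root

/-!
# A witness with constant ratio is principal

Main theorem `eq_divOf_of_hasRatio_one`, the only place where the engine shows a class to vanish.
With ratio one, exact functions `hᵢ` without common zero lift both to sections `gᵢ` of
`D + mᵢ A0` and to sections `Hᵢ` of `mᵢ A0` (`exists_rootInput`). The residual step improves `Hᵢ`
to roots of `gᵢ ^ n y` modulo every power of some small `a` (`exists_approx_succ`), so a true root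
`H` exists (`Root`) and `D = div (H / g)`. `Theorems` restates it for classes (`cls_eq_zero`).
-/

set_option autoImplicit false

attribute [local instance 10000] SubalgebraClass.toAlgebra HahnSeries.powerSeriesAlgebra

noncomputable section

open AlgebraicCurve

namespace Fermat.BAD

open Fermat.FF Fermat.RED.Model

variable {L : Type*} [Field L] {A : ValuationSubring L}
variable {k : Type*} [Field k] [IsAlgClosed L] [IsAlgClosed k]
variable {F : Type*} [Field F] [Algebra L F]
variable {π : A →+* k} {ι : Bool → F →+* LaurentSeries L}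
  {K : IntermediateField k (LaurentSeries k)}
variable [FF.IsFunctionField L F] [FF.IsFunctionField k K]

namespace Degen

/-- The input of the root iteration: two exact functions without common zeros, sections of the
divisor reducing to them up to `H`, and integral lifts of them. -/
structure RootInput (X : Degen π ι K) (D : Divisor L F) (H : Bool → K) where
  /-- The degrees of the two exact functions. -/
  deg : Bool → ℕ
  /-- The two exact functions on the components. -/
  fn : Bool → K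
  /-- The sections of the divisor. -/
  sec : Bool → F
  /-- The integral lifts of the exact functions. -/
  start : Bool → F
  /-- The degrees are at least `X.N0`. -/
  N0_le : ∀ i, X.N0 ≤ deg i
  /-- The functions are exact. -/
  isExact : ∀ i, ∃ T, X.Exact (fn i) (deg i) T
  /-- They have no common zero. -/
  coprime : ∀ i, ∀ v : Place k K, 0 < v.ord (fn i) → evalAt v (fn (!i)) ≠ 0
  /-- The sections are sections of `D + deg i A0`. -/
  sec_mem : ∀ i, sec i ∈ X.sect D (deg i)
  /-- The two sections are integral. -/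
  sec_int : ∀ i, sec i ∈ X.O
  /-- Their twisted reductions are the exact functions. -/
  sec_red : ∀ i b, X.red b (sec i) * H b = fn i
  /-- The lifts are sections of `deg i A0`. -/
  start_mem : ∀ i, start i ∈ riemannRochSpace (deg i • X.A0)
  /-- The two lifts are integral. -/
  start_int : ∀ i, start i ∈ X.O
  /-- They reduce to the exact functions. -/
  start_red : ∀ i b, X.red b (start i) = fn i

/-- `Hs` is an `n`-th root of `f` modulo `a ^ (N + 1)`, congruent to `H₀` modulo `a`, with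
error `e`. -/
structure IsRootApprox (X : Degen π ι K) (M n : ℕ) (a : L) (f H0 : F) (N : ℕ) (Hs e : F) :
    Prop where
  /-- `Hs` is a section of `M A0`. -/
  mem : Hs ∈ riemannRochSpace (M • X.A0)
  /-- The approximate root `Hs` is integral. -/
  int : Hs ∈ X.O
  /-- The error is integral. -/
  err_int : e ∈ X.O
  /-- It is congruent to `H₀` modulo `a`. -/
  congr_start : ∃ q ∈ X.O, Hs = H0 + a • q
  /-- Its `n`-th power is `f` up to `a ^ (N + 1) e`. -/
  err_eq : f - Hs ^ n = a ^ (N + 1) • e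

variable (X : Degen π ι K)
include X

/-- The common content of a finite family of integral functions. -/
theorem exists_content {α : Type*} [Fintype α] (f : α → F) (hf : ∀ i, f i ∈ X.O) :
    (∀ i, f i = 0) ∨ ∃ (ρ : A) (g : α → F), ρ ≠ 0 ∧ (∀ i, g i ∈ X.O ∧ f i = (ρ : L) • g i) ∧
      ∃ i b, X.red b (g i) ≠ 0 := by
  classical
  by_cases h0 : ∀ i, f i = 0
  · exact .inl h0
  push Not at h0
  obtain ⟨i₀, hi₀⟩ := h0
  have hc : ∀ i, ∃ c : L, f i ≠ 0 → c ≠ 0 ∧ c • f i ∈ X.O ∧ ∃ b,
      X.red b (c • f i) ≠ 0 := fun i => by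
    by_cases h : f i = 0
    · exact ⟨1, fun h' => absurd h h'⟩
    · obtain ⟨c, hc⟩ := X.exists_joint h
      exact ⟨c, fun _ => hc⟩
  choose c hc using hc
  -- divide by the content of largest size
  set ρ : α → L := fun i => if f i = 0 then 0 else (c i)⁻¹ with hρ
  obtain ⟨R, hR, hdiv, i₁, -, hi₁⟩ := exists_div_mem (A := A) Finset.univ ρ
    ⟨i₀, Finset.mem_univ _, by simp [hρ, hi₀, (hc i₀ hi₀).1]⟩
  have hf₁ : f i₁ ≠ 0 := fun h => hR (by rw [← hi₁, hρ]; simp [h])
  have hρ₁ : R = (c i₁)⁻¹ := by rw [← hi₁, hρ]; simp [hf₁]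
  have hmem : ∀ i, R⁻¹ • f i ∈ X.O := by
    intro i
    by_cases h : f i = 0
    · rw [h, smul_zero]; exact zero_mem _
    · have hh := hdiv i (Finset.mem_univ i)
      simp only [hρ, h, if_false] at hh
      have := X.smul_mem_O hh (hc i h).2.1
      rwa [smul_smul, div_mul_eq_mul_div, inv_mul_cancel₀ (hc i h).1, one_div] at this
  obtain ⟨b, hb⟩ := (hc i₁ hf₁).2.2
  have hRA : R ∈ A := by
    have hp : X.Prim b (c i₁ • f i₁) := ⟨X.int_of_mem_O (hc i₁ hf₁).2.1 b, hb⟩
    have : R • (c i₁ • f i₁) = f i₁ := by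
      rw [hρ₁, smul_smul, inv_mul_cancel₀ (hc i₁ hf₁).1, one_smul]
    exact hp.mem_of_smul (by rw [this]; exact X.int_of_mem_O (hf i₁) b)
  refine .inr ⟨⟨R, hRA⟩, fun i => R⁻¹ • f i, fun h => hR (congrArg Subtype.val h),
    fun i => ⟨hmem i, by rw [smul_smul, mul_inv_cancel₀ hR, one_smul]⟩, i₁, b, ?_⟩
  rwa [hρ₁, inv_inv]

omit [IsAlgClosed L] in
/-- `n H₀ ^ (n - 1) w` is a section of `n m A₀`. -/
theorem natCast_mul_pow_mul_mem {j m : ℕ} {H0 w : F} (hH0 : H0 ∈ riemannRochSpace (m • X.A0))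
    (hw : w ∈ riemannRochSpace (m • X.A0)) :
    ((j + 1 : ℕ) : F) * H0 ^ j * w ∈ riemannRochSpace (((j + 1) * m) • X.A0) := by
  refine mem_riemannRochSpace.mpr fun v => ?_
  have h1 : OrdGE v (((j + 1 : ℕ) : F)) 0 := by
    rw [← map_natCast (algebraMap L F)]; exact ordGE_algebraMap v _
  refine ((h1.mul ((mem_riemannRochSpace.mp hH0 v).pow j)).mul
    (mem_riemannRochSpace.mp hw v)).mono ?_
  simp only [Finsupp.smul_apply, nsmul_eq_mul, Nat.cast_mul, Nat.cast_add, Nat.cast_one]
  exact le_of_eq (by ring)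

/-- The reduction of `N H₀ ^ j w`. -/
theorem red_natCast_mul_pow_mul (N j : ℕ) {H0 w : F} {h : K} (hH0O : H0 ∈ X.O)
    (hH0r : ∀ b, X.red b H0 = h) (hwO : w ∈ X.O) (b : Bool) :
    X.red b ((N : F) * H0 ^ j * w) = (N : K) * h ^ j * X.red b w := by
  rw [X.red_mul (X.int_of_mem_O (mul_mem (natCast_mem _ _) (pow_mem hH0O _)) b)
      (X.int_of_mem_O hwO b),
    X.red_mul (X.int_of_mem_O (natCast_mem _ _) b) (X.int_of_mem_O (pow_mem hH0O _) b),
    X.red_natCast, X.red_pow (X.int_of_mem_O hH0O b), hH0r]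

/-- Integral sections of `M A₀` with independent reductions, as many as the dimension of the
glued space, span the sections. -/
theorem poleSpace_eq_span_of_red {α : Type*} [Fintype α] {M : ℕ} (hM : X.N0 ≤ M) {v : α → F}
    (hvL : ∀ i, v i ∈ riemannRochSpace (M • X.A0)) (hvO : ∀ i, v i ∈ X.O)
    (hind : LinearIndependent k fun i (b : Bool) => X.red b (v i))
    (hcard : Module.finrank k (X.glueSp (fun _ => 1) M) ≤ Fintype.card α) :
    riemannRochSpace (M • X.A0) = Submodule.span L (Set.range v) := by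
  refine (Submodule.eq_of_le_of_finrank_le (Submodule.span_le.mpr ?_) ?_).symm
  · rintro _ ⟨i, rfl⟩; exact hvL i
  rw [finrank_span_eq_card (X.linearIndependent_of_red hvO hind)]
  have h3 : X.redImage (riemannRochSpace (M • X.A0)) 1 = X.glueSp (fun _ => 1) M := by
    simpa [sectRed, sect] using X.hasRatio_one one_ne_zero _ hM
  have := X.finiteDimensional_glueSp (fun _ => 1) M
  have : FiniteDimensional k (X.redImage (riemannRochSpace (M • X.A0)) 1) :=
    h3.symm ▸ inferInstance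
  have h4 := X.finrank_le_redImage (W := riemannRochSpace (M • X.A0)) (u := 1)
    fun _ => one_ne_zero
  rw [h3] at h4
  exact h4.trans hcard

/-- The sections of `M A₀` are spanned by integral ones with independent reductions. -/
theorem exists_spanning_lifts {M : ℕ} (hM : X.N0 ≤ M) :
    ∃ (d : ℕ) (v : Fin d → F), (∀ i, v i ∈ X.O) ∧
      (LinearIndependent k fun i (b : Bool) => X.red b (v i)) ∧
      riemannRochSpace (M • X.A0) = Submodule.span L (Set.range v) := by
  have : Module.Free k (X.glueSp (fun _ => 1) M) := Module.Free.of_divisionRing k _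
  have := X.finiteDimensional_glueSp (fun _ => 1) M
  let bM := Module.finBasis k (X.glueSp (fun _ => 1) M)
  choose v hvL hvO hvr using fun i => X.exists_lift hM (bM i).2
  have hind : LinearIndependent k fun i (b : Bool) => X.red b (v i) := by
    rw [show (fun i (b : Bool) => X.red b (v i)) = fun i => (bM i : Bool → K) from
      funext fun i => funext fun b => hvr i b]
    exact bM.linearIndependent.map' (Submodule.subtype _) (Submodule.ker_subtype _)
  exact ⟨_, v, hvO, hind,
    X.poleSpace_eq_span_of_red hM hvL hvO hind (by rw [Fintype.card_fin])⟩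

variable {n : ℕ} {D : Divisor L F} {y : F} {H : Bool → K}

/-- Splitting of the sections of `n m A₀` along `n H₀ ^ (n - 1)` times those of `m A₀`. -/
theorem exists_split (hnk : (n : k) ≠ 0) {h : K} {m : ℕ} {T : Finset (Place k K)}
    (he : X.Exact h m T) (hm : X.N0 ≤ m) {H0 : F} (hH0 : H0 ∈ riemannRochSpace (m • X.A0))
    (hH0O : H0 ∈ X.O) (hH0r : ∀ b, X.red b H0 = h) :
    ∃ (U : Submodule L F) (Cs : Submodule k (Bool → K)),
      (∀ r ∈ U, r ∈ X.O → (fun b => X.red b r) ∈ Cs) ∧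
      (∀ η ∈ X.glueSp (fun _ => 1) m,
        (fun b => (n : K) * h ^ (n - 1) * η b) ∈ Cs → η = 0) ∧
      (∀ e ∈ riemannRochSpace ((n * m) • X.A0), e ∈ X.O →
        ∃ η r, η ∈ riemannRochSpace (m • X.A0) ∧ η ∈ X.O ∧ r ∈ U ∧ r ∈ X.O ∧
          e = (n : F) * H0 ^ (n - 1) * η + r) := by
  classical
  have hn : n ≠ 0 := fun h => hnk (by rw [h, Nat.cast_zero])
  obtain ⟨j, rfl⟩ : ∃ j, n = j + 1 := Nat.exists_eq_succ_of_ne_zero hn
  simp only [Nat.add_sub_cancel]
  set c : K := ((j + 1 : ℕ) : K) * h ^ j with hc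
  have hc0 : c ≠ 0 := mul_ne_zero (Degen.red_ne_zero_natCast hnk) (pow_ne_zero _ he.ne)
  set G1 := X.glueSp (fun _ => 1) m
  set G2 := X.glueSp (fun _ => 1) ((j + 1) * m)
  have hm2 : X.N0 ≤ (j + 1) * m := hm.trans (Nat.le_mul_of_pos_left m (Nat.succ_pos j))
  have : FiniteDimensional k G1 := X.finiteDimensional_glueSp _ m
  have : FiniteDimensional k G2 := X.finiteDimensional_glueSp _ _
  -- `μ` multiplies pairs by the reduction of `n H₀ ^ (n - 1)`
  let μ : (Bool → K) →ₗ[k] (Bool → K) :=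
    { toFun := fun P b => c * P b
      map_add' := fun P P' => funext fun b => mul_add _ _ _
      map_smul' := fun a P => funext fun b => by
        rw [RingHom.id_apply, Pi.smul_apply, Pi.smul_apply, mul_smul_comm] }
  have hμ : Function.Injective μ := fun P P' h => funext fun b =>
    mul_left_cancel₀ hc0 (congrFun h b)
  have hμG : G1.map μ ≤ G2 := by
    rintro _ ⟨P, hP, rfl⟩
    obtain ⟨w, hwL, hwO, hw⟩ := X.exists_lift hm hP
    change μ P ∈ X.glueSp (fun _ => 1) ((j + 1) * m)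
    rw [← X.hasRatio_one one_ne_zero _ hm2]
    refine ⟨((j + 1 : ℕ) : F) * H0 ^ j * w, ?_, mul_mem (mul_mem (natCast_mem _ _)
      (pow_mem hH0O _)) hwO, fun b => ?_⟩
    · rw [sect, zero_add]
      exact X.natCast_mul_pow_mul_mem hH0 hwL
    · rw [Pi.one_apply, mul_one, X.red_natCast_mul_pow_mul _ _ hH0O hH0r hwO b, hw b]
      rfl
  -- a complement of its image in the glued space, lifted by the `u i`
  obtain ⟨C', hC'⟩ := Submodule.exists_isCompl (G1.map μ)
  set Cs := G2 ⊓ C' with hCs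
  have : FiniteDimensional k Cs := Submodule.finiteDimensional_of_le inf_le_left
  have hsup : G1.map μ ⊔ Cs = G2 := by
    rw [hCs, inf_comm, ← sup_inf_assoc_of_le C' hμG, hC'.sup_eq_top, top_inf_eq]
  have hdisj : Disjoint (G1.map μ) Cs := hC'.disjoint.mono_right inf_le_right
  have : Module.Free k G1 := Module.Free.of_divisionRing k _
  have : Module.Free k Cs := Module.Free.of_divisionRing k _
  let bI := Module.finBasis k G1
  let bC := Module.finBasis k Cs
  choose w hwL hwO hw using fun i => X.exists_lift hm (bI i).2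
  choose u huL huO hu using fun i => X.exists_lift hm2 ((inf_le_left : Cs ≤ G2) (bC i).2)
  set v : Fin (Module.finrank k G1) ⊕ Fin (Module.finrank k Cs) → F :=
    Sum.elim (fun i => ((j + 1 : ℕ) : F) * H0 ^ j * w i) u with hv
  have hcH : ((j + 1 : ℕ) : F) * H0 ^ j ∈ X.O := mul_mem (natCast_mem _ _) (pow_mem hH0O _)
  have hvO : ∀ i, v i ∈ X.O := fun i => by
    cases i with
    | inl i => exact mul_mem hcH (hwO i)
    | inr i => exact huO i
  have hvred : (fun i (b : Bool) => X.red b (v i)) =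
      Sum.elim (fun i => μ (bI i : Bool → K)) (fun i => (bC i : Bool → K)) := by
    funext i b
    cases i with
    | inl i =>
      change X.red b (((j + 1 : ℕ) : F) * H0 ^ j * w i) = c * (bI i : Bool → K) b
      rw [X.red_natCast_mul_pow_mul _ _ hH0O hH0r (hwO i) b, hw i b]
    | inr i => exact hu i b
  have hind : LinearIndependent k fun i (b : Bool) => X.red b (v i) := by
    rw [hvred]
    refine LinearIndependent.sum_type ?_ ?_ ?_
    · exact (bI.linearIndependent.map' G1.subtype (Submodule.ker_subtype _)).map' μ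
        (LinearMap.ker_eq_bot.mpr hμ)
    · exact bC.linearIndependent.map' Cs.subtype (Submodule.ker_subtype _)
    · refine hdisj.mono (Submodule.span_le.mpr ?_) (Submodule.span_le.mpr ?_)
      · rintro _ ⟨i, rfl⟩; exact ⟨_, (bI i).2, rfl⟩
      · rintro _ ⟨i, rfl⟩; exact (bC i).2
  have hvW : ∀ i, v i ∈ riemannRochSpace (((j + 1) * m) • X.A0) := fun i => by
    cases i with
    | inl i => exact X.natCast_mul_pow_mul_mem hH0 (hwL i)
    | inr i => exact huL i
  -- lifts of the two bases span the pole space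
  have hspan := X.poleSpace_eq_span_of_red hm2 hvW hvO hind (by
    have := Submodule.finrank_sup_add_finrank_inf_eq (G1.map μ) Cs
    rw [hsup, hdisj.eq_bot, finrank_bot, add_zero,
      (Submodule.equivMapOfInjective μ hμ G1).finrank_eq.symm] at this
    rw [Fintype.card_sum, Fintype.card_fin, Fintype.card_fin]
    exact this.le)
  refine ⟨Submodule.span L (Set.range u), Cs, fun r hr hrO => ?_, fun η hη hηC => ?_,
    fun e heW heO => ?_⟩
  · obtain ⟨d, rfl⟩ := (Submodule.mem_span_range_iff_exists_fun L).mp hr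
    have hindu : LinearIndependent k fun i (b : Bool) => X.red b (u i) := by
      rw [show (fun i (b : Bool) => X.red b (u i)) = fun i => (bC i : Bool → K) from
        funext fun i => funext fun b => hu i b]
      exact bC.linearIndependent.map' Cs.subtype (Submodule.ker_subtype _)
    have hdA : ∀ i, d i ∈ A := fun i => X.mem_A_of_comb huO hindu hrO i
    have : (fun b => X.red b (∑ i, d i • u i)) =
        ∑ i, π ⟨d i, hdA i⟩ • (bC i : Bool → K) := by
      funext b
      rw [Finset.sum_apply, X.red_comb huO (fun i => ⟨d i, hdA i⟩) b]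
      exact Finset.sum_congr rfl fun i _ => by rw [Pi.smul_apply, hu i b]
    rw [this]
    exact Submodule.sum_mem _ fun i _ => Submodule.smul_mem _ _ (bC i).2
  · refine hμ ?_
    rw [map_zero]
    exact Submodule.disjoint_def.mp hdisj _ (Submodule.mem_map_of_mem hη) hηC
  · rw [hspan] at heW
    obtain ⟨d, rfl⟩ := (Submodule.mem_span_range_iff_exists_fun L).mp heW
    have hdA : ∀ i, d i ∈ A := fun i => X.mem_A_of_comb hvO hind heO i
    refine ⟨∑ i, d (.inl i) • w i, ∑ i, d (.inr i) • u i,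
      Submodule.sum_mem _ fun i _ => Submodule.smul_mem _ _ (hwL i),
      sum_mem fun i _ => X.smul_mem_O (hdA _) (hwO i),
      Submodule.sum_mem _ fun i _ => Submodule.smul_mem _ _ (Submodule.subset_span ⟨i, rfl⟩),
      sum_mem fun i _ => X.smul_mem_O (hdA _) (huO i), ?_⟩
    rw [Fintype.sum_sum_type, Finset.mul_sum]
    simp [hv]

/-- Two exact functions without common zeros. -/
theorem exists_exact_pair :
    ∃ (m : Bool → ℕ) (h : Bool → K), (∀ i, X.N0 ≤ m i) ∧ (∀ i, ∃ T, X.Exact (h i) (m i) T) ∧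
      ∀ i, ∀ v : Place k K, 0 < v.ord (h i) → evalAt v (h (!i)) ≠ 0 := by
  classical
  obtain ⟨m₁, h₁, hm₁, he₁⟩ := X.exists_exact ∅ (by simp)
  have hB0 : ∀ (h : K) {m : ℕ} {T : Finset (Place k K)}, X.Exact h m T →
      ∀ v, 0 < v.ord h → X.B v = 0 := fun h m T he v hv => by
    by_contra hB
    rw [he.pole v hB] at hv
    have := Finsupp.le_def.mp X.B_nonneg v
    simp only [Finsupp.coe_zero, Pi.zero_apply] at this
    nlinarith
  obtain ⟨m₂, h₂, hm₂, he₂⟩ := X.exists_exact ((divOf k h₁).support.filter fun v => 0 < v.ord h₁)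
    fun t ht => hB0 h₁ he₁ t (Finset.mem_filter.mp ht).2
  have hzeros₁ : ∀ v : Place k K, 0 < v.ord h₁ → evalAt v h₂ ≠ 0 := fun v hv => by
    rw [he₂.one v (.inr (.inr (Finset.mem_filter.mpr
      ⟨Finsupp.mem_support_iff.mpr (by rw [divOf_apply]; omega), hv⟩)))]
    exact one_ne_zero
  have hzeros₂ : ∀ v : Place k K, 0 < v.ord h₂ → evalAt v h₁ ≠ 0 := fun v hv h0 => by
    have hB := hB0 h₂ he₂ v hv
    have h1 := (evalAt_eq_zero_iff (X.ordGE_S he₁.mem hB)).mp h0
    exact hzeros₁ v (Int.lt_of_lt_of_le zero_lt_one (h1.le_ord he₁.ne))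
      ((evalAt_eq_zero_iff (X.ordGE_S he₂.mem hB)).mpr ((ordGE_iff_of_ne he₂.ne).mpr hv))
  exact ⟨fun i => cond i m₁ m₂, fun i => cond i h₁ h₂,
    fun i => by cases i; exacts [hm₂, hm₁],
    fun i => by cases i; exacts [⟨_, he₂⟩, ⟨_, he₁⟩],
    fun i => by cases i; exacts [hzeros₂, hzeros₁]⟩

/-- A constant ratio provides the input of the root iteration. -/
theorem exists_rootInput (hζ : X.HasRatio D H fun _ => 1) : Nonempty (X.RootInput D H) := by
  obtain ⟨m, h, hm, hex, hcop⟩ := X.exists_exact_pair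
  have hgl : ∀ i, (fun _ : Bool => h i) ∈ X.glueSp (fun _ => 1) (m i) := fun i => by
    obtain ⟨T, hT⟩ := hex i
    exact X.exact_glue hT
  choose g hg hgO hgr using fun i => (hζ (m i) (hm i)).symm.le (hgl i)
  choose H0 hH0 hH0O hH0r using fun i => X.exists_lift (hm i) (hgl i)
  exact ⟨⟨m, h, g, H0, hm, hex, hcop, hg, hgO, fun i b => (hgr i b).symm, hH0, hH0O, hH0r⟩⟩

omit [IsAlgClosed L] in
/-- The `n`-th power of a section of `m A₀` is a section of `n m A₀`. -/
theorem pow_mem_poleSpace (n : ℕ) {m : ℕ} {Hh : F} (h : Hh ∈ riemannRochSpace (m • X.A0)) :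
    Hh ^ n ∈ riemannRochSpace ((n * m) • X.A0) :=
  mem_riemannRochSpace.mpr fun v => ((mem_riemannRochSpace.mp h v).pow n).mono (by
    simp only [Finsupp.smul_apply, nsmul_eq_mul, Nat.cast_mul]; exact le_of_eq (by ring))

/-- A witness times an `n`-th power which is an `n`-th power is principal. -/
theorem eq_divOf_of_pow_eq (hn : n ≠ 0) (hW : X.Wit n D y H) {g Hh : F} (hg0 : g ≠ 0)
    (h : g ^ n * y = Hh ^ n) : ∃ u : F, u ≠ 0 ∧ D = divOf L u := by
  have hf0 : g ^ n * y ≠ 0 := mul_ne_zero (pow_ne_zero n hg0) hW.y_ne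
  have hH0' : Hh ≠ 0 := fun h0 => hf0 (by rw [h, h0, zero_pow hn])
  refine ⟨Hh / g, div_ne_zero hH0' hg0, Finsupp.ext fun v => ?_⟩
  have h1 := congrArg v.ord h
  rw [v.ord_mul (pow_ne_zero n hg0) hW.y_ne, FF.ord_pow, FF.ord_pow,
    show v.ord y = (n : ℤ) * D v by rw [← divOf_apply (K := L), hW.div_eq]; simp] at h1
  rw [divOf_apply, FF.ord_div v hH0' hg0]
  refine mul_left_cancel₀ (Int.natCast_ne_zero.mpr hn) ?_
  linear_combination h1

/-- Either the lifts are exact roots, or their common error has positive content. -/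
theorem exists_error_content (hW : X.Wit n D y H) (R : X.RootInput D H) :
    (∀ i, R.sec i ^ n * y = R.start i ^ n) ∨ ∃ (a : A) (d : Bool → F), π a = 0 ∧ a ≠ 0 ∧
      ∀ i, d i ∈ X.O ∧ R.sec i ^ n * y - R.start i ^ n = (a : L) • d i := by
  have hfO : ∀ i, R.sec i ^ n * y ∈ X.O := fun i => mul_mem (pow_mem (R.sec_int i) n) hW.mem
  have hdiffr : ∀ i b, X.red b (R.sec i ^ n * y - R.start i ^ n) = 0 := fun i b => by
    rw [X.red_sub (X.int_of_mem_O (hfO i) b) (X.int_of_mem_O (pow_mem (R.start_int i) n) b),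
      X.red_pow_mul hW (R.sec_int i), X.red_pow (X.int_of_mem_O (R.start_int i) b), R.start_red,
      R.sec_red, sub_self]
  rcases X.exists_content (fun i => R.sec i ^ n * y - R.start i ^ n)
    (fun i => sub_mem (hfO i) (pow_mem (R.start_int i) n)) with hz | ⟨a, d, ha0, hd, i₀, b₀, hb₀⟩
  · exact .inl fun i => sub_eq_zero.mp (hz i)
  refine .inr ⟨a, d, ?_, ha0, hd⟩
  by_contra hne
  refine hb₀ ?_
  have := hdiffr i₀ b₀
  rw [(hd i₀).2, X.red_smul a (X.int_of_mem_O (hd i₀).1 b₀),
    Algebra.smul_def, mul_eq_zero, _root_.map_eq_zero] at this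
  exact this.resolve_left hne

/-- One Newton step: if `e = n H₀ ^ (n - 1) η + r`, correcting `Hs` by `a ^ (N + 1) η` leaves
`r` as error, modulo a further `a`. -/
theorem exists_newton_remainder (hn : n ≠ 0) (a : A) (N : ℕ) {f H0 Hs q η e r : F}
    (hH0O : H0 ∈ X.O) (hHsO : Hs ∈ X.O) (hq : q ∈ X.O) (hηO : η ∈ X.O)
    (hqe : Hs = H0 + (a : L) • q) (h1 : f - Hs ^ n = (a : L) ^ (N + 1) • e)
    (h2 : e = (n : F) * H0 ^ (n - 1) * η + r) :
    ∃ s ∈ X.O,
      f - (Hs + (a : L) ^ (N + 1) • η) ^ n = (a : L) ^ (N + 1) • (r + (a : L) • s) := by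
  obtain ⟨j, rfl⟩ : ∃ j, n = j + 1 := Nat.exists_eq_succ_of_ne_zero hn
  have haO : algebraMap L F (a : L) ∈ X.O := X.mem_O.mpr fun b => X.int_algebraMap a.2
  obtain ⟨Q, hQ⟩ := exists_add_pow_remainder (R := X.O) ⟨Hs, hHsO⟩
    ⟨(a : L) ^ (N + 1) • η, X.smul_mem_O (pow_mem a.2 _) hηO⟩ j
  have hQ' := congrArg Subtype.val hQ
  simp only [Subring.coe_pow, Subring.coe_add, Subring.coe_mul, Subring.coe_natCast] at hQ'
  obtain ⟨w, hw⟩ : (⟨algebraMap L F a, haO⟩ : X.O) ∣
      (⟨H0, hH0O⟩ : X.O) ^ j - (⟨Hs, hHsO⟩ : X.O) ^ j := by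
    refine Dvd.dvd.trans ⟨-⟨q, hq⟩, Subtype.ext ?_⟩ (sub_dvd_pow_sub_pow _ _ j)
    rw [Algebra.smul_def] at hqe
    simp only [AddSubgroupClass.coe_sub, MulMemClass.coe_mul, NegMemClass.coe_neg]
    linear_combination -hqe
  have hw' := congrArg Subtype.val hw
  simp only [SubmonoidClass.coe_pow, AddSubgroupClass.coe_sub, MulMemClass.coe_mul] at hw'
  refine ⟨((j + 1 : ℕ) : F) * (w : F) * η - (a : L) ^ N • (η ^ 2 * (Q : F)),
    sub_mem (mul_mem (mul_mem (natCast_mem _ _) w.2) hηO)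
      (X.smul_mem_O (pow_mem a.2 _) (mul_mem (pow_mem hηO 2) Q.2)), ?_⟩
  simp only [Nat.add_sub_cancel] at h2
  simp only [Algebra.smul_def, map_pow] at h1 hQ' ⊢
  linear_combination h1 - hQ' + (algebraMap L F (a : L)) ^ (N + 1) * h2 +
    (algebraMap L F (a : L)) ^ (N + 1) * ((j + 1 : ℕ) : F) * η * hw'

/-- The residual theorem forces the part of the error in the complements to be divisible by
`a`. -/
theorem exists_smul_of_residual (hnk : (n : k) ≠ 0) (hW : X.Wit n D y H) (R : X.RootInput D H)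
    {a : A} (haL : (a : L) ≠ 0) {ε : L} (hε : ε ≠ 0) {Hn r s : Bool → F}
    (hHnL : ∀ i, Hn i ∈ riemannRochSpace (R.deg i • X.A0)) (hHnO : ∀ i, Hn i ∈ X.O)
    (hHnr : ∀ i b, X.red b (Hn i) = R.fn i) (hrO : ∀ i, r i ∈ X.O) (hsO : ∀ i, s i ∈ X.O)
    (hsE : ∀ i, R.sec i ^ n * y - Hn i ^ n = ε • (r i + (a : L) • s i))
    {U : Bool → Submodule L F} {Cs : Bool → Submodule k (Bool → K)} (hrU : ∀ i, r i ∈ U i)
    (hUC : ∀ i, ∀ x ∈ U i, x ∈ X.O → (fun b => X.red b x) ∈ Cs i)
    (hdisj : ∀ i, ∀ ζ ∈ X.glueSp (fun _ => 1) (R.deg i),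
      (fun b => (n : K) * R.fn i ^ (n - 1) * ζ b) ∈ Cs i → ζ = 0) :
    ∀ i, ∃ r' ∈ X.O, r i = (a : L) • r' := by
  -- take out the content `ρ`; it suffices that `a` divides it
  rcases X.exists_content r hrO with hz | ⟨ρ, r₁, hρ, hr₁, i₁, b₁, hb₁⟩
  · exact fun i => ⟨0, zero_mem _, by rw [hz i, smul_zero]⟩
  by_cases hρa : (ρ : L) / a ∈ A
  · exact fun i => ⟨((ρ : L) / a) • r₁ i, X.smul_mem_O hρa (hr₁ i).1, by
      rw [smul_smul, mul_div_cancel₀ _ haL, (hr₁ i).2]⟩
  exfalso
  have hρL : (ρ : L) ≠ 0 := fun h => hρ (Subtype.ext h)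
  have haρ : (a : L) / ρ ∈ A := by
    have := (A.mem_or_inv_mem ((ρ : L) / a)).resolve_left hρa
    rwa [inv_div] at this
  have hπq : π ⟨(a : L) / ρ, haρ⟩ = 0 :=
    X.eq_zero_of_inv_notMem (by change ((a : L) / ρ)⁻¹ ∉ A; rwa [inv_div])
  -- otherwise `e'` is the error at precision `ε ρ`
  set e' : Bool → F := fun i => r₁ i + ((a : L) / ρ) • s i with he'
  have he'O : ∀ i, e' i ∈ X.O := fun i => add_mem (hr₁ i).1 (X.smul_mem_O haρ (hsO i))
  have heq : ∀ i, R.sec i ^ n * y - Hn i ^ n = (ε * ρ) • e' i := fun i => by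
    rw [hsE, he']
    simp only []
    rw [smul_add, smul_add, (hr₁ i).2, smul_smul, smul_smul, smul_smul, mul_assoc _ (ρ : L),
      mul_div_cancel₀ _ hρL]
  -- the residual theorem gives the shape of its reduction
  obtain ⟨ζ, hζ, hζe⟩ : ∃ ζ ∈ X.glueSp (fun _ => 1) (R.deg i₁),
      ∀ b, X.red b (e' i₁) = (n : K) * R.fn i₁ ^ (n - 1) * ζ b := by
    obtain ⟨T, hT⟩ := R.isExact i₁
    obtain ⟨T', hT'⟩ := R.isExact (!i₁)
    exact X.residual hnk hW hT hT' (R.coprime i₁) (R.sec_mem _) (R.sec_int _) (R.sec_mem _)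
      (R.sec_int _) (R.sec_red _) (R.sec_red _) (hHnL _) (hHnO _) (hHnL _) (hHnO _) (hHnr _)
      (hHnr _) (he'O _) (he'O _) (mul_ne_zero hε hρL) (heq _) (heq _)
  have hred : ∀ b, X.red b (e' i₁) = X.red b (r₁ i₁) := fun b => by
    rw [he', X.red_add (X.int_of_mem_O (hr₁ i₁).1 b)
      (X.int_smul haρ (X.int_of_mem_O (hsO i₁) b)),
      show ((a : L) / ρ) • s i₁ = ((⟨(a : L) / ρ, haρ⟩ : A) : L) • s i₁ from rfl,
      X.red_smul _ (X.int_of_mem_O (hsO i₁) b), hπq, zero_smul, add_zero]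
  -- in the complement this shape is zero, against `ρ` being the content
  have hr₁U : r₁ i₁ ∈ U i₁ := by
    have := Submodule.smul_mem _ (ρ : L)⁻¹ (hrU i₁)
    rwa [(hr₁ i₁).2, smul_smul, inv_mul_cancel₀ hρL, one_smul] at this
  have hCs := hUC i₁ _ hr₁U (hr₁ i₁).1
  rw [show (fun b => X.red b (r₁ i₁)) = fun b => (n : K) * R.fn i₁ ^ (n - 1) * ζ b from
    funext fun b => (hred b).symm.trans (hζe b)] at hCs
  refine hb₁ ?_
  rw [← hred, hζe, hdisj i₁ ζ hζ hCs]
  simp

/-- Approximate roots improve by one power of `a`. -/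
theorem exists_approx_succ (hnk : (n : k) ≠ 0) (hW : X.Wit n D y H) (R : X.RootInput D H)
    {a : A} (ha : π a = 0) (haL : (a : L) ≠ 0) {N : ℕ} {Hs e : Bool → F}
    (hs : ∀ i, X.IsRootApprox (R.deg i) n (a : L) (R.sec i ^ n * y) (R.start i) N (Hs i) (e i)) :
    ∃ Hs' e' : Bool → F, ∀ i,
      X.IsRootApprox (R.deg i) n (a : L) (R.sec i ^ n * y) (R.start i) (N + 1) (Hs' i) (e' i) := by
  have hn : n ≠ 0 := fun h => hnk (by rw [h, Nat.cast_zero])
  have hε : (a : L) ^ (N + 1) ≠ 0 := pow_ne_zero _ haL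
  have heL : ∀ i, e i ∈ riemannRochSpace ((n * R.deg i) • X.A0) := fun i => by
    have := Submodule.smul_mem _ ((a : L) ^ (N + 1))⁻¹
      (sub_mem (X.pow_mul_mem hW (R.sec_mem i)) (X.pow_mem_poleSpace n (hs i).mem))
    rwa [(hs i).err_eq, smul_smul, inv_mul_cancel₀ hε, one_smul] at this
  choose T hT using R.isExact
  choose U Cs hUC hdisj hsplit using fun i =>
    X.exists_split hnk (hT i) (R.N0_le i) (R.start_mem i) (R.start_int i) (R.start_red i)
  choose η r hη hηO hrU hrO her using fun i => hsplit i (e i) (heL i) (hs i).err_int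
  choose q hq hqe using fun i => (hs i).congr_start
  choose s hsO hsE using fun i => X.exists_newton_remainder hn a N (R.start_int i) (hs i).int
    (hq i) (hηO i) (hqe i) (hs i).err_eq (her i)
  -- the corrected roots; the residual theorem makes the new error divisible by `a`
  set Hn : Bool → F := fun i => Hs i + (a : L) ^ (N + 1) • η i with hHn
  have hHnq : ∀ i, ∃ q ∈ X.O, Hn i = R.start i + (a : L) • q := fun i => by
    refine ⟨q i + (a : L) ^ N • η i, add_mem (hq i) (X.smul_mem_O (pow_mem a.2 _) (hηO i)), ?_⟩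
    simp only [hHn, hqe i, smul_add, smul_smul, ← pow_succ', add_assoc]
  have hHnO : ∀ i, Hn i ∈ X.O := fun i =>
    add_mem (hs i).int (X.smul_mem_O (pow_mem a.2 _) (hηO i))
  have hHnL : ∀ i, Hn i ∈ riemannRochSpace (R.deg i • X.A0) := fun i =>
    add_mem (hs i).mem (Submodule.smul_mem _ _ (hη i))
  have hHnr : ∀ i b, X.red b (Hn i) = R.fn i := fun i b => by
    obtain ⟨q', hq', hqe'⟩ := hHnq i
    rw [hqe', X.red_add (X.int_of_mem_O (R.start_int i) b) (X.int_smul a.2 (X.int_of_mem_O hq' b)),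
      X.red_smul a (X.int_of_mem_O hq' b), ha, zero_smul, add_zero, R.start_red]
  choose r' hr'O hr' using
    X.exists_smul_of_residual hnk hW R haL hε hHnL hHnO hHnr hrO hsO hsE hrU hUC hdisj
  exact ⟨Hn, fun i => r' i + s i, fun i => ⟨hHnL i, hHnO i, add_mem (hr'O i) (hsO i), hHnq i,
    by rw [hsE, hr', ← smul_add, smul_smul, ← pow_succ]⟩⟩

/-- A section of `n M A₀` with roots modulo every power of `a` has a root. -/
theorem exists_eq_pow_of_rootApprox (hn : n ≠ 0) {M : ℕ} (hM : X.N0 ≤ M) {a : A} (ha : π a = 0)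
    (ha0 : a ≠ 0) {f H0 : F} (hf : f ∈ riemannRochSpace ((n * M) • X.A0))
    (happrox : ∀ N, ∃ Hs e, X.IsRootApprox M n (a : L) f H0 N Hs e) :
    ∃ Hh : F, f = Hh ^ n := by
  obtain ⟨dw, w, hwO, hindw, hspw⟩ := X.exists_spanning_lifts hM
  obtain ⟨du, u, huO, hindu, hspu⟩ :=
    X.exists_spanning_lifts (hM.trans (Nat.le_mul_of_pos_left _ (Nat.pos_of_ne_zero hn)))
  obtain ⟨c, hc⟩ := X.exists_eq_pow_of_approx w u huO hindu n f (hspu ▸ hf)
    (fun c => hspu ▸ X.pow_mem_poleSpace n (hspw.symm ▸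
      Submodule.sum_mem _ fun i _ => Submodule.smul_mem _ _ (Submodule.subset_span ⟨i, rfl⟩)))
    a ha ha0 (fun N => by
      obtain ⟨Hs, e, hHL, hHO, heO, -, heq⟩ := happrox N
      rw [hspw] at hHL
      obtain ⟨d, rfl⟩ := (Submodule.mem_span_range_iff_exists_fun L).mp hHL
      exact ⟨fun i => ⟨d i, X.mem_A_of_comb hwO hindw hHO i⟩, (a : L) • e,
        X.smul_mem_O a.2 heO, by rw [smul_smul, ← pow_succ]; exact heq⟩)
  exact ⟨_, hc⟩

/-- **The kernel theorem.** A witness with constant ratio is principal. -/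
theorem eq_divOf_of_hasRatio_one (hnk : (n : k) ≠ 0) (hW : X.Wit n D y H)
    (hζ : X.HasRatio D H fun _ => 1) : ∃ g : F, g ≠ 0 ∧ D = divOf L g := by
  have hn : n ≠ 0 := fun h => hnk (by rw [h, Nat.cast_zero])
  obtain ⟨R⟩ := X.exists_rootInput hζ
  have hg0 : R.sec true ≠ 0 := fun h0 => by
    obtain ⟨T, hT⟩ := R.isExact true
    exact hT.ne (by rw [← R.sec_red true true, h0, X.red_zero, zero_mul])
  rcases X.exists_error_content hW R with hz | ⟨a, d, ha, ha0, hd⟩
  · exact X.eq_divOf_of_pow_eq hn hW hg0 (hz true)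
  have approx : ∀ N : ℕ, ∃ Hs e : Bool → F, ∀ i,
      X.IsRootApprox (R.deg i) n (a : L) (R.sec i ^ n * y) (R.start i) N (Hs i) (e i) := by
    intro N
    induction N with
    | zero => exact ⟨R.start, d, fun i => ⟨R.start_mem i, R.start_int i, (hd i).1,
        ⟨0, zero_mem _, by simp⟩, by rw [pow_one]; exact (hd i).2⟩⟩
    | succ N ih =>
      obtain ⟨Hs, e, hs⟩ := ih
      exact X.exists_approx_succ hnk hW R ha (fun h => ha0 (Subtype.ext h)) hs
  obtain ⟨Hh, hHh⟩ := X.exists_eq_pow_of_rootApprox hn (R.N0_le true) ha ha0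
    (X.pow_mul_mem hW (R.sec_mem true)) fun N => by
      obtain ⟨Hs, e, hs⟩ := approx N
      exact ⟨_, _, hs true⟩
  exact X.eq_divOf_of_pow_eq hn hW hg0 hHh

end Degen

end Fermat.BAD

end
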