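import Fermat.Agent.FF.API

/-!
# Interpolation in Riemann–Roch spaces of large degree

`exists_interpolation`: in degree at least `2 g` plus the number of points, sections take any
values at given points. It gives the dimension of the glued systems (`Ratio`) and separates the
glued points (`Sym`). `exists_exact_one`: sections with exact poles and value one at given points,
which serve as units in the residual step (`Residual`).
-/

set_option autoImplicit false

noncomputable section

open AlgebraicCurve

namespace Fermat.BAD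

open Fermat.FF

variable {k K : Type*} [Field k] [Field K] [Algebra k K] [IsAlgClosed k] [IsFunctionField k K]
variable (B : Divisor k K)

omit [IsAlgClosed k] [IsFunctionField k K] in
/-- The value at `v` of the sum of the points of `T`. -/
theorem sum_single_apply (T : Finset (Place k K)) (v : Place k K) [Decidable (v ∈ T)] :
    (∑ t ∈ T, Finsupp.single t (1 : ℤ)) v = if v ∈ T then 1 else 0 := by
  classical
  rw [Finsupp.finsetSum_apply]
  simp [Finsupp.single_apply]

variable {B}

/-- Sections of `D` with a prescribed value at finitely many places outside `D`. -/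
theorem exists_interpolation (D : Divisor k K) (T : Finset (Place k K))
    (hT : ∀ t ∈ T, D t = 0) (hd : 2 * (genusFF k K : ℤ) + T.card ≤ Divisor.degree D)
    (c : Place k K → k) :
    ∃ f ∈ riemannRochSpace D, ∀ t ∈ T, OrdGE t f 0 ∧ evalAt t f = c t := by
  classical
  have hreg : ∀ f ∈ riemannRochSpace D, ∀ t ∈ T, OrdGE t f 0 := fun f hf t ht => by
    have := mem_riemannRochSpace.mp hf t
    rwa [hT t ht, neg_zero] at this
  -- a section for each point, vanishing at the others and not at it
  have hone : ∀ t ∈ T, ∃ f ∈ riemannRochSpace D, evalAt t f ≠ 0 ∧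
      ∀ t' ∈ T, t' ≠ t → evalAt t' f = 0 := by
    intro t ht
    set E := D - ∑ s ∈ T.erase t, Finsupp.single s (1 : ℤ) with hE
    have hdeg : Divisor.degree E = Divisor.degree D - (T.card - 1 : ℕ) := by
      rw [hE, map_sub, degree_single_sum, Finset.card_erase_of_mem ht]
    obtain ⟨f, hf, hf0, hord⟩ := exists_exact_ord (D := E) {t} (by rw [hdeg]; omega)
    have hEle : E ≤ D := sub_le_self _ (Finset.sum_nonneg fun s _ =>
      Finsupp.le_def.mpr fun v => by
        rw [Finsupp.coe_zero, Pi.zero_apply, Finsupp.single_apply]; split <;> norm_num)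
    refine ⟨f, riemannRochSpace_mono hEle hf, ?_, fun t' ht' hne => ?_⟩
    · refine evalAt_ne_zero hf0 ?_
      rw [hord t (Finset.mem_singleton_self t), hE, Finsupp.sub_apply, hT t ht, sum_single_apply,
        if_neg (Finset.notMem_erase t T)]
      simp
    · have h1 := mem_riemannRochSpace.mp hf t'
      rw [hE, Finsupp.sub_apply, hT t' ht', sum_single_apply,
        if_pos (Finset.mem_erase.mpr ⟨hne, ht'⟩)] at h1
      exact (evalAt_eq_zero_iff (hreg f (riemannRochSpace_mono hEle hf) t' ht')).mpr
        (by simpa using h1)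
  choose! F hF hF1 hF0 using hone
  refine ⟨∑ t ∈ T, (c t / evalAt t (F t)) • F t,
    Submodule.sum_mem _ fun t ht => Submodule.smul_mem _ _ (hF t ht), fun t ht => ?_⟩
  -- only the term of the point itself survives there
  have key : ∀ s ∈ T, OrdGE t ((c s / evalAt s (F s)) • F s) 0 ∧
      evalAt t ((c s / evalAt s (F s)) • F s) = if s = t then c t else 0 := fun s hs => by
    have hg := hreg _ (hF s hs) t ht
    refine ⟨hg.smul _, ?_⟩
    rw [Algebra.smul_def, evalAt_mul (ordGE_algebraMap t _) hg, evalAt_algebraMap]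
    split
    · next h => subst h; exact div_mul_cancel₀ _ (hF1 s hs)
    · next h => rw [hF0 s hs t ht fun h' => h h'.symm, mul_zero]
  have hsum : ∀ U : Finset (Place k K), U ⊆ T →
      OrdGE t (∑ s ∈ U, (c s / evalAt s (F s)) • F s) 0 ∧
        evalAt t (∑ s ∈ U, (c s / evalAt s (F s)) • F s) = ∑ s ∈ U, if s = t then c t else 0 := by
    intro U
    induction U using Finset.induction_on with
    | empty => exact fun _ => ⟨by simpa using ordGE_zero t 0, by
        simpa using evalAt_algebraMap t (0 : k)⟩
    | insert a U ha ih =>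
      intro h
      obtain ⟨h1, h2⟩ := ih ((Finset.subset_insert a U).trans h)
      obtain ⟨g1, g2⟩ := key a (h (Finset.mem_insert_self a U))
      rw [Finset.sum_insert ha, Finset.sum_insert ha]
      exact ⟨g1.add h1, by rw [evalAt_add g1 h1, g2, h2]⟩
  obtain ⟨h1, h2⟩ := hsum T subset_rfl
  exact ⟨h1, by rw [h2, Finset.sum_ite_eq' T t]; simp [ht]⟩

/-- A section of a multiple of an effective `B` with exact poles and value one on `T`. -/
theorem exists_exact_one (hB : 0 ≤ B) (hB0 : B ≠ 0) (T : Finset (Place k K))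
    (hT : ∀ t ∈ T, B t = 0) (b : ℕ)
    (hd : Divisor.degree B + 2 * (genusFF k K : ℤ) + T.card ≤ (b : ℤ) * Divisor.degree B) :
    ∃ f ∈ riemannRochSpace (b • B), f ≠ 0 ∧ (∀ v, B v ≠ 0 → v.ord f = -((b : ℤ) * B v)) ∧
      ∀ t ∈ T, OrdGE t f 0 ∧ evalAt t f = 1 := by
  classical
  have hB' : ∀ v, 0 ≤ B v := fun v => Finsupp.le_def.mp hB v
  have hdeg0 : 0 ≤ Divisor.degree B := degree_nonneg hB
  have hbapp : ∀ v, (b • B) v = (b : ℤ) * B v := fun v => by simp
  have hbdeg : Divisor.degree (b • B) = (b : ℤ) * Divisor.degree B := by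
    rw [map_nsmul, nsmul_eq_mul]
  set E := b • B - ∑ t ∈ T, Finsupp.single t (1 : ℤ) with hE
  -- `f1` has the exact poles and vanishes on `T`; `f0` has smaller poles and is one on `T`
  obtain ⟨f1, hf1, hf10, hord⟩ := exists_exact_ord (D := E) B.support (by
    rw [hE, map_sub, hbdeg, degree_single_sum]; omega)
  obtain ⟨f0, hf0, hval⟩ := exists_interpolation (b • B - B) T
    (fun t ht => by rw [Finsupp.sub_apply, hbapp, hT t ht]; simp)
    (by rw [map_sub, hbdeg]; omega) (fun _ => 1)
  have hle1 : E ≤ b • B := sub_le_self _ (Finset.sum_nonneg fun s _ =>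
    Finsupp.le_def.mpr fun v => by
      rw [Finsupp.coe_zero, Pi.zero_apply, Finsupp.single_apply]; split <;> norm_num)
  have hle0 : b • B - B ≤ b • B := sub_le_self _ hB
  have hmem : f1 + f0 ∈ riemannRochSpace (b • B) :=
    add_mem (riemannRochSpace_mono hle1 hf1) (riemannRochSpace_mono hle0 hf0)
  have hv : ∀ v, B v ≠ 0 → v.ord (f1 + f0) = -((b : ℤ) * B v) ∧ f1 + f0 ≠ 0 := by
    intro v hvB
    have h1 : v.ord f1 = -((b : ℤ) * B v) := by
      rw [hord v (Finsupp.mem_support_iff.mpr hvB), hE, Finsupp.sub_apply, hbapp, sum_single_apply,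
        if_neg fun ht => hvB (hT v ht)]
      simp
    have h0 : OrdGE v f0 (v.ord f1 + 1) := (mem_riemannRochSpace.mp hf0 v).mono (by
      rw [h1, Finsupp.sub_apply, hbapp]
      have := hB' v
      omega)
    have := ord_eq_of_ordGE_lt v hf10 h0
    exact ⟨this.1.trans h1, this.2⟩
  have hT' : ∀ t ∈ T, OrdGE t (f1 + f0) 0 ∧ evalAt t (f1 + f0) = 1 := by
    intro t ht
    have h1 : OrdGE t f1 1 := (mem_riemannRochSpace.mp hf1 t).mono (by
      rw [hE, Finsupp.sub_apply, hbapp, hT t ht, sum_single_apply, if_pos ht]; simp)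
    obtain ⟨g0, g1⟩ := hval t ht
    refine ⟨(h1.mono zero_le_one).add g0, ?_⟩
    rw [evalAt_add (h1.mono zero_le_one) g0, g1,
      (evalAt_eq_zero_iff (h1.mono zero_le_one)).mpr h1, zero_add]
  refine ⟨f1 + f0, hmem, fun h0 => ?_, fun v hvB => (hv v hvB).1, hT'⟩
  obtain ⟨v, hvs⟩ := Finsupp.support_nonempty_iff.mpr hB0
  exact (hv v (Finsupp.mem_support_iff.mp hvs)).2 h0

omit [IsAlgClosed k] [IsFunctionField k K] in
/-- If `f ^ n` has order at least `n m` then `f` has order at least `m`. -/
theorem ordGE_of_pow {n : ℕ} (hn : n ≠ 0) {v : Place k K} {f : K} {m : ℤ}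
    (h : OrdGE v (f ^ n) ((n : ℤ) * m)) : OrdGE v f m := by
  rcases eq_or_ne f 0 with rfl | hf
  · exact ordGE_zero v m
  · rw [ordGE_iff_of_ne hf]
    have h1 := (ordGE_iff_of_ne (pow_ne_zero n hf)).mp h
    rw [ord_pow] at h1
    exact le_of_mul_le_mul_left h1 (by exact_mod_cast Nat.pos_of_ne_zero hn)

end Fermat.BAD

end
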