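import Fermat.Agent.BAD.Engine.Basic

/-!
# Glued linear systems and the ratio of a divisor with `n`-th power reductions

A witness `Wit n D y H` represents an `n`-torsion class trivial on both components. Main theorem
`exists_ratio_at`: multiplied by `H`, the reductions of `L(D + m A0)` are exactly the pairs with
`P true s = ζ s * P false (Qf s)` at each glued point `s`, for some `n`-th roots of unity `ζ s`
(one inclusion by evaluation, equality by a dimension count). `Mul` turns this into a ratio of `D`.
-/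

set_option autoImplicit false
set_option linter.unusedSectionVars false

attribute [local instance 10000] SubalgebraClass.toAlgebra

noncomputable section

open AlgebraicCurve

namespace Fermat.BAD

open Fermat.FF Fermat.RED.Model

-- searches through these take seconds to fail on subfields of Laurent series
attribute [-instance] IsScalarTower.of_algHom RCLike.charZero_rclike NormedAlgebra.toAlgebra
  NormedSpace.toModule

variable {L : Type*} [Field L] {A : ValuationSubring L}
variable {k : Type*} [Field k] [IsAlgClosed L] [IsAlgClosed k]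
variable {F : Type*} [Field F] [Algebra L F]
variable {π : A →+* k} {ι : Bool → F →+* LaurentSeries L}
  {K : IntermediateField k (LaurentSeries k)}
variable [FF.IsFunctionField L F] [FF.IsFunctionField k K]

namespace Degen

variable (X : Degen π ι K)
include X

/-- The inverse of a primitive function is primitive, with inverse reduction. -/
theorem prim_inv {b : Bool} {f : F} (hf : X.Prim b f) :
    X.Prim b f⁻¹ ∧ X.red b f⁻¹ = (X.red b f)⁻¹ := by
  obtain ⟨c, hc, hp⟩ := X.exists_smul_prim b (inv_ne_zero hf.ne_zero)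
  have h1 := hf.mul hp
  rw [mul_smul_comm, mul_inv_cancel₀ hf.ne_zero] at h1
  have hcA : c ∈ A := (X.prim_one b).mem_of_smul h1.1
  have hu : π ⟨c, hcA⟩ ≠ 0 := fun h0 => h1.2 (by
    rw [show c • (1 : F) = ((⟨c, hcA⟩ : A) : L) • (1 : F) from rfl,
      X.red_smul _ (X.prim_one b).1, h0, Algebra.smul_def, map_zero, zero_mul])
  have hint : f⁻¹ ∈ gInt π (ι b) := by
    have := X.int_smul (inv_mem_of_map_ne_zero X.surj hu) hp.1
    rwa [smul_smul, inv_mul_cancel₀ hc, one_smul] at this
  have hmul : X.red b f⁻¹ * X.red b f = 1 := by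
    rw [← X.red_mul hint hf.1, inv_mul_cancel₀ hf.ne_zero, X.red_one]
  exact ⟨⟨hint, left_ne_zero_of_mul_eq_one hmul⟩, eq_inv_of_mul_eq_one_left hmul⟩

/-- The bound from which all the dimension counts hold. -/
def N0 (_Y : Degen π ι K) : ℕ := 2 * genusFF k K + 2 * genusFF L F + 2 * _Y.S.card + 2

/-- The degree of `m B`. -/
theorem degree_nsmul_B (m : ℕ) :
    Divisor.degree (m • X.B) = (m : ℤ) * Divisor.degree X.B := by
  rw [map_nsmul, nsmul_eq_mul]

/-- `m B` has degree at least `m`. -/
theorem le_degree_nsmul_B (m : ℕ) : (m : ℤ) ≤ Divisor.degree (m • X.B) := by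
  rw [X.degree_nsmul_B]
  have := X.deg_B_pos
  nlinarith

/-- `m B` vanishes outside the support of `B`. -/
theorem nsmul_B_eq_zero (m : ℕ) {v : Place k K} (h : X.B v = 0) : (m • X.B) v = 0 := by simp [h]

/-- A section of `m B` is regular outside the support of `B`. -/
theorem ordGE_S {m : ℕ} {z : K} (hz : z ∈ riemannRochSpace (m • X.B)) {v : Place k K}
    (h : X.B v = 0) : OrdGE v z 0 := by
  have := mem_riemannRochSpace.mp hz v
  rwa [X.nsmul_B_eq_zero m h, neg_zero] at this

/-- The pairs of sections of `m B` whose value on the first component at each glued point `s` is `ζ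
s` times the value on the second. -/
def glueSp (ζ : Place k K → k) (m : ℕ) : Submodule k (Bool → K) where
  carrier := {P | (∀ b, P b ∈ riemannRochSpace (m • X.B)) ∧
    ∀ s ∈ X.S, evalAt s (P true) = ζ s * evalAt (X.Qf s) (P false)}
  zero_mem' := ⟨fun b => zero_mem _, fun s _ => by
    have h1 : evalAt s (0 : K) = 0 := by simpa using evalAt_algebraMap s (0 : k)
    have h2 : evalAt (X.Qf s) (0 : K) = 0 := by simpa using evalAt_algebraMap (X.Qf s) (0 : k)
    simp [h1, h2]⟩
  add_mem' := by
    rintro P P' ⟨hP, hPe⟩ ⟨hP', hP'e⟩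
    refine ⟨fun b => add_mem (hP b) (hP' b), fun s hs => ?_⟩
    rw [Pi.add_apply, Pi.add_apply, evalAt_add (X.ordGE_S (hP true) (X.S_B s hs))
      (X.ordGE_S (hP' true) (X.S_B s hs)), evalAt_add (X.ordGE_S (hP false) (X.Qf_B s hs))
      (X.ordGE_S (hP' false) (X.Qf_B s hs)), hPe s hs, hP'e s hs, mul_add]
  smul_mem' := by
    rintro c P ⟨hP, hPe⟩
    refine ⟨fun b => Submodule.smul_mem _ c (hP b), fun s hs => ?_⟩
    rw [Pi.smul_apply, Pi.smul_apply, Algebra.smul_def, Algebra.smul_def,
      evalAt_mul (ordGE_algebraMap _ _) (X.ordGE_S (hP true) (X.S_B s hs)),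
      evalAt_mul (ordGE_algebraMap _ _) (X.ordGE_S (hP false) (X.Qf_B s hs)),
      evalAt_algebraMap, evalAt_algebraMap, hPe s hs]
    ring

/-- Membership in `glueSp`. -/
theorem mem_glueSp {ζ : Place k K → k} {m : ℕ} {P : Bool → K} :
    P ∈ X.glueSp ζ m ↔ (∀ b, P b ∈ riemannRochSpace (m • X.B)) ∧
      ∀ s ∈ X.S, evalAt s (P true) = ζ s * evalAt (X.Qf s) (P false) := Iff.rfl

/-- A glued pair with value one on the second component. -/
theorem exists_section (ζ : Place k K → k) {m : ℕ} (hm : X.N0 ≤ m) :
    ∃ P ∈ X.glueSp ζ m, ∀ s ∈ X.S,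
      evalAt s (P true) = ζ s ∧ evalAt (X.Qf s) (P false) = 1 := by
  classical
  have hd := X.le_degree_nsmul_B m
  unfold N0 at hm
  have hc := Finset.card_image_le (f := X.Qf) (s := X.S)
  obtain ⟨f, hf, hfv⟩ := exists_interpolation (m • X.B) X.S
    (fun s hs => X.nsmul_B_eq_zero m (X.S_B s hs)) (by omega) ζ
  obtain ⟨g, hg, hgv⟩ := exists_interpolation (m • X.B) (X.S.image X.Qf)
    (fun s hs => by
      obtain ⟨t, ht, rfl⟩ := Finset.mem_image.mp hs
      exact X.nsmul_B_eq_zero m (X.Qf_B t ht))
    (by omega) (fun _ => 1)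
  have hv : ∀ s ∈ X.S, evalAt s f = ζ s ∧ evalAt (X.Qf s) g = 1 := fun s hs =>
    ⟨(hfv s hs).2, (hgv _ (Finset.mem_image_of_mem _ hs)).2⟩
  refine ⟨fun b => cond b f g, ⟨fun b => by cases b; exacts [hg, hf], fun s hs => ?_⟩, hv⟩
  change evalAt s f = ζ s * evalAt (X.Qf s) g
  rw [(hv s hs).1, (hv s hs).2, mul_one]

/-- A glued pair consists of sections of `m B`. -/
theorem glueSp_le_pi (ζ : Place k K → k) (m : ℕ) :
    X.glueSp ζ m ≤ Submodule.pi Set.univ fun _ : Bool => riemannRochSpace (m • X.B) :=
  fun _ hP b _ => hP.1 b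

/-- Pairs of sections of `m B` form a finite-dimensional space. -/
theorem finiteDimensional_pi (m : ℕ) : FiniteDimensional k
    (Submodule.pi Set.univ fun _ : Bool => riemannRochSpace (m • X.B) :
      Submodule k (Bool → K)) := by
  let e : (Submodule.pi Set.univ fun _ : Bool => riemannRochSpace (m • X.B) :
      Submodule k (Bool → K)) →ₗ[k] (Bool → riemannRochSpace (m • X.B)) :=
    { toFun := fun P b => ⟨P.1 b, P.2 b trivial⟩
      map_add' := fun _ _ => rfl
      map_smul' := fun _ _ => rfl }
  exact FiniteDimensional.of_injective e fun P P' h =>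
    Subtype.ext (funext fun b => congrArg Subtype.val (congrFun h b))

/-- The glued systems are finite-dimensional. -/
theorem finiteDimensional_glueSp (ζ : Place k K → k) (m : ℕ) :
    FiniteDimensional k (X.glueSp ζ m) :=
  haveI := X.finiteDimensional_pi m
  Submodule.finiteDimensional_of_le (X.glueSp_le_pi ζ m)

/-- Past `N0`, a glued Riemann–Roch space has the expected dimension `2 (m deg B + 1 - g) - #S`,
whatever the ratio. -/
theorem finrank_glueSp (ζ : Place k K → k) {m : ℕ} (hm : X.N0 ≤ m) :
    (Module.finrank k (X.glueSp ζ m) : ℤ) + X.S.card =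
      2 * ((m : ℤ) * Divisor.degree X.B + 1 - genusFF k K) := by
  classical
  set V := riemannRochSpace (m • X.B)
  have hmem : ∀ (z : V), ∀ s ∈ X.S, OrdGE s (z : K) 0 ∧ OrdGE (X.Qf s) (z : K) 0 :=
    fun z s hs => ⟨X.ordGE_S z.2 (X.S_B s hs), X.ordGE_S z.2 (X.Qf_B s hs)⟩
  let Φ : (Bool → V) →ₗ[k] (X.S → k) :=
    { toFun := fun P s => evalAt (s : Place k K) (P true : K) -
        ζ s * evalAt (X.Qf s) (P false : K)
      map_add' := fun P P' => funext fun s => by
        simp only [Pi.add_apply, Submodule.coe_add]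
        rw [evalAt_add (hmem _ s s.2).1 (hmem _ s s.2).1,
          evalAt_add (hmem _ s s.2).2 (hmem _ s s.2).2]
        ring
      map_smul' := fun c P => funext fun s => by
        simp only [Pi.smul_apply, Submodule.coe_smul, RingHom.id_apply, smul_eq_mul,
          Algebra.smul_def]
        rw [evalAt_mul (ordGE_algebraMap _ _) (hmem _ s s.2).1,
          evalAt_mul (ordGE_algebraMap _ _) (hmem _ s s.2).2, evalAt_algebraMap, evalAt_algebraMap]
        ring }
  have hd := X.le_degree_nsmul_B m
  -- the gluing conditions are independent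
  have hsurj : Function.Surjective Φ := by
    intro c
    obtain ⟨f, hf, hfv⟩ := exists_interpolation (m • X.B) X.S
      (fun s hs => X.nsmul_B_eq_zero m (X.S_B s hs)) (by unfold N0 at hm; omega)
      (fun s => if h : s ∈ X.S then c ⟨s, h⟩ else 0)
    refine ⟨fun b => cond b ⟨f, hf⟩ 0, funext fun s => ?_⟩
    change evalAt (s : Place k K) f - ζ s * evalAt (X.Qf s) ((0 : V) : K) = c s
    rw [(hfv s s.2).2, dif_pos s.2, ZeroMemClass.coe_zero,
      show evalAt (X.Qf s) (0 : K) = 0 by simpa using evalAt_algebraMap (X.Qf s) (0 : k)]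
    simp
  have : Module.Free k V := Module.Free.of_divisionRing k V
  have : Module.Finite k V := FF.instFiniteRiemannRochSpace _
  let e : LinearMap.ker Φ ≃ₗ[k] X.glueSp ζ m :=
    { toFun := fun P => ⟨fun b => (P.1 b : K), fun b => (P.1 b).2, fun s hs =>
        sub_eq_zero.mp (congrFun (LinearMap.mem_ker.mp P.2) ⟨s, hs⟩)⟩
      invFun := fun P => ⟨fun b => ⟨P.1 b, P.2.1 b⟩, LinearMap.mem_ker.mpr
        (funext fun s => sub_eq_zero.mpr (P.2.2 s s.2))⟩
      left_inv := fun P => rfl
      right_inv := fun P => rfl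
      map_add' := fun P P' => rfl
      map_smul' := fun c P => rfl }
  -- rank and nullity with Riemann-Roch
  have h1 := LinearMap.finrank_range_add_finrank_ker Φ
  rw [LinearMap.range_eq_top.mpr hsurj, finrank_top, e.finrank_eq,
    Module.finrank_fintype_fun_eq_card, Fintype.card_coe, Module.finrank_pi_fintype,
    Finset.sum_const, Finset.card_univ, Fintype.card_bool] at h1
  have h2 := FF.ell_of_degree_ge (D := m • X.B) (by unfold N0 at hm; omega)
  rw [X.degree_nsmul_B, FF.ell] at h2
  simp only [smul_eq_mul] at h1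
  change (Module.finrank k V : ℤ) = _ at h2
  omega

/-- The sections of `D + m A₀`. -/
def sect (_Y : Degen π ι K) (D : Divisor L F) (m : ℕ) : Submodule L F :=
  riemannRochSpace (D + m • _Y.A0)

/-- A witness of an `n`-torsion class trivial on both components: a divisor `D` with `n D = div y`,
where `y` is integral and its reduction on each component `b` is `H b ^ n`. -/
structure Wit (n : ℕ) (D : Divisor L F) (y : F) (H : Bool → K) : Prop where
  /-- `y` is nonzero. -/
  y_ne : y ≠ 0
  /-- `D` is killed by `n`, through `y`. -/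
  div_eq : divOf L y = n • D
  /-- `y` is integral at both components. -/
  mem : y ∈ X.O
  /-- The roots are nonzero. -/
  H_ne : ∀ b, H b ≠ 0
  /-- `H b` is an `n`-th root of the reduction of `y`. -/
  red_eq : ∀ b, X.red b y = H b ^ n

/-- The reductions of the integral sections of `D + m A0`, multiplied by `H`; their `n`-th powers
are the reductions of integral sections of `n m A0`. -/
def sectRed (D : Divisor L F) (H : Bool → K) (m : ℕ) : Submodule k (Bool → K) :=
  X.redImage (X.sect D m) H

variable {n : ℕ} {D D' : Divisor L F} {y y' : F} {H H' : Bool → K}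

/-- The divisor of a witness has degree zero. -/
theorem degree_D (hn : n ≠ 0) (h : X.Wit n D y H) : Divisor.degree D = 0 := by
  have := congrArg Divisor.degree h.div_eq
  rw [degree_divOf, map_nsmul, nsmul_eq_mul, eq_comm, mul_eq_zero] at this
  exact this.resolve_left (by exact_mod_cast hn)

/-- The function of a witness is primitive at both components. -/
theorem wit_prim (h : X.Wit n D y H) (b : Bool) : X.Prim b y :=
  ⟨X.int_of_mem_O h.mem b, by rw [h.red_eq]; exact pow_ne_zero n (h.H_ne b)⟩

/-- If `g` is a section of `D + m A0` then `g ^ n y` is one of `n m A0`. -/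
theorem pow_mul_mem (h : X.Wit n D y H) {m : ℕ} {g : F} (hg : g ∈ X.sect D m) :
    g ^ n * y ∈ riemannRochSpace ((n * m) • X.A0) := by
  rw [mem_riemannRochSpace]
  intro v
  have h1 := (mem_riemannRochSpace.mp hg v).pow n
  have h2 : OrdGE v y ((n : ℤ) * D v) := (ordGE_iff_of_ne h.y_ne).mpr (by
    rw [← divOf_apply (K := L), h.div_eq]; simp)
  refine (h1.mul h2).mono ?_
  simp only [Finsupp.add_apply, Finsupp.smul_apply, nsmul_eq_mul, Nat.cast_mul]
  exact le_of_eq (by ring)

/-- The reduction of `g ^ n y` is the `n`-th power of that of `g` times `H`. -/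
theorem red_pow_mul (h : X.Wit n D y H) {g : F} (hg : g ∈ X.O) (b : Bool) :
    X.red b (g ^ n * y) = (X.red b g * H b) ^ n := by
  rw [X.red_mul (pow_mem (X.int_of_mem_O hg b) n) (X.int_of_mem_O h.mem b),
    X.red_pow (X.int_of_mem_O hg b), h.red_eq, mul_pow]

/-- An integral section of `m A0` reduces to a section of `m B`. -/
theorem red_mem_pole {b : Bool} {f : F} {m : ℕ} (hf : f ∈ X.O)
    (hm : f ∈ riemannRochSpace (m • X.A0)) : X.red b f ∈ riemannRochSpace (m • X.B) := by
  have hi := fun b => X.series_int_of_mem (X.int_of_mem_O hf b) hm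
  rw [X.red_of_int (hi b)]
  exact X.pole b m f hi hm

/-- The two reductions agree at the glued points. -/
theorem glue_red {f : F} {m : ℕ} (hf : f ∈ X.O) (hm : f ∈ riemannRochSpace (m • X.A0))
    {s : Place k K} (hs : s ∈ X.S) :
    evalAt s (X.red true f) = evalAt (X.Qf s) (X.red false f) := by
  have hi := fun b => X.series_int_of_mem (X.int_of_mem_O hf b) hm
  rw [X.red_of_int (hi true), X.red_of_int (hi false)]
  exact X.glue m f (hi true) (hi false) hm s hs

/-- If `z ^ n` is a section of `n m B` then `z` is a section of `m B`. -/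
theorem mem_of_pow_mem (hn : n ≠ 0) {m : ℕ} {z : K}
    (h : z ^ n ∈ riemannRochSpace ((n * m) • X.B)) : z ∈ riemannRochSpace (m • X.B) := by
  rw [mem_riemannRochSpace] at h ⊢
  intro v
  refine ordGE_of_pow hn ((h v).mono ?_)
  simp [mul_assoc]

/-- The twisted reductions of sections of `D + m A0` are sections of `m B`. -/
theorem sectRed_le_pi (hn : n ≠ 0) (h : X.Wit n D y H) (m : ℕ) : X.sectRed D H m ≤
    Submodule.pi Set.univ fun _ : Bool => riemannRochSpace (m • X.B) := by
  rintro P ⟨g, hg, hgO, hP⟩ b -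
  rw [hP b]
  refine X.mem_of_pow_mem hn ?_
  rw [← X.red_pow_mul h hgO b]
  exact X.red_mem_pole (mul_mem (pow_mem hgO n) h.mem) (X.pow_mul_mem h hg)

/-- Their values at glued points agree up to `n`-th roots of unity. -/
theorem eval_pow_eq (hn : n ≠ 0) (h : X.Wit n D y H) {m : ℕ} {P : Bool → K}
    (hP : P ∈ X.sectRed D H m) {s : Place k K} (hs : s ∈ X.S) :
    evalAt s (P true) ^ n = evalAt (X.Qf s) (P false) ^ n := by
  have hreg := X.sectRed_le_pi hn h m hP
  obtain ⟨g, hg, hgO, hPe⟩ := hP
  rw [← evalAt_pow (X.ordGE_S (hreg true trivial) (X.S_B s hs)),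
    ← evalAt_pow (X.ordGE_S (hreg false trivial) (X.Qf_B s hs)), hPe, hPe,
    ← X.red_pow_mul h hgO, ← X.red_pow_mul h hgO]
  have hint : ∀ b, (g ^ n * y) ∈ gInt π (ι b) := fun b => by
    exact mul_mem (pow_mem (X.int_of_mem_O hgO b) n) (X.int_of_mem_O h.mem b)
  exact X.glue_red (X.mem_O.mpr hint) (X.pow_mul_mem h hg) hs

/-- In each large degree the twisted reductions of the sections of `D + m A0` form exactly a glued
system, for a ratio of `n`-th roots of unity. -/
theorem exists_ratio_at (hn : n ≠ 0) (h : X.Wit n D y H) {m : ℕ} (hm : X.N0 ≤ m) :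
    ∃ ζ : Place k K → k, (∀ s, ζ s ^ n = 1) ∧ X.sectRed D H m = X.glueSp ζ m := by
  classical
  -- at a glued point the pairs of values span a line, on which the ratio is read off
  have hline : ∀ s : Place k K, ∃ z : k, z ^ n = 1 ∧ (s ∈ X.S → ∀ P ∈ X.sectRed D H m,
      evalAt s (P true) = z * evalAt (X.Qf s) (P false)) := by
    intro s
    by_cases hs : s ∈ X.S
    swap
    · exact ⟨1, one_pow n, fun h' => absurd h' hs⟩
    by_cases hall : ∀ P ∈ X.sectRed D H m, evalAt (X.Qf s) (P false) = 0
    · refine ⟨1, one_pow n, fun _ P hP => ?_⟩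
      have := X.eval_pow_eq hn h hP hs
      rw [hall P hP, zero_pow hn] at this
      rw [hall P hP, eq_zero_of_pow_eq_zero this, mul_zero]
    push Not at hall
    obtain ⟨P₀, hP₀, h0⟩ := hall
    refine ⟨evalAt s (P₀ true) / evalAt (X.Qf s) (P₀ false), by
      rw [div_pow, X.eval_pow_eq hn h hP₀ hs, div_self (pow_ne_zero n h0)], fun _ P hP => ?_⟩
    set c := -(evalAt (X.Qf s) (P false) / evalAt (X.Qf s) (P₀ false))
    have hR : P + c • P₀ ∈ X.sectRed D H m := add_mem hP (Submodule.smul_mem _ c hP₀)
    have hreg := X.sectRed_le_pi hn h m hP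
    have hreg₀ := X.sectRed_le_pi hn h m hP₀
    have he : ∀ (b : Bool) (v : Place k K), X.B v = 0 →
        evalAt v ((P + c • P₀) b) = evalAt v (P b) + c * evalAt v (P₀ b) := fun b v hv => by
      rw [Pi.add_apply, Pi.smul_apply, evalAt_add (X.ordGE_S (hreg b trivial) hv)
        ((X.ordGE_S (hreg₀ b trivial) hv).smul c), Algebra.smul_def,
        evalAt_mul (ordGE_algebraMap _ _) (X.ordGE_S (hreg₀ b trivial) hv), evalAt_algebraMap]
    have h1 := X.eval_pow_eq hn h hR hs
    rw [he true s (X.S_B s hs), he false (X.Qf s) (X.Qf_B s hs)] at h1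
    rw [show evalAt (X.Qf s) (P false) + c * evalAt (X.Qf s) (P₀ false) = 0 by
      rw [neg_mul, div_mul_cancel₀ _ h0, add_neg_cancel], zero_pow hn] at h1
    have h2 := eq_zero_of_pow_eq_zero h1
    rw [neg_mul] at h2
    rw [eq_of_sub_eq_zero ((sub_eq_add_neg _ _).trans h2)]
    ring
  choose ζ hζn hζ using hline
  refine ⟨ζ, hζn, ?_⟩
  have := X.finiteDimensional_glueSp ζ m
  have hle : X.sectRed D H m ≤ X.glueSp ζ m := fun P hP =>
    ⟨fun b => X.sectRed_le_pi hn h m hP b trivial, fun s hs => hζ s hs P hP⟩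
  refine Submodule.eq_of_le_of_finrank_le hle ?_
  have : FiniteDimensional k (X.redImage (X.sect D m) H) :=
    Submodule.finiteDimensional_of_le hle
  have : FiniteDimensional L (X.sect D m) := FF.instFiniteRiemannRochSpace _
  -- equality by counting: Riemann–Roch on both curves and `count`
  have h1 := X.finrank_le_redImage (W := X.sect D m) (u := H) h.H_ne
  have h2 := X.finrank_glueSp ζ hm
  have hdeg : Divisor.degree (D + m • X.A0) = 2 * ((m : ℤ) * Divisor.degree X.B) := by
    rw [map_add, X.degree_D hn h, map_nsmul, X.deg_A0, nsmul_eq_mul]; ring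
  have hd := X.le_degree_nsmul_B m
  rw [X.degree_nsmul_B] at hd
  have h3 := FF.ell_of_degree_ge (D := D + m • X.A0) (by
    rw [hdeg]; unfold N0 at hm; omega)
  rw [hdeg, FF.ell] at h3
  have h4 := X.count
  change Module.finrank k (X.glueSp ζ m) ≤ Module.finrank k (X.redImage (X.sect D m) H)
  change Module.finrank L (X.sect D m) ≤ _ at h1
  unfold sect at h1 ⊢
  omega

/-- The spaces `sect D m` grow with `m`. -/
theorem sect_mono {D : Divisor L F} {m m' : ℕ} (h : m ≤ m') :
    X.sect D m ≤ X.sect D m' :=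
  riemannRochSpace_mono (add_le_add_right (nsmul_le_nsmul_left X.A0_nonneg h) D)

end Degen

end Fermat.BAD

end
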