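import Fermat.Agent.BAD.Engine.Mul

/-!
# The residual step of the iteration: two sections with coprime zeros

Main theorem `residual`: if `Hᵢ ^ n` approximates `gᵢ ^ n y` up to `ε` for two sections `gᵢ` whose
reductions `hᵢ` have no common zero, the reduced error of the first is `n h₁ ^ (n - 1)` times a
glued pair. The quotient is a priori singular at the zeros of `h₁`; there the cross combination
`g₁ H₂ - g₂ H₁`, itself a section of the divisor, shows that it is regular. In `Kernel` this is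
what allows each Newton step to be corrected by an actual section.
-/

set_option autoImplicit false
set_option linter.unusedSectionVars false

attribute [local instance 10000] SubalgebraClass.toAlgebra HahnSeries.powerSeriesAlgebra

noncomputable section

open AlgebraicCurve

namespace Fermat.BAD

open Fermat.FF Fermat.RED.Model

variable {L : Type*} [Field L] {A : ValuationSubring L}
variable {k : Type*} [Field k] [IsAlgClosed L] [IsAlgClosed k]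
variable {F : Type*} [Field F] [Algebra L F]
variable {π : A →+* k} {ι : Bool → F →+* LaurentSeries L}
  {K : IntermediateField k (LaurentSeries k)}
variable [FF.IsFunctionField L F] [FF.IsFunctionField k K]

/-- Binomial expansion with integral remainder. -/
theorem exists_add_pow_remainder {R : Type*} [CommRing R] (x y : R) (j : ℕ) :
    ∃ q : R, (x + y) ^ (j + 1) = x ^ (j + 1) + ((j + 1 : ℕ) : R) * x ^ j * y + y ^ 2 * q := by
  induction j with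
  | zero => exact ⟨0, by simp⟩
  | succ j ih =>
    obtain ⟨q, hq⟩ := ih
    refine ⟨((j + 1 : ℕ) : R) * x ^ j + (x + y) * q, ?_⟩
    rw [pow_succ, hq]
    push_cast
    ring

namespace Degen

variable (X : Degen π ι K)
include X

/-- Natural numbers reduce to themselves. -/
theorem red_natCast (b : Bool) (j : ℕ) : X.red b ((j : ℕ) : F) = (j : K) := by
  induction j with
  | zero => simp
  | succ j ih =>
    rw [Nat.cast_succ, Nat.cast_succ, X.red_add (natCast_mem _ _)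
      (one_mem _), ih, X.red_one]

omit X in
/-- A number invertible in `k` is nonzero in `K`. -/
theorem red_ne_zero_natCast {j : ℕ} (hj : ((j : ℕ) : k) ≠ 0) : ((j : ℕ) : K) ≠ 0 := by
  rw [← map_natCast (algebraMap k K)]; exact (_root_.map_ne_zero _).mpr hj

/-- An exact section: exact poles `m B`, value one at the glued points on both components and on
`T`. -/
structure Exact (h : K) (m : ℕ) (T : Finset (Place k K)) : Prop where
  /-- `h` is a section of `m B`. -/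
  mem : h ∈ riemannRochSpace (m • X.B)
  /-- `h` is nonzero. -/
  ne : h ≠ 0
  /-- Its poles are exactly `m B`. -/
  pole : ∀ v, X.B v ≠ 0 → v.ord h = -((m : ℤ) * X.B v)
  /-- Its value is one at the glued points, at their partners and on `T`. -/
  one : ∀ s, (s ∈ X.S ∨ (∃ t ∈ X.S, X.Qf t = s) ∨ s ∈ T) → evalAt s h = 1

/-- For finitely many points off the poles there is in large degree a section with full poles and
value `1` at them, at the glued points and at their images. -/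
theorem exists_exact (T : Finset (Place k K)) (hT : ∀ t ∈ T, X.B t = 0) :
    ∃ (m : ℕ) (h : K), X.N0 ≤ m ∧ X.Exact h m T := by
  classical
  set U := X.S ∪ X.S.image X.Qf ∪ T with hU
  have hUB : ∀ t ∈ U, X.B t = 0 := by
    intro t ht
    rcases Finset.mem_union.mp ht with ht | ht
    · rcases Finset.mem_union.mp ht with ht | ht
      · exact X.S_B t ht
      · obtain ⟨s, hs, rfl⟩ := Finset.mem_image.mp ht
        exact X.Qf_B s hs
    · exact hT t ht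
  set m := X.N0 + U.card + 2 * genusFF k K + 1 with hm
  have hd := X.deg_B_pos
  obtain ⟨h, hmem, hne, hp, hone⟩ := exists_exact_one X.B_nonneg X.B_ne U hUB m (by
    rw [hm]; push_cast; nlinarith)
  refine ⟨m, h, by omega, hmem, hne, hp, fun s hs => (hone s ?_).2⟩
  rcases hs with hs | ⟨t, ht, rfl⟩ | hs
  · exact Finset.mem_union_left _ (Finset.mem_union_left _ hs)
  · exact Finset.mem_union_left _ (Finset.mem_union_right _ (Finset.mem_image_of_mem _ ht))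
  · exact Finset.mem_union_right _ hs

/-- An exact section is glued to itself with ratio one. -/
theorem exact_glue {h : K} {m : ℕ} {T : Finset (Place k K)} (he : X.Exact h m T) :
    (fun _ : Bool => h) ∈ X.glueSp (fun _ => 1) m :=
  ⟨fun _ => he.mem, fun s hs => by
    rw [he.one s (.inl hs), he.one (X.Qf s) (.inr (.inl ⟨s, hs, rfl⟩)), one_mul]⟩

variable {n : ℕ} {D : Divisor L F} {y : F} {H : Bool → K}

omit X in
/-- A function regular and nonzero at a place has order zero there. -/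
theorem ord_eq_zero_of_eval {z : K} {v : Place k K} (hz : z ≠ 0) (h : OrdGE v z 0)
    (h1 : evalAt v z ≠ 0) : v.ord z = 0 := by
  refine le_antisymm ?_ (h.le_ord hz)
  by_contra hlt
  exact h1 ((evalAt_eq_zero_iff h).mpr ((ordGE_iff_of_ne hz).mpr (by omega)))

omit X in
/-- Division by `(j + 1) h ^ j` lowers orders by at most `j` times that of `h`. -/
private theorem ordGE_div {j : ℕ} (hnK : ((j + 1 : ℕ) : K) ≠ 0) {h η e : K}
    {v : Place k K} {c c' : ℤ} (hh : h ≠ 0) (heq : e = ((j + 1 : ℕ) : K) * h ^ j * η)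
    (hv : OrdGE v e c)
    (hle : (j : ℤ) * v.ord h + c' ≤ c) : OrdGE v η c' := by
  rcases eq_or_ne η 0 with rfl | hη
  · exact ordGE_zero _ _
  rw [ordGE_iff_of_ne hη]
  have h1 := hv.le_ord (by rw [heq]; exact mul_ne_zero (mul_ne_zero hnK (pow_ne_zero _ hh)) hη)
  rw [heq, v.ord_mul (mul_ne_zero hnK (pow_ne_zero _ hh)) hη, v.ord_mul hnK (pow_ne_zero _ hh),
    FF.ord_pow, ← map_natCast (algebraMap k K), FF.ord_algebraMap] at h1
  omega

/-- A geometric sum in two elements with the same reduction reduces to a multiple of a power. -/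
private theorem red_geom_sum {M N : F} (hM : M ∈ X.O) (hN : N ∈ X.O) {c : K} {b : Bool}
    (hMr : X.red b M = c) (hNr : X.red b N = c) (l : ℕ) :
    X.red b (∑ i ∈ Finset.range l, M ^ i * N ^ (l - 1 - i)) = (l : K) * c ^ (l - 1) := by
  have hi : ∀ {z : F}, z ∈ X.O → z ∈ gInt π (ι b) := fun hz => X.int_of_mem_O hz b
  rw [X.red_sum _ fun i _ => hi (mul_mem (pow_mem hM _) (pow_mem hN _)),
    Finset.sum_eq_card_nsmul (b := c ^ (l - 1)) fun i hi' => by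
      rw [X.red_mul (hi (pow_mem hM _)) (hi (pow_mem hN _)), X.red_pow (hi hM),
        X.red_pow (hi hN), hMr, hNr, ← pow_add]
      congr 1
      have := Finset.mem_range.mp hi'
      omega, Finset.card_range, nsmul_eq_mul]

/-- The reduction of `g ^ j y` for a section `g` of reduction `h / H`. -/
private theorem red_section_pow_mul {j : ℕ} (hW : X.Wit (j + 1) D y H) {g : F}
    (hg : g ∈ X.O) {h : K}
    (hgr : ∀ b, X.red b g * H b = h) (b : Bool) : X.red b (g ^ j * y) = h ^ j * H b := by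
  rw [X.red_mul (X.int_of_mem_O (pow_mem hg _) b) (X.int_of_mem_O hW.mem b),
    X.red_pow (X.int_of_mem_O hg b), hW.red_eq, pow_succ, ← mul_assoc, ← mul_pow, hgr]

omit X in
/-- The `(j + 1)`-st power identity for `M = g₁ g₂ ^ j y` and `N = H₁ H₂ ^ j`, divided by `ε`. -/
private theorem smul_inv_sub_mul_geom_sum {R : Type*} [Field R] [Algebra L R] {ε : L} (hε : ε ≠ 0)
    {j : ℕ} {y g₁ g₂ H₁ H₂ e₁ e₂ : R} (heq₁ : g₁ ^ (j + 1) * y - H₁ ^ (j + 1) = ε • e₁)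
    (heq₂ : g₂ ^ (j + 1) * y - H₂ ^ (j + 1) = ε • e₂) :
    ε⁻¹ • (g₁ * g₂ ^ j * y - H₁ * H₂ ^ j) *
        (∑ i ∈ Finset.range (j + 1), (g₁ * g₂ ^ j * y) ^ i * (H₁ * H₂ ^ j) ^ (j + 1 - 1 - i))
      = e₁ * (g₂ ^ (j + 1) * y) ^ j + H₁ ^ (j + 1) * e₂ *
        (∑ i ∈ Finset.range j, (g₂ ^ (j + 1) * y) ^ i * (H₂ ^ (j + 1)) ^ (j - 1 - i)) := by
  set M := g₁ * g₂ ^ j * y
  set N := H₁ * H₂ ^ j with hN
  set f₂ := g₂ ^ (j + 1) * y with hf₂
  set sig₁ := ∑ i ∈ Finset.range (j + 1), M ^ i * N ^ (j + 1 - 1 - i)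
  set sig₂ := ∑ i ∈ Finset.range j, f₂ ^ i * (H₂ ^ (j + 1)) ^ (j - 1 - i)
  have h1 : sig₁ * (M - N) = M ^ (j + 1) - N ^ (j + 1) := geom_sum₂_mul M N (j + 1)
  have h2 : sig₂ * (f₂ - H₂ ^ (j + 1)) = f₂ ^ j - (H₂ ^ (j + 1)) ^ j := geom_sum₂_mul _ _ _
  have h3 : M ^ (j + 1) = (g₁ ^ (j + 1) * y) * f₂ ^ j := by simp only [M, hf₂]; ring
  have h4 : M ^ (j + 1) - N ^ (j + 1)
      = algebraMap L R ε * (e₁ * f₂ ^ j + H₁ ^ (j + 1) * e₂ * sig₂) := by
    rw [h3, hN]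
    rw [Algebra.smul_def] at heq₁ heq₂
    linear_combination f₂ ^ j * heq₁ - H₁ ^ (j + 1) * h2 + H₁ ^ (j + 1) * sig₂ * heq₂
  rw [smul_mul_assoc, mul_comm (M - N), h1, h4, ← Algebra.smul_def, smul_smul,
    inv_mul_cancel₀ hε, one_smul]

variable {j : ℕ} {h₁ h₂ : K} {m₁ m₂ : ℕ} {g₁ g₂ H₁ H₂ e₁ e₂ : F} {ε : L} {η₁ η₂ : Bool → K}

/-- The error of `M` against `N` is integral, and its reduction is determined by the reduced errors
`η₁`, `η₂` of the two sections. -/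
private theorem red_mixed_error (hnK : ((j + 1 : ℕ) : K) ≠ 0) (hW : X.Wit (j + 1) D y H)
    (hh₁ : h₁ ≠ 0) (hh₂ : h₂ ≠ 0) (hg₁O : g₁ ∈ X.O) (hg₂O : g₂ ∈ X.O)
    (hgr₁ : ∀ b, X.red b g₁ * H b = h₁) (hgr₂ : ∀ b, X.red b g₂ * H b = h₂)
    (hH₁O : H₁ ∈ X.O) (hH₂O : H₂ ∈ X.O) (hHr₁ : ∀ b, X.red b H₁ = h₁) (hHr₂ : ∀ b, X.red b H₂ = h₂)
    (he₁O : e₁ ∈ X.O) (he₂O : e₂ ∈ X.O) (hε : ε ≠ 0)
    (heq₁ : g₁ ^ (j + 1) * y - H₁ ^ (j + 1) = ε • e₁)
    (heq₂ : g₂ ^ (j + 1) * y - H₂ ^ (j + 1) = ε • e₂)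
    (hee₁ : ∀ b, X.red b e₁ = ((j + 1 : ℕ) : K) * h₁ ^ j * η₁ b)
    (hee₂ : ∀ b, X.red b e₂ = ((j + 1 : ℕ) : K) * h₂ ^ j * η₂ b) :
    ε⁻¹ • (g₁ * g₂ ^ j * y - H₁ * H₂ ^ j) ∈ X.O ∧
      ∀ b, X.red b (ε⁻¹ • (g₁ * g₂ ^ j * y - H₁ * H₂ ^ j)) * h₂ =
        h₂ ^ (j + 1) * η₁ b + (j : K) * h₁ * h₂ ^ j * η₂ b := by
  have hi : ∀ {z : F}, z ∈ X.O → ∀ b, z ∈ gInt π (ι b) := fun hz b => X.int_of_mem_O hz b
  have huE := smul_inv_sub_mul_geom_sum hε heq₁ heq₂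
  set M := g₁ * g₂ ^ j * y with hM
  set N := H₁ * H₂ ^ j with hN
  set f₂ := g₂ ^ (j + 1) * y with hf₂
  set sig₁ := ∑ i ∈ Finset.range (j + 1), M ^ i * N ^ (j + 1 - 1 - i) with hS1
  set sig₂ := ∑ i ∈ Finset.range j, f₂ ^ i * (H₂ ^ (j + 1)) ^ (j - 1 - i) with hS2
  set u := ε⁻¹ • (M - N)
  have hMO : M ∈ X.O := mul_mem (mul_mem hg₁O (pow_mem hg₂O _)) hW.mem
  have hNO : N ∈ X.O := mul_mem hH₁O (pow_mem hH₂O _)
  have hf₂O : f₂ ∈ X.O := mul_mem (pow_mem hg₂O _) hW.mem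
  have hsig₁O : sig₁ ∈ X.O := sum_mem fun i _ => mul_mem (pow_mem hMO _) (pow_mem hNO _)
  have hsig₂O : sig₂ ∈ X.O := sum_mem fun i _ => mul_mem (pow_mem hf₂O _)
    (pow_mem (pow_mem hH₂O _) _)
  have hf₂r : ∀ b, X.red b f₂ = h₂ ^ (j + 1) := fun b => by
    rw [hf₂, X.red_pow_mul hW hg₂O, hgr₂]
  have hsig₁r : ∀ b, X.red b sig₁ = ((j + 1 : ℕ) : K) * (h₁ * h₂ ^ j) ^ j := fun b => by
    refine X.red_geom_sum hMO hNO ?_ ?_ (j + 1)
    · rw [hM, mul_assoc, X.red_mul (hi hg₁O b) (hi (mul_mem (pow_mem hg₂O _) hW.mem) b),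
        X.red_section_pow_mul hW hg₂O hgr₂, ← hgr₁ b]
      ring
    · rw [hN, X.red_mul (hi hH₁O b) (hi (pow_mem hH₂O _) b), X.red_pow (hi hH₂O b), hHr₁, hHr₂]
  have hsig₂r : ∀ b, X.red b sig₂ * h₂ ^ (j + 1) = (j : K) * (h₂ ^ (j + 1)) ^ j := fun b => by
    rw [hS2, X.red_geom_sum hf₂O (pow_mem hH₂O _) (hf₂r b) (by rw [X.red_pow (hi hH₂O b), hHr₂]) j]
    rcases Nat.eq_zero_or_pos j with rfl | hj
    · simp only [Nat.cast_zero, zero_mul]
    · rw [mul_assoc, ← pow_succ, Nat.sub_add_cancel hj]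
  have hEO : u * sig₁ ∈ X.O := huE ▸
    add_mem (mul_mem he₁O (pow_mem hf₂O _)) (mul_mem (mul_mem (pow_mem hH₁O _) he₂O) hsig₂O)
  -- `u * sig₁` is integral and `sig₁` primitive
  have huO : u ∈ X.O := X.mem_O.mpr fun b => X.mem_gInt_of_mul_prim ⟨hi hsig₁O b, by
    rw [hsig₁r]
    exact mul_ne_zero hnK (pow_ne_zero _ (mul_ne_zero hh₁ (pow_ne_zero _ hh₂)))⟩ (hi hEO b)
  refine ⟨huO, fun b => mul_right_cancel₀
    (mul_ne_zero (mul_ne_zero hnK (pow_ne_zero j (mul_ne_zero hh₁ (pow_ne_zero j hh₂))))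
      (pow_ne_zero (j + 1) hh₂)) ?_⟩
  have hub : X.red b u * (((j + 1 : ℕ) : K) * (h₁ * h₂ ^ j) ^ j) * h₂ ^ (j + 1)
      = X.red b e₁ * (h₂ ^ (j + 1)) ^ j * h₂ ^ (j + 1) +
        h₁ ^ (j + 1) * X.red b e₂ * ((j : K) * (h₂ ^ (j + 1)) ^ j) := by
    rw [← hsig₂r b, ← hsig₁r b, ← X.red_mul (hi huO b) (hi hsig₁O b), huE,
      X.red_add (hi (mul_mem he₁O (pow_mem hf₂O _)) b)
        (hi (mul_mem (mul_mem (pow_mem hH₁O _) he₂O) hsig₂O) b),
      X.red_mul (hi he₁O b) (hi (pow_mem hf₂O _) b), X.red_pow (hi hf₂O b), hf₂r,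
      X.red_mul (hi (mul_mem (pow_mem hH₁O _) he₂O) b) (hi hsig₂O b),
      X.red_mul (hi (pow_mem hH₁O _) b) (hi he₂O b), X.red_pow (hi hH₁O b), hHr₁]
    ring
  rw [hee₁, hee₂] at hub
  linear_combination h₂ * hub

/-- The cross combination of two sections and their approximations is a section of the sum. -/
private theorem cross_mem_sect (hg₁ : g₁ ∈ X.sect D m₁) (hg₂ : g₂ ∈ X.sect D m₂)
    (hH₁ : H₁ ∈ riemannRochSpace (m₁ • X.A0)) (hH₂ : H₂ ∈ riemannRochSpace (m₂ • X.A0)) :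
    ε⁻¹ • (g₁ * H₂ - g₂ * H₁) ∈ X.sect D (m₁ + m₂) := by
  refine Submodule.smul_mem _ _ (sub_mem ?_ ?_)
  · refine mem_riemannRochSpace.mpr fun v => ?_
    refine ((mem_riemannRochSpace.mp hg₁ v).mul (mem_riemannRochSpace.mp hH₂ v)).mono ?_
    simp only [Finsupp.add_apply, Finsupp.smul_apply, nsmul_eq_mul, Nat.cast_add]
    exact le_of_eq (by ring)
  · refine mem_riemannRochSpace.mpr fun v => ?_
    refine ((mem_riemannRochSpace.mp hg₂ v).mul (mem_riemannRochSpace.mp hH₁ v)).mono ?_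
    simp only [Finsupp.add_apply, Finsupp.smul_apply, nsmul_eq_mul, Nat.cast_add]
    exact le_of_eq (by ring)

/-- The reduced cross combination has poles bounded by `(m₁ + m₂) B`. -/
private theorem cross_red_mem (hnK : ((j + 1 : ℕ) : K) ≠ 0) (hW : X.Wit (j + 1) D y H)
    (hh₁ : h₁ ≠ 0) (hh₂ : h₂ ≠ 0) (hg₁ : g₁ ∈ X.sect D m₁) (hg₁O : g₁ ∈ X.O)
    (hg₂ : g₂ ∈ X.sect D m₂) (hg₂O : g₂ ∈ X.O)
    (hgr₁ : ∀ b, X.red b g₁ * H b = h₁) (hgr₂ : ∀ b, X.red b g₂ * H b = h₂)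
    (hH₁ : H₁ ∈ riemannRochSpace (m₁ • X.A0)) (hH₁O : H₁ ∈ X.O)
    (hH₂ : H₂ ∈ riemannRochSpace (m₂ • X.A0)) (hH₂O : H₂ ∈ X.O)
    (hHr₁ : ∀ b, X.red b H₁ = h₁) (hHr₂ : ∀ b, X.red b H₂ = h₂)
    (he₁O : e₁ ∈ X.O) (he₂O : e₂ ∈ X.O) (hε : ε ≠ 0)
    (heq₁ : g₁ ^ (j + 1) * y - H₁ ^ (j + 1) = ε • e₁)
    (heq₂ : g₂ ^ (j + 1) * y - H₂ ^ (j + 1) = ε • e₂)
    (hee₁ : ∀ b, X.red b e₁ = ((j + 1 : ℕ) : K) * h₁ ^ j * η₁ b)
    (hee₂ : ∀ b, X.red b e₂ = ((j + 1 : ℕ) : K) * h₂ ^ j * η₂ b) (b : Bool) :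
    h₂ * η₁ b - h₁ * η₂ b ∈ riemannRochSpace ((m₁ + m₂) • X.B) := by
  have hi : ∀ {z : F}, z ∈ X.O → ∀ b, z ∈ gInt π (ι b) := fun hz b => X.int_of_mem_O hz b
  obtain ⟨huO, hub⟩ := X.red_mixed_error hnK hW hh₁ hh₂ hg₁O hg₂O hgr₁ hgr₂ hH₁O hH₂O hHr₁ hHr₂
    he₁O he₂O hε heq₁ heq₂ hee₁ hee₂
  set u := ε⁻¹ • (g₁ * g₂ ^ j * y - H₁ * H₂ ^ j) with hu
  set z := ε⁻¹ • (g₁ * H₂ - g₂ * H₁) with hz
  have hgyO : g₂ ^ j * y ∈ X.O := mul_mem (pow_mem hg₂O _) hW.mem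
  -- `z` times a primitive function is a combination of `u` and `e₂`
  have hzeq : z * (g₂ ^ j * y) = u * H₂ - e₂ * H₁ := by
    have hMN : g₁ * g₂ ^ j * y - H₁ * H₂ ^ j = ε • u := by
      rw [hu, smul_smul, mul_inv_cancel₀ hε, one_smul]
    have e : (g₁ * H₂ - g₂ * H₁) * (g₂ ^ j * y) = ε • (u * H₂ - e₂ * H₁) := by
      rw [Algebra.smul_def] at heq₂ hMN ⊢
      linear_combination H₂ * hMN - H₁ * heq₂
    rw [hz, smul_mul_assoc, e, smul_smul, inv_mul_cancel₀ hε, one_smul]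
  have hzO : z ∈ X.O := X.mem_O.mpr fun b => X.mem_gInt_of_mul_prim ⟨hi hgyO b, by
    rw [X.red_section_pow_mul hW hg₂O hgr₂]; exact mul_ne_zero (pow_ne_zero _ hh₂) (hW.H_ne b)⟩ (by
    rw [hzeq]; exact hi (sub_mem (mul_mem huO hH₂O) (mul_mem he₂O hH₁O)) b)
  have hP : ∀ b, X.red b z * H b = h₂ * η₁ b - h₁ * η₂ b := fun b => by
    refine mul_right_cancel₀ (pow_ne_zero j hh₂) ?_
    have h1 := congrArg (X.red b) hzeq
    rw [X.red_mul (hi hzO b) (hi hgyO b), X.red_section_pow_mul hW hg₂O hgr₂,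
      X.red_sub (hi (mul_mem huO hH₂O) b) (hi (mul_mem he₂O hH₁O) b),
      X.red_mul (hi huO b) (hi hH₂O b), X.red_mul (hi he₂O b) (hi hH₁O b), hHr₁, hHr₂, hub b,
      hee₂] at h1
    push_cast at h1
    linear_combination h1
  exact hP b ▸ X.sectRed_le_pi (Nat.succ_ne_zero j) hW (m₁ + m₂) (x := fun b => X.red b z * H b)
    ⟨z, X.cross_mem_sect hg₁ hg₂ hH₁ hH₂, hzO, fun _ => rfl⟩ b trivial

/-- The error of an approximation of a section has poles bounded by `(j + 1) m A0`. -/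
private theorem error_mem (hW : X.Wit (j + 1) D y H) (hε : ε ≠ 0) {g Hh e : F} {m : ℕ}
    (hg : g ∈ X.sect D m) (hHh : Hh ∈ riemannRochSpace (m • X.A0))
    (heq : g ^ (j + 1) * y - Hh ^ (j + 1) = ε • e) :
    e ∈ riemannRochSpace (((j + 1) * m) • X.A0) := by
  have h1 : Hh ^ (j + 1) ∈ riemannRochSpace (((j + 1) * m) • X.A0) :=
    mem_riemannRochSpace.mpr fun v => ((mem_riemannRochSpace.mp hHh v).pow (j + 1)).mono (by
      simp only [Finsupp.smul_apply, nsmul_eq_mul, Nat.cast_mul]; exact le_of_eq (by ring))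
  have h2 := Submodule.smul_mem _ ε⁻¹ (sub_mem (X.pow_mul_mem hW hg) h1)
  rwa [heq, smul_smul, inv_mul_cancel₀ hε, one_smul] at h2

/-- The reduced error `η₁` has poles bounded by `m₁ B`: at a zero of `h₁` the cross combination
controls it, as `h₂` is a unit there. -/
private theorem quot_mem (hnK : ((j + 1 : ℕ) : K) ≠ 0) {T₁ T₂ : Finset (Place k K)}
    (he₁ : X.Exact h₁ m₁ T₁) (he₂ : X.Exact h₂ m₂ T₂)
    (hzeros : ∀ v : Place k K, 0 < v.ord h₁ → evalAt v h₂ ≠ 0) {r₁ r₂ a₁ a₂ : K}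
    (hee₁ : r₁ = ((j + 1 : ℕ) : K) * h₁ ^ j * a₁) (hee₂ : r₂ = ((j + 1 : ℕ) : K) * h₂ ^ j * a₂)
    (hr₁ : r₁ ∈ riemannRochSpace (((j + 1) * m₁) • X.B))
    (hr₂ : r₂ ∈ riemannRochSpace (((j + 1) * m₂) • X.B))
    (hPreg : h₂ * a₁ - h₁ * a₂ ∈ riemannRochSpace ((m₁ + m₂) • X.B)) :
    a₁ ∈ riemannRochSpace (m₁ • X.B) := by
  rw [mem_riemannRochSpace]
  intro v
  have hv := mem_riemannRochSpace.mp hr₁ v
  by_cases hBv : X.B v = 0
  · rw [X.nsmul_B_eq_zero _ hBv, neg_zero] at hv ⊢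
    have h0 := (X.ordGE_S he₁.mem hBv).le_ord he₁.ne
    rcases h0.lt_or_eq with hpos | hzero
    -- at a zero of `h₁`, use the cross combination
    · have hh₂ : v.ord h₂ = 0 := Degen.ord_eq_zero_of_eval he₂.ne (X.ordGE_S he₂.mem hBv)
        (hzeros v hpos)
      have hv₂ := mem_riemannRochSpace.mp hr₂ v
      rw [X.nsmul_B_eq_zero _ hBv, neg_zero] at hv₂
      have hη₂v : OrdGE v a₂ 0 := ordGE_div hnK he₂.ne hee₂ hv₂ (by rw [hh₂]; simp)
      have h3 : OrdGE v (h₂ * a₁) 0 := by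
        have := (X.ordGE_S hPreg hBv).add
          (((X.ordGE_S he₁.mem hBv).mul hη₂v).mono (by norm_num))
        rwa [sub_add_cancel] at this
      rcases eq_or_ne a₁ 0 with h0' | h0'
      · rw [h0']; exact ordGE_zero _ _
      rw [ordGE_iff_of_ne h0']
      have := h3.le_ord (mul_ne_zero he₂.ne h0')
      rw [v.ord_mul he₂.ne h0', hh₂] at this
      omega
    · exact ordGE_div hnK he₁.ne hee₁ hv (by rw [← hzero]; simp)
  · refine ordGE_div hnK he₁.ne hee₁ hv ?_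
    rw [he₁.pole v hBv]
    simp only [Finsupp.smul_apply, nsmul_eq_mul, Nat.cast_mul, Nat.cast_add, Nat.cast_one]
    exact le_of_eq (by ring)

/-- **Residual step.** At any precision `ε`, the error of `H₁ ^ n` against `g₁ ^ n y` lies, after
reduction, in `n h₁ ^ (n - 1)` times the glued system. -/
theorem residual (hnk : (n : k) ≠ 0) (hW : X.Wit n D y H)
    {h₁ h₂ : K} {m₁ m₂ : ℕ} {T₁ T₂ : Finset (Place k K)}
    (he₁ : X.Exact h₁ m₁ T₁) (he₂ : X.Exact h₂ m₂ T₂)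
    (hzeros : ∀ v : Place k K, 0 < v.ord h₁ → evalAt v h₂ ≠ 0)
    {g₁ g₂ : F} (hg₁ : g₁ ∈ X.sect D m₁) (hg₁O : g₁ ∈ X.O) (hg₂ : g₂ ∈ X.sect D m₂)
    (hg₂O : g₂ ∈ X.O) (hgr₁ : ∀ b, X.red b g₁ * H b = h₁) (hgr₂ : ∀ b, X.red b g₂ * H b = h₂)
    {H₁ H₂ e₁ e₂ : F} (hH₁ : H₁ ∈ riemannRochSpace (m₁ • X.A0)) (hH₁O : H₁ ∈ X.O)
    (hH₂ : H₂ ∈ riemannRochSpace (m₂ • X.A0)) (hH₂O : H₂ ∈ X.O)
    (hHr₁ : ∀ b, X.red b H₁ = h₁) (hHr₂ : ∀ b, X.red b H₂ = h₂)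
    (he₁O : e₁ ∈ X.O) (he₂O : e₂ ∈ X.O) {ε : L} (hε : ε ≠ 0)
    (heq₁ : g₁ ^ n * y - H₁ ^ n = ε • e₁) (heq₂ : g₂ ^ n * y - H₂ ^ n = ε • e₂) :
    ∃ η ∈ X.glueSp (fun _ => 1) m₁, ∀ b, X.red b e₁ = (n : K) * h₁ ^ (n - 1) * η b := by
  obtain ⟨j, rfl⟩ : ∃ j, n = j + 1 :=
    Nat.exists_eq_succ_of_ne_zero fun h => hnk (by rw [h, Nat.cast_zero])
  have hnK : ((j + 1 : ℕ) : K) ≠ 0 := Degen.red_ne_zero_natCast hnk
  simp only [Nat.add_sub_cancel]
  -- divide the reductions by `n * h ^ (n - 1)`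
  set η₁ : Bool → K := fun b => X.red b e₁ / (((j + 1 : ℕ) : K) * h₁ ^ j)
  set η₂ : Bool → K := fun b => X.red b e₂ / (((j + 1 : ℕ) : K) * h₂ ^ j)
  have hee₁ : ∀ b, X.red b e₁ = ((j + 1 : ℕ) : K) * h₁ ^ j * η₁ b := fun b =>
    (mul_div_cancel₀ _ (mul_ne_zero hnK (pow_ne_zero _ he₁.ne))).symm
  have hee₂ : ∀ b, X.red b e₂ = ((j + 1 : ℕ) : K) * h₂ ^ j * η₂ b := fun b =>
    (mul_div_cancel₀ _ (mul_ne_zero hnK (pow_ne_zero _ he₂.ne))).symm
  -- the cross relation puts the quotient in the Riemann–Roch space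
  have hη₁mem : ∀ b, η₁ b ∈ riemannRochSpace (m₁ • X.B) := fun b =>
    X.quot_mem hnK he₁ he₂ hzeros (hee₁ b) (hee₂ b)
      (X.red_mem_pole he₁O (X.error_mem hW hε hg₁ hH₁ heq₁))
      (X.red_mem_pole he₂O (X.error_mem hW hε hg₂ hH₂ heq₂))
      (X.cross_red_mem hnK hW he₁.ne he₂.ne hg₁ hg₁O hg₂ hg₂O hgr₁ hgr₂ hH₁ hH₁O hH₂ hH₂O hHr₁ hHr₂
        he₁O he₂O hε heq₁ heq₂ hee₁ hee₂ b)
  refine ⟨η₁, ⟨hη₁mem, fun s hs => ?_⟩, hee₁⟩
  -- and it glues, as `h₁` is one at the glued points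
  have hg : evalAt s (X.red true e₁) = evalAt (X.Qf s) (X.red false e₁) := by
    exact X.glue_red he₁O (X.error_mem hW hε hg₁ hH₁ heq₁) hs
  have hev : ∀ (b : Bool) (v : Place k K), X.B v = 0 → evalAt v h₁ = 1 →
      evalAt v (X.red b e₁) = ((j + 1 : ℕ) : k) * evalAt v (η₁ b) := fun b v hv h1 => by
    have hc : OrdGE v ((j + 1 : ℕ) : K) 0 := by
      rw [← map_natCast (algebraMap k K)]; exact ordGE_algebraMap v _
    have hp := (X.ordGE_S he₁.mem hv).pow j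
    rw [mul_zero] at hp
    rw [hee₁, evalAt_mul ((hc.mul hp).mono le_rfl) (X.ordGE_S (hη₁mem b) hv), evalAt_mul hc hp,
      evalAt_pow (X.ordGE_S he₁.mem hv), h1, one_pow, mul_one,
      ← map_natCast (algebraMap k K), evalAt_algebraMap]
  rw [hev true s (X.S_B s hs) (he₁.one s (.inl hs)),
    hev false _ (X.Qf_B s hs) (he₁.one _ (.inr (.inl ⟨s, hs, rfl⟩)))] at hg
  rw [one_mul]
  exact mul_left_cancel₀ hnk hg

end Degen

end Fermat.BAD

end
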